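import Fermat.Agent.Density.Inertia
import Mathlib.FieldTheory.Galois.IsGaloisGroup

/-!
# Places of `ℚbar` over a prime of a finite Galois extension of `ℚ`

Every element of the decomposition (resp. inertia) group of a prime of a finite Galois extension
lifts to the decomposition (resp. inertia) group of a place above it.
-/

set_option autoImplicit false

noncomputable section

open scoped Pointwise NumberField

namespace FLTAgent.ECReduction

open FLTAgent.Density

/-- An element of `Gal(ℚbar/ℚ)` fixing the prime `Q` below a place and trivial on the residue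
ring of algebraic integers is in the inertia group of the place. -/
theorem mem_inertiaSubgroupIn_of_forall_sub_mem {A : ValuationSubring Qbar} {q : ℕ}
    (hq : q.Prime) (hA : A.LiesOverPrime q) {σ : GalQ}
    (hQ : σ • primeBelow A = primeBelow A)
    (h : ∀ a : Zbar, σ • a - a ∈ primeBelow A) : σ ∈ A.inertiaSubgroupIn ℚ := by
  have hd : σ ∈ A.decompositionSubgroup ℚ := MulAction.mem_stabilizer_iff.2
    (eq_of_primeBelow_eq hq (smul_liesOverPrime σ hA) hA (by rw [primeBelow_smul, hQ]))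
  refine mem_inertiaSubgroupIn_iff.2 ⟨hd, fun x hx => ?_⟩
  obtain ⟨a, s, hs, hxs⟩ := exists_eq_div hq hA hx
  have hss : σ • s ∉ primeBelow A := fun hm => hs (by simpa using sub_mem hm (h s))
  rw [mem_primeBelow, ValuationSubring.mem_nonunits_iff, not_lt] at hss
  have hv : A.valuation ((σ • s : Zbar) : Qbar) = 1 :=
    le_antisymm ((A.valuation_le_one_iff _).2 (mem_of_isIntegral A (σ • s : Zbar).2)) hss
  have e : (σ x - x) * ((σ • s : Zbar) : Qbar)
      = ((σ • a - a : Zbar) : Qbar) - x * ((σ • s - s : Zbar) : Qbar) := by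
    have h1 : σ x * σ (s : Qbar) = σ (a : Qbar) := by rw [← map_mul, hxs]
    change (σ x - x) * σ (s : Qbar) = (σ (a : Qbar) - (a : Qbar)) - x * (σ (s : Qbar) - (s : Qbar))
    linear_combination h1 - hxs
  have h2 : A.valuation ((σ x - x) * ((σ • s : Zbar) : Qbar)) < 1 := by
    rw [e]
    refine A.valuation.map_sub_lt ((A.mem_nonunits_iff).1 (mem_primeBelow.1 (h a))) ?_
    rw [map_mul]
    exact lt_of_le_of_lt (mul_le_of_le_one_left' ((A.valuation_le_one_iff x).2 hx))
      ((A.mem_nonunits_iff).1 (mem_primeBelow.1 (h s)))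
  rw [map_mul, hv, mul_one] at h2
  exact A.mem_nonunits_iff.2 h2

end FLTAgent.ECReduction

namespace FLTAgent.ExtVanishing

open FLTAgent.Density FLTAgent.ECReduction

variable (L : IntermediateField ℚ Qbar)

/-- The integers of `L` inside the algebraic integers. -/
def intEmb : 𝓞 L →+* Zbar where
  toFun y := ⟨((y : L) : Qbar), (y.isIntegral_coe).map (L.val.restrictScalars ℤ)⟩
  map_one' := rfl
  map_mul' _ _ := rfl
  map_zero' := rfl
  map_add' _ _ := rfl

theorem intEmb_injective : Function.Injective (intEmb L) := fun _ _ hab =>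
  Subtype.ext (Subtype.ext (congrArg (fun z : Zbar => (z : Qbar)) hab :))

theorem exists_intEmb_eq_of_fixed {x : Zbar}
    (hx : ∀ g ∈ L.fixingSubgroup, g (x : Qbar) = (x : Qbar)) : ∃ y : 𝓞 L, intEmb L y = x := by
  have hxL : (x : Qbar) ∈ L := by
    rw [← InfiniteGalois.fixedField_fixingSubgroup L, IntermediateField.mem_fixedField_iff]
    exact hx
  have hint : IsIntegral ℤ (⟨_, hxL⟩ : L) :=
    (isIntegral_algHom_iff (L.val.restrictScalars ℤ) Subtype.val_injective).1 x.2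
  exact ⟨⟨_, hint⟩, rfl⟩

variable [FiniteDimensional ℚ L] [IsGalois ℚ L]

omit [FiniteDimensional ℚ L] [IsGalois ℚ L] in
/-- A place over a given prime of `L`. -/
theorem exists_place_over {q : ℕ} (hq : q.Prime) (P : Ideal (𝓞 L)) [P.IsPrime]
    (hqP : (q : 𝓞 L) ∈ P) :
    ∃ A : ValuationSubring Qbar, A.LiesOverPrime q ∧ (primeBelow A).comap (intEmb L) = P := by
  obtain ⟨Q, hQprime, hQP⟩ : ∃ Q : Ideal Zbar, Q.IsPrime ∧ Q.comap (intEmb L) = P := by
    let : Algebra (𝓞 L) Zbar := (intEmb L).toAlgebra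
    have : IsScalarTower ℤ (𝓞 L) Zbar := IsScalarTower.of_algebraMap_eq' (RingHom.ext_int _ _)
    have : Algebra.IsIntegral (𝓞 L) Zbar :=
      ⟨fun x => (Algebra.IsIntegral.isIntegral (R := ℤ) x).tower_top⟩
    obtain ⟨Q, hQ, hQP⟩ := Ideal.exists_ideal_over_prime_of_isIntegral_of_isDomain (S := Zbar) P
      (by
        have : RingHom.ker (algebraMap (𝓞 L) Zbar) = ⊥ :=
          (RingHom.injective_iff_ker_eq_bot _).1 (intEmb_injective L)
        rw [this]; exact bot_le)
    exact ⟨Q, hQ, hQP⟩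
  have := hQprime
  have hqQ : (q : Zbar) ∈ Q := by
    rw [← hQP, Ideal.mem_comap, map_natCast] at hqP
    exact hqP
  obtain ⟨A, hA, hAQ⟩ := exists_primeBelow_eq hq Q hqQ
  exact ⟨A, hA, hAQ ▸ hQP⟩

variable {L}

omit [FiniteDimensional ℚ L] in
/-- An automorphism of `L` fixing `P` lifts to the decomposition group of a place over `P`. -/
theorem exists_decomposition_lift {q : ℕ} (hq : q.Prime) {A : ValuationSubring Qbar}
    (hA : A.LiesOverPrime q) {P : Ideal (𝓞 L)} (hP : (primeBelow A).comap (intEmb L) = P)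
    (τ : L ≃ₐ[ℚ] L) (hτ : τ • P = P) :
    ∃ σ ∈ A.decompositionSubgroup ℚ, ∀ y : L, σ (y : Qbar) = ((τ y : L) : Qbar) := by
  set Q := primeBelow A with hQ
  obtain ⟨σ₀, hσ₀⟩ := AlgEquiv.restrictNormalHom_surjective (K₁ := L) Qbar τ
  have hσ₀L : ∀ y : L, σ₀ (y : Qbar) = ((τ y : L) : Qbar) := fun y => by
    rw [← hσ₀]
    exact (AlgEquiv.restrictNormal_commutes σ₀ L y).symm
  let H : Subgroup GalQ := L.fixingSubgroup
  have : CompactSpace H :=
    isCompact_iff_compactSpace.1 (InfiniteGalois.fixingSubgroup_isClosed L).isCompact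
  let B' : Subalgebra ℤ Zbar := FixedPoints.subalgebra ℤ Zbar H
  have : SMulCommClass H B' Zbar := ⟨fun g b z => by
    change g • ((b : Zbar) * z) = (b : Zbar) * (g • z)
    rw [smul_mul', b.2 g]⟩
  have : Algebra.IsInvariant B' Zbar H := ⟨fun b hb => ⟨⟨b, hb⟩, rfl⟩⟩
  have hi0 : ∀ y : 𝓞 L, σ₀ • intEmb L y = intEmb L (τ • y) := fun y => Subtype.ext (hσ₀L _)
  have hi0' : ∀ y : 𝓞 L, σ₀⁻¹ • intEmb L y = intEmb L (τ⁻¹ • y) := fun y => by
    rw [inv_smul_eq_iff, hi0, smul_inv_smul]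
  have hunder : (σ₀ • Q).under B' = Q.under B' := by
    ext x
    obtain ⟨y, hy⟩ := exists_intEmb_eq_of_fixed L (x := (x : Zbar))
      fun g hg => congrArg Subtype.val (x.2 ⟨g, hg⟩)
    change (x : Zbar) ∈ σ₀ • Q ↔ (x : Zbar) ∈ Q
    rw [← hy, Ideal.mem_pointwise_smul_iff_inv_smul_mem, hi0', ← Ideal.mem_comap, ← Ideal.mem_comap,
      hP, ← Ideal.mem_pointwise_smul_iff_inv_smul_mem, hτ]
  have : (σ₀ • Q).IsPrime := (inferInstance : Q.IsPrime).smul σ₀
  obtain ⟨n, hn⟩ := Algebra.IsInvariant.exists_smul_of_under_eq_of_profinite (A := B') (G := H)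
    (σ₀ • Q) Q hunder
  refine ⟨(n : GalQ) * σ₀, ?_, fun y => ?_⟩
  · refine MulAction.mem_stabilizer_iff.2 (eq_of_primeBelow_eq hq (smul_liesOverPrime _ hA) hA ?_)
    rw [primeBelow_smul, mul_smul]
    exact hn.symm
  · rw [AlgEquiv.mul_apply, hσ₀L]
    exact n.2 (τ y)

omit [FiniteDimensional ℚ L] [IsGalois ℚ L] in
/-- A decomposition element trivial on the residues of `F` is in inertia, up to `Gal(ℚbar/F)`. -/
theorem exists_inv_mul_mem_inertia {F : IntermediateField ℚ Qbar}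
    {A : ValuationSubring Qbar}
    {q : ℕ} (hq : q.Prime) (hA : A.LiesOverPrime q) {g : GalQ}
    (hg : g ∈ A.decompositionSubgroup ℚ)
    (h : ∀ y : 𝓞 F, g • intEmb F y - intEmb F y ∈ primeBelow A) :
    ∃ m ∈ F.fixingSubgroup, m⁻¹ * g ∈ A.inertiaSubgroupIn ℚ := by
  set Q := primeBelow A with hQ
  have hgQ : g • Q = Q := by
    rw [hQ, ← primeBelow_smul, MulAction.mem_stabilizer_iff.1 hg]
  let H : Subgroup GalQ := F.fixingSubgroup
  have : CompactSpace H :=
    isCompact_iff_compactSpace.1 (InfiniteGalois.fixingSubgroup_isClosed F).isCompact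
  let B' : Subalgebra ℤ Zbar := FixedPoints.subalgebra ℤ Zbar H
  have : SMulCommClass H B' Zbar := ⟨fun g b z => by
    change g • ((b : Zbar) * z) = (b : Zbar) * (g • z)
    rw [smul_mul', b.2 g]⟩
  have : Algebra.IsInvariant B' Zbar H := ⟨fun b hb => ⟨⟨b, hb⟩, rfl⟩⟩
  let P' : Ideal B' := Q.under B'
  have : Q.LiesOver P' := ⟨rfl⟩
  let e : Zbar ⧸ Q ≃+* Zbar ⧸ Q := Ideal.quotientEquiv Q Q
    (MulSemiringAction.toRingEquiv GalQ Zbar g) (by
      conv_lhs => rw [← hgQ]
      rw [Ideal.pointwise_smul_def]; rfl)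
  let e' : (Zbar ⧸ Q) ≃ₐ[B' ⧸ P'] (Zbar ⧸ Q) :=
    { e with
      commutes' := fun r => by
        obtain ⟨x, rfl⟩ := Ideal.Quotient.mk_surjective r
        obtain ⟨y, hy⟩ := exists_intEmb_eq_of_fixed F (x := (x : Zbar))
          fun g hg => congrArg Subtype.val (x.2 ⟨g, hg⟩)
        change Ideal.Quotient.mk Q (g • (x : Zbar)) = Ideal.Quotient.mk Q (x : Zbar)
        rw [Ideal.Quotient.eq, ← hy]
        exact h y }
  obtain ⟨⟨m, hmQ⟩, hm⟩ := Ideal.Quotient.stabilizerHom_surjective_of_profinite (G := H) P' Q e'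
  have hmQ' : (m : GalQ) • Q = Q := MulAction.mem_stabilizer_iff.1 hmQ
  refine ⟨m, m.2, mem_inertiaSubgroupIn_of_forall_sub_mem hq hA ?_ fun a => ?_⟩
  · rw [mul_smul, hgQ, inv_smul_eq_iff, hmQ']
  · have h1 : g • a - (m : GalQ) • a ∈ Q := by
      rw [← Ideal.Quotient.eq]
      exact (DFunLike.congr_fun hm (Ideal.Quotient.mk Q a)).symm
    have h2 := Ideal.smul_mem_pointwise_smul (m : GalQ)⁻¹ _ _ h1
    rw [smul_sub, inv_smul_smul, inv_smul_eq_iff.2 hmQ'.symm] at h2
    rwa [mul_smul]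

omit [FiniteDimensional ℚ L] in
/-- An element of the inertia group of `P` lifts to the inertia group of a place over `P`. -/
theorem exists_inertia_lift {q : ℕ} (hq : q.Prime) {A : ValuationSubring Qbar}
    (hA : A.LiesOverPrime q) {P : Ideal (𝓞 L)} (hP : (primeBelow A).comap (intEmb L) = P)
    {τ : L ≃ₐ[ℚ] L} (hτ : τ ∈ P.inertia (L ≃ₐ[ℚ] L)) :
    ∃ σ ∈ A.inertiaSubgroupIn ℚ, ∀ y : L, σ (y : Qbar) = ((τ y : L) : Qbar) := by
  obtain ⟨σ₁, hσ₁A, hσ₁L⟩ := exists_decomposition_lift hq hA hP τ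
    (MulAction.mem_stabilizer_iff.1 (Ideal.inertia_le_stabilizer (M := L ≃ₐ[ℚ] L) P hτ))
  obtain ⟨m, hm, hmI⟩ := exists_inv_mul_mem_inertia (F := L) hq hA hσ₁A fun y => by
    rw [show σ₁ • intEmb L y = intEmb L (τ • y) from Subtype.ext (hσ₁L _), ← map_sub,
      ← Ideal.mem_comap, hP]
    exact hτ y
  refine ⟨m⁻¹ * σ₁, hmI, fun y => ?_⟩
  rw [AlgEquiv.mul_apply, hσ₁L]
  exact (⟨m⁻¹, inv_mem hm⟩ : L.fixingSubgroup).2 (τ y)

end FLTAgent.ExtVanishing
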