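import Fermat.Prelude.Def_ExtCitation_AdmissibleExtension_v2
import Fermat.Prelude.Def_ExtCitation_KummerBridge
import Fermat.Agent.Density.Frobenius

/-!
# The cocycle of a non-split admissible extension

For `p ≥ 3`, a continuous admissible extension of mod `p` Galois modules which does not split
globally gives a cocycle `c` with the properties `IsExtCocycle`: trivial on inertia away from `p`,
trivial on the cyclotomic kernel at `p`, and nonzero (`exists_extCocycle`).
-/

set_option autoImplicit false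

noncomputable section

open ExtCitation
open scoped Pointwise

namespace FLTAgent.ExtVanishing

open FLTAgent.Density (Qbar GalQ)

variable (p : ℕ) [hp : Fact p.Prime]

/-- The mod `p` cyclotomic character, as a function to `ZMod p`. -/
def cycChar (σ : GalQ) : ZMod p := ((cycloChar p σ : (ZMod p)ˣ) : ZMod p)

theorem cycChar_one : cycChar p 1 = 1 := by rw [cycChar, map_one, Units.val_one]

theorem cycChar_mul (σ τ : GalQ) : cycChar p (σ * τ) = cycChar p σ * cycChar p τ := by
  rw [cycChar, map_mul, Units.val_mul]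
  rfl

theorem cycChar_ne_zero (σ : GalQ) : cycChar p σ ≠ 0 := Units.ne_zero _

theorem apply_primitiveRoot {ζ : Qbar} (hζ : IsPrimitiveRoot ζ p) (σ : GalQ) :
    σ ζ = ζ ^ (cycChar p σ).val := by
  have : NeZero p := ⟨hp.out.ne_zero⟩
  have h := modularCyclotomicCharacter.spec (L := Qbar) (card_rootsOfUnity_eq_self p)
    (σ : Qbar ≃+* Qbar) (t := (hζ.isUnit hp.out.ne_zero).unit)
    ((mem_rootsOfUnity' _ _).2 (by simpa using hζ.pow_eq_one))
  simpa [cycChar, cycloChar] using h

/-- The cyclotomic character is `1` exactly on the elements fixing a primitive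
`p`th root of unity. -/
theorem cycChar_eq_one_iff {ζ : Qbar} (hζ : IsPrimitiveRoot ζ p) (σ : GalQ) :
    cycChar p σ = 1 ↔ σ ζ = ζ := by
  rw [apply_primitiveRoot p hζ σ]
  constructor
  · intro h
    rw [h, ZMod.val_one, pow_one]
  · intro h
    refine ZMod.val_injective p ?_
    rw [ZMod.val_one]
    exact hζ.pow_inj (ZMod.val_lt _) hp.out.one_lt (h.trans (pow_one ζ).symm)

theorem exists_cycChar_ne_one (h3 : 3 ≤ p) : ∃ σ : GalQ, cycChar p σ ≠ 1 := by
  have : NeZero p := ⟨hp.out.ne_zero⟩
  obtain ⟨ζ, hζ⟩ := HasEnoughRootsOfUnity.exists_primitiveRoot Qbar p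
  by_contra hall
  push Not at hall
  obtain ⟨r, hr⟩ := (InfiniteGalois.mem_range_algebraMap_iff_fixed ζ).2
    fun σ => (cycChar_eq_one_iff p hζ σ).1 (hall σ)
  rw [← hr] at hζ
  have hr' : IsPrimitiveRoot r p := hζ.of_map_of_injective (algebraMap ℚ Qbar).injective
  have hr1 : r = 1 := (pow_eq_one_iff_of_ne_zero hp.out.ne_zero).1 hr'.pow_eq_one
    |>.resolve_right fun h => by
      rcases h with ⟨-, he⟩
      exact absurd (hp.out.even_iff.1 he) (by omega)
  exact hr'.ne_one hp.out.one_lt hr1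

/-- The properties of the cocycle of a non-split admissible extension. -/
structure IsExtCocycle (c : GalQ → ZMod p) : Prop where
  map_mul : ∀ σ τ, c (σ * τ) = cycChar p τ * c σ + c τ
  isOpen : IsOpen {σ : GalQ | cycChar p σ = 1 ∧ c σ = 0}
  inertia : ∀ ℓ : ℕ, ℓ.Prime → ℓ ≠ p → ∀ A : ValuationSubring Qbar, A.LiesOverPrime ℓ →
    ∀ σ ∈ A.inertiaSubgroupIn ℚ, cycChar p σ = 1 ∧ c σ = 0
  decomposition : ∀ A : ValuationSubring Qbar, A.LiesOverPrime p →
    ∀ σ ∈ A.decompositionSubgroup ℚ, cycChar p σ = 1 → c σ = 0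
  exists_eq_one : ∃ σ, cycChar p σ = 1 ∧ c σ = 1

/-- A non-split admissible extension gives an extension cocycle. -/
theorem exists_extCocycle (h3 : 3 ≤ p) {V : Type} [AddCommGroup V] [Module (ZMod p) V]
    [DistribMulAction GalQ V] [SMulCommClass GalQ (ZMod p) V] {C : Submodule (ZMod p) V}
    (hV : IsAdmissibleExtensionCts p V C) (hns : ¬ SplitsGlobally C) :
    ∃ c : GalQ → ZMod p, IsExtCocycle p c := by
  have : Finite V := Nat.finite_of_card_ne_zero
    (by rw [hV.card_total]; exact pow_ne_zero _ hp.out.ne_zero)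
  have : NeZero p := ⟨hp.out.ne_zero⟩
  -- a generator of `C`
  obtain ⟨e, he⟩ : ∃ e : C, e ≠ 0 := by
    have : Nontrivial C := Finite.one_lt_card_iff_nontrivial.1
      (by rw [hV.card_sub]; exact hp.out.one_lt)
    exact exists_ne 0
  have hinj : Function.Injective fun a : ZMod p => a • e := fun a b h => by
    rw [← sub_eq_zero, ← sub_smul, smul_eq_zero] at h
    exact sub_eq_zero.1 (h.resolve_right he)
  have hsurj : Function.Surjective fun a : ZMod p => a • e :=
    ((Nat.bijective_iff_injective_and_card _).2 ⟨hinj, by rw [Nat.card_zmod, hV.card_sub]⟩).2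
  have hC : ∀ x ∈ C, ∃ a : ZMod p, a • (e : V) = x := fun x hx => by
    obtain ⟨a, ha⟩ := hsurj ⟨x, hx⟩
    exact ⟨a, congrArg Subtype.val ha⟩
  obtain ⟨v, hv⟩ : ∃ v : V, v ∉ C := by
    by_contra hall
    push Not at hall
    have := Nat.card_congr (Equiv.subtypeUnivEquiv hall)
    rw [show Nat.card {x // x ∈ C} = p from hV.card_sub, hV.card_total] at this
    nlinarith [hp.out.two_le]
  have hev : ∀ a b : ZMod p, a • (e : V) + b • v = 0 → a = 0 ∧ b = 0 := by
    intro a b h
    have hb : b = 0 := by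
      by_contra hb
      refine hv ?_
      have : b • v ∈ C := by
        rw [eq_neg_of_add_eq_zero_right h]
        exact C.neg_mem (C.smul_mem _ e.2)
      simpa [smul_smul, inv_mul_cancel₀ hb] using C.smul_mem b⁻¹ this
    rw [hb, zero_smul, add_zero] at h
    exact ⟨(smul_eq_zero.1 h).resolve_right fun h' => he (Subtype.ext h'), hb⟩
  have hspan : ∀ x : V, ∃ a b : ZMod p, x = a • (e : V) + b • v := by
    have hi : Function.Injective fun ab : ZMod p × ZMod p => ab.1 • (e : V) + ab.2 • v := by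
      rintro ⟨a, b⟩ ⟨a', b'⟩ h
      obtain ⟨h1, h2⟩ := hev (a - a') (b - b') (by
        rw [sub_smul, sub_smul]
        linear_combination (norm := module) h)
      exact Prod.ext (sub_eq_zero.1 h1) (sub_eq_zero.1 h2)
    intro x
    obtain ⟨⟨a, b⟩, hab⟩ := ((Nat.bijective_iff_injective_and_card _).2
      ⟨hi, by rw [Nat.card_prod, Nat.card_zmod, hV.card_total, sq]⟩).2 x
    exact ⟨a, b, hab.symm⟩
  have hquot : ∀ σ : GalQ, ∃ a : ZMod p, σ • v = cycChar p σ • v + a • (e : V) := fun σ => by
    obtain ⟨a, ha⟩ := hC _ (hV.cyclo_quot σ v)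
    exact ⟨a, by rw [ha, cycChar, coe_cycloChar]; abel⟩
  choose c hc using hquot
  have hmul : ∀ σ τ, c (σ * τ) = cycChar p τ * c σ + c τ := by
    intro σ τ
    have h : (c (σ * τ) - (cycChar p τ * c σ + c τ)) • (e : V) + (0 : ZMod p) • v = 0 := by
      have h1 := hc (σ * τ)
      rw [mul_smul, hc τ, smul_add, smul_comm σ (cycChar p τ) v, hc σ, smul_comm σ (c τ) (e : V),
        hV.fixed_sub σ _ e.2, cycChar_mul] at h1
      linear_combination (norm := module) -h1
    exact sub_eq_zero.1 (hev _ _ h).1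
  have htriv : ∀ σ : GalQ, (∀ x : V, σ • x = x) ↔ cycChar p σ = 1 ∧ c σ = 0 := by
    intro σ
    constructor
    · intro h
      have h1 := hc σ
      rw [h v] at h1
      obtain ⟨h2, h3'⟩ := hev (c σ) (cycChar p σ - 1) (by
        linear_combination (norm := module) -h1)
      exact ⟨sub_eq_zero.1 h3', h2⟩
    · rintro ⟨h1, h2⟩ x
      obtain ⟨a, b, rfl⟩ := hspan x
      rw [smul_add, smul_comm σ a (e : V), hV.fixed_sub σ _ e.2, smul_comm σ b v, hc σ, h1, h2,
        one_smul, zero_smul, add_zero]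
  refine ⟨c, hmul, ?_, fun ℓ hℓ hℓp A hA σ hσ =>
    (htriv σ).1 (hV.unramified_outside ℓ hℓ hℓp A hA σ hσ), fun A hA σ hσ hχ => ?_, ?_⟩
  · simpa only [htriv] using hV.open_kernel
  · obtain ⟨C', hst, hcompl⟩ := hV.locally_split A hA
    obtain ⟨y, hy, w, hw, hyw⟩ := Submodule.mem_sup.1
      (hcompl.sup_eq_top ▸ Submodule.mem_top : v ∈ C ⊔ C')
    have hσw : σ • w = w + c σ • (e : V) := by
      have h1 : σ • v = σ • y + σ • w := by rw [← smul_add, hyw]
      rw [hc σ, hV.fixed_sub σ _ hy, hχ, one_smul, ← hyw, add_assoc] at h1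
      exact (add_left_cancel h1).symm
    have hmem : c σ • (e : V) ∈ C ⊓ C' := ⟨C.smul_mem _ e.2, by
      have := C'.sub_mem (hst σ hσ w hw) hw
      rwa [hσw, add_sub_cancel_left] at this⟩
    rw [hcompl.inf_eq_bot, Submodule.mem_bot] at hmem
    exact (smul_eq_zero.1 hmem).resolve_right fun h' => he (Subtype.ext h')
  · by_contra hnone
    push Not at hnone
    -- `c` vanishes on the kernel of the character
    have hpow : ∀ σ, cycChar p σ = 1 → ∀ n : ℕ, cycChar p (σ ^ n) = 1 ∧ c (σ ^ n) = n * c σ := by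
      intro σ hσ n
      induction n with
      | zero =>
        have h1 := hmul 1 1
        rw [cycChar_one, one_mul, one_mul] at h1
        simp [cycChar_one, left_eq_add.1 h1]
      | succ n ih =>
        rw [pow_succ, cycChar_mul, hmul, ih.1, ih.2, hσ]
        push_cast
        exact ⟨one_mul 1, by ring⟩
    have hker : ∀ σ, cycChar p σ = 1 → c σ = 0 := by
      intro σ hσ
      by_contra h0
      obtain ⟨h1, h2⟩ := hpow σ hσ (c σ)⁻¹.val
      rw [ZMod.natCast_zmod_val, inv_mul_cancel₀ h0] at h2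
      exact hnone _ h1 h2
    obtain ⟨σ₀, hσ₀⟩ := exists_cycChar_ne_one p h3
    set k : ZMod p := c σ₀ / (cycChar p σ₀ - 1) with hk
    have hne : cycChar p σ₀ - 1 ≠ 0 := sub_ne_zero.2 hσ₀
    have hform : ∀ σ, c σ = (cycChar p σ - 1) * k := by
      intro σ
      obtain ⟨κ, hκ⟩ : ∃ κ : GalQ, κ * (σ₀ * σ) = σ * σ₀ := ⟨σ * σ₀ * (σ₀ * σ)⁻¹, by group⟩
      have hκ1 : cycChar p κ = 1 := by
        have h := congrArg (cycChar p) hκ
        rw [cycChar_mul, cycChar_mul, cycChar_mul, mul_comm (cycChar p σ) (cycChar p σ₀)] at h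
        exact (mul_eq_right₀ (mul_ne_zero (cycChar_ne_zero p _) (cycChar_ne_zero p _))).1 h
      have h := congrArg c hκ
      rw [hmul κ, hker κ hκ1, mul_zero, zero_add, hmul σ₀ σ, hmul σ σ₀] at h
      rw [hk, mul_div, eq_div_iff hne]
      linear_combination -h
    refine hns ⟨Submodule.span (ZMod p) {v + k • (e : V)}, ?_, ?_⟩
    · intro σ x hx
      obtain ⟨r, rfl⟩ := Submodule.mem_span_singleton.1 hx
      rw [smul_comm σ r, smul_add, hc σ, smul_comm σ k (e : V), hV.fixed_sub σ _ e.2, hform σ]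
      exact Submodule.mem_span_singleton.2 ⟨r * cycChar p σ, by module⟩
    · constructor
      · rw [Submodule.disjoint_def]
        intro x hxC hx
        obtain ⟨r, rfl⟩ := Submodule.mem_span_singleton.1 hx
        obtain ⟨a, ha⟩ := hC _ hxC
        obtain ⟨-, h2⟩ := hev (a - r * k) (-r) (by
          linear_combination (norm := module) ha)
        rw [neg_eq_zero.1 h2, zero_smul]
      · rw [codisjoint_iff_le_sup]
        intro x _
        obtain ⟨a, b, rfl⟩ := hspan x
        exact Submodule.mem_sup.2 ⟨(a - b * k) • (e : V), C.smul_mem _ e.2, b • (v + k • (e : V)),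
          Submodule.smul_mem _ _ (Submodule.mem_span_singleton_self _), by module⟩

end FLTAgent.ExtVanishing
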