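import Fermat.Agent.Density.EulerProduct
import Mathlib.Analysis.Normed.Group.Tannery
import Mathlib.Analysis.SpecialFunctions.Complex.LogBounds

/-!
# Euler products over the prime ideals of a number field

For a completely multiplicative bounded function `χ` of ideals, `log |∑_I χ(I) N(I)^(-s)|` differs
from `Re ∑_P χ(P) N(P)^(-s)` by at most `∑_P N(P)^(-2)`.
-/

set_option autoImplicit false

noncomputable section

open NumberField Filter Topology
open scoped nonZeroDivisors

attribute [local irreducible] Ideal.absNorm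

namespace FLTAgent.ExtVanishing

variable (K : Type*) [Field K] [NumberField K]

/-- The nonzero prime ideals. -/
abbrev PrimeIdeals : Type _ := {P : Ideal (𝓞 K) // P.IsPrime ∧ P ≠ ⊥}

variable {K}

/-- A prime ideal as a nonzero ideal. -/
def PrimeIdeals.toNonZero (P : PrimeIdeals K) : (Ideal (𝓞 K))⁰ :=
  ⟨P.1, mem_nonZeroDivisors_iff_ne_zero.2 P.2.2⟩

/-- A nonzero prime ideal is a prime element of the monoid of ideals. -/
theorem PrimeIdeals.prime (P : PrimeIdeals K) : Prime P.1 :=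
  Ideal.prime_of_isPrime P.2.2 P.2.1

omit [NumberField K] in
theorem PrimeIdeals.toNonZero_injective :
    Function.Injective (PrimeIdeals.toNonZero (K := K)) := fun _ _ h =>
  Subtype.ext (congrArg (fun J : (Ideal (𝓞 K))⁰ => (J : Ideal (𝓞 K))) h :)

omit [NumberField K] in
theorem PrimeIdeals.coe_toNonZero (P : PrimeIdeals K) :
    (P.toNonZero : Ideal (𝓞 K)) = P.1 := rfl

theorem PrimeIdeals.two_le_absNorm (P : PrimeIdeals K) : 2 ≤ Ideal.absNorm P.1 := by
  have h0 : Ideal.absNorm P.1 ≠ 0 := fun h => P.2.2 (Ideal.absNorm_eq_zero_iff.1 h)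
  have h1 : Ideal.absNorm P.1 ≠ 1 := fun h => P.2.1.ne_top (Ideal.absNorm_eq_one_iff.1 h)
  omega

/-- `χ(I) N(I) ^ (-s)` as a monoid homomorphism. -/
def dirichletTerm (χ : (Ideal (𝓞 K))⁰ →* ℂ) (s : ℝ) : (Ideal (𝓞 K))⁰ →* ℂ where
  toFun I := χ I * (((Ideal.absNorm (I : Ideal (𝓞 K)) : ℝ) ^ (-s) : ℝ) : ℂ)
  map_one' := by simp
  map_mul' I J := by
    rw [map_mul, Submonoid.coe_mul, map_mul, Nat.cast_mul,
      Real.mul_rpow (Nat.cast_nonneg _) (Nat.cast_nonneg _), Complex.ofReal_mul]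
    ring

theorem dirichletTerm_apply (χ : (Ideal (𝓞 K))⁰ →* ℂ) (s : ℝ) (I : (Ideal (𝓞 K))⁰) :
    dirichletTerm χ s I = χ I * (((Ideal.absNorm (I : Ideal (𝓞 K)) : ℝ) ^ (-s) : ℝ) : ℂ) := rfl

/-- The ideals all of whose prime factors lie in `S`. -/
def supportedOn (S : Finset (PrimeIdeals K)) : Set (Ideal (𝓞 K))⁰ :=
  {I | ∀ Q : PrimeIdeals K, Q.1 ∣ (I : Ideal (𝓞 K)) → Q ∈ S}

theorem norm_dirichletTerm_le {χ : (Ideal (𝓞 K))⁰ →* ℂ} (hχ : ∀ I, ‖χ I‖ ≤ 1) (s : ℝ)
    (I : (Ideal (𝓞 K))⁰) :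
    ‖dirichletTerm χ s I‖ ≤ (Ideal.absNorm (I : Ideal (𝓞 K)) : ℝ) ^ (-s) := by
  rw [dirichletTerm_apply, norm_mul, Complex.norm_real,
    Real.norm_of_nonneg (Real.rpow_nonneg (Nat.cast_nonneg _) _)]
  exact mul_le_of_le_one_left (Real.rpow_nonneg (Nat.cast_nonneg _) _) (hχ I)

theorem summable_rpow_primes {s : ℝ} (hs : 1 < s) :
    Summable fun P : PrimeIdeals K => (Ideal.absNorm P.1 : ℝ) ^ (-s) := by
  have h := (Density.summable_absNorm_rpow (K := K) hs).comp_injective
    PrimeIdeals.toNonZero_injective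
  simpa only [Function.comp_def, PrimeIdeals.coe_toNonZero] using h

theorem rpow_neg_le_half (P : PrimeIdeals K) {s : ℝ} (hs : 1 ≤ s) :
    (Ideal.absNorm P.1 : ℝ) ^ (-s) ≤ 1 / 2 := by
  have h2 : (2 : ℝ) ≤ Ideal.absNorm P.1 := by exact_mod_cast P.two_le_absNorm
  calc (Ideal.absNorm P.1 : ℝ) ^ (-s) ≤ (Ideal.absNorm P.1 : ℝ) ^ (-(1 : ℝ)) :=
        Real.rpow_le_rpow_of_exponent_le (by linarith) (by linarith)
    _ = (Ideal.absNorm P.1 : ℝ)⁻¹ := Real.rpow_neg_one _
    _ ≤ 1 / 2 := by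
        rw [one_div]
        exact inv_anti₀ two_pos h2

section

variable {χ : (Ideal (𝓞 K))⁰ →* ℂ} (hχ : ∀ I, ‖χ I‖ ≤ 1) {s : ℝ} (hs : 1 < s)

include hχ hs

/-- The finite Euler product. -/
theorem hasSum_supportedOn (S : Finset (PrimeIdeals K)) :
    HasSum (fun I : supportedOn S => dirichletTerm χ s I.1)
      (∏ P ∈ S, (1 - dirichletTerm χ s P.toNonZero)⁻¹) := by
  classical
  induction S using Finset.induction with
  | empty =>
    rw [Finset.prod_empty]
    have hone : (1 : (Ideal (𝓞 K))⁰) ∈ supportedOn (∅ : Finset (PrimeIdeals K)) := fun Q hQ =>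
      absurd (isUnit_of_dvd_one hQ) Q.prime.not_isUnit
    have huniq : ∀ I : supportedOn (∅ : Finset (PrimeIdeals K)), I = ⟨1, hone⟩ := by
      intro I
      refine Subtype.ext (Subtype.ext ?_)
      by_contra hne
      obtain ⟨M, hM, hle⟩ := Ideal.exists_le_maximal (I.1 : Ideal (𝓞 K))
        (fun h => hne (h.trans (Ideal.one_eq_top (R := 𝓞 K)).symm))
      have hM0 : M ≠ ⊥ := fun h => mem_nonZeroDivisors_iff_ne_zero.1 I.1.2
        (le_bot_iff.1 (hle.trans h.le))
      simpa using I.2 ⟨M, hM.isPrime, hM0⟩ (Ideal.dvd_iff_le.2 hle)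
    have h := hasSum_single (f := fun I : supportedOn (∅ : Finset (PrimeIdeals K)) =>
      dirichletTerm χ s I.1) ⟨1, hone⟩ fun I hI => absurd (huniq I) hI
    simpa using h
  | @insert P S hP ih =>
    set T := dirichletTerm χ s
    have hnorm : ‖T P.toNonZero‖ < 1 := lt_of_le_of_lt
      ((norm_dirichletTerm_le hχ s _).trans (rpow_neg_le_half P hs.le)) (by norm_num)
    have hgeo := hasSum_geometric_of_norm_lt_one hnorm
    have hsum1 : Summable fun k : ℕ => ‖T P.toNonZero ^ k‖ := by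
      simp_rw [norm_pow]
      exact summable_geometric_of_lt_one (norm_nonneg _) hnorm
    have hsum2 : Summable fun J : supportedOn S => ‖T J.1‖ :=
      ((Density.summable_absNorm_rpow (K := K) hs).comp_injective
        Subtype.val_injective).of_nonneg_of_le
        (fun _ => norm_nonneg _) fun J => norm_dirichletTerm_le hχ s J.1
    have hms : Summable fun x : ℕ × supportedOn S => T P.toNonZero ^ x.1 * T x.2.1 :=
      summable_mul_of_summable_norm (f := fun k : ℕ => T P.toNonZero ^ k)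
        (g := fun J : supportedOn S => T J.1) hsum1 hsum2
    have hprod : HasSum (fun x : ℕ × supportedOn S => T P.toNonZero ^ x.1 * T x.2.1)
        ((1 - T P.toNonZero)⁻¹ * ∏ Q ∈ S, (1 - T Q.toNonZero)⁻¹) :=
      HasSum.mul (f := fun k : ℕ => T P.toNonZero ^ k) (g := fun J : supportedOn S => T J.1)
        hgeo ih hms
    rw [Finset.prod_insert hP]
    have hmap : ∀ x : ℕ × supportedOn S,
        P.toNonZero ^ x.1 * x.2.1 ∈ supportedOn (insert P S) := by
      intro x Q hQ
      rw [Finset.mem_insert]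
      rw [Submonoid.coe_mul, SubmonoidClass.coe_pow] at hQ
      rcases Q.prime.dvd_or_dvd hQ with h | h
      · exact Or.inl (Subtype.ext
          (associated_iff_eq.1 (Q.prime.associated_of_dvd P.prime (Q.prime.dvd_of_dvd_pow h))))
      · exact Or.inr (x.2.2 Q h)
    let f : ℕ × supportedOn S → supportedOn (insert P S) := fun x => ⟨_, hmap x⟩
    have hnd : ∀ J : supportedOn S, ¬ P.1 ∣ ((J.1 : (Ideal (𝓞 K))⁰) : Ideal (𝓞 K)) :=
      fun J h => hP (J.2 P h)
    have hbij : Function.Bijective f := by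
      constructor
      · rintro ⟨i, J⟩ ⟨j, J'⟩ h
        have h' : P.1 ^ i * (J.1 : Ideal (𝓞 K)) = P.1 ^ j * (J'.1 : Ideal (𝓞 K)) :=
          congrArg (fun z : supportedOn (insert P S) => ((z.1 : (Ideal (𝓞 K))⁰) : Ideal (𝓞 K))) h
        have hem := congrArg (emultiplicity P.1) h'
        rw [emultiplicity_mul P.prime, emultiplicity_mul P.prime,
          emultiplicity_eq_zero.2 (hnd J), emultiplicity_eq_zero.2 (hnd J'),
          emultiplicity_pow_self P.2.2 P.prime.not_isUnit,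
          emultiplicity_pow_self P.2.2 P.prime.not_isUnit, add_zero, add_zero] at hem
        obtain rfl : i = j := by exact_mod_cast hem
        exact Prod.ext rfl (Subtype.ext (Subtype.ext
          (mul_left_cancel₀ (pow_ne_zero i P.2.2) h')))
      · rintro ⟨I, hI⟩
        have hI0 : (I : Ideal (𝓞 K)) ≠ 0 := mem_nonZeroDivisors_iff_ne_zero.1 I.2
        obtain ⟨J, hJ, hndJ⟩ :=
          (FiniteMultiplicity.of_prime_left P.prime hI0).exists_eq_pow_mul_and_not_dvd
        have hJ0 : J ≠ 0 := fun h => hI0 (by rw [hJ, h, mul_zero])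
        refine ⟨(multiplicity P.1 (I : Ideal (𝓞 K)),
          ⟨⟨J, mem_nonZeroDivisors_iff_ne_zero.2 hJ0⟩, fun Q hQ => ?_⟩),
          Subtype.ext (Subtype.ext ?_)⟩
        · have := hI Q (hJ ▸ dvd_mul_of_dvd_right hQ _)
          rw [Finset.mem_insert] at this
          exact this.resolve_left fun h => hndJ (h ▸ hQ)
        · show P.1 ^ _ * J = (I : Ideal (𝓞 K))
          exact hJ.symm
    refine (Equiv.hasSum_iff (Equiv.ofBijective f hbij)).1 ?_
    refine hprod.congr_fun fun x => ?_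
    show T (P.toNonZero ^ x.1 * x.2.1) = _
    rw [map_mul, map_pow]

theorem summable_log_factor : Summable fun P : PrimeIdeals K =>
    -Complex.log (1 - dirichletTerm χ s P.toNonZero) := by
  refine Summable.of_norm_bounded ((summable_rpow_primes (K := K) hs).mul_left (3 / 2)) fun P => ?_
  rw [norm_neg, sub_eq_add_neg]
  have h1 : ‖-dirichletTerm χ s P.toNonZero‖ ≤ (Ideal.absNorm P.1 : ℝ) ^ (-s) := by
    rw [norm_neg]
    exact norm_dirichletTerm_le hχ s _
  refine (Complex.norm_log_one_add_half_le_self (h1.trans (rpow_neg_le_half P hs.le))).trans ?_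
  exact mul_le_mul_of_nonneg_left h1 (by norm_num)

/-- The Euler product. -/
theorem exp_tsum_log_factor :
    Complex.exp (∑' P : PrimeIdeals K, -Complex.log (1 - dirichletTerm χ s P.toNonZero)) =
      ∑' I : (Ideal (𝓞 K))⁰, dirichletTerm χ s I := by
  classical
  have h1 := (Complex.continuous_exp.tendsto _).comp (summable_log_factor hχ hs).hasSum
  have h2 : Tendsto (fun S : Finset (PrimeIdeals K) =>
      ∑' I : (Ideal (𝓞 K))⁰, (supportedOn S).indicator (dirichletTerm χ s) I) atTop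
      (𝓝 (∑' I : (Ideal (𝓞 K))⁰, dirichletTerm χ s I)) := by
    refine tendsto_tsum_of_dominated_convergence (Density.summable_absNorm_rpow (K := K) hs)
      (fun I => ?_)
      (Eventually.of_forall fun S I => ?_)
    · refine tendsto_atTop_of_eventually_const (i₀ :=
        ((UniqueFactorizationMonoid.normalizedFactors (I : Ideal (𝓞 K))).toFinset.subtype
          fun P => P.IsPrime ∧ P ≠ ⊥)) fun S hS => ?_
      refine Set.indicator_of_mem (show I ∈ supportedOn S from fun Q hQ => hS (Finset.mem_subtype.2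
        (Multiset.mem_toFinset.2 ?_))) _
      obtain ⟨q, hq, hassoc⟩ := UniqueFactorizationMonoid.exists_mem_normalizedFactors_of_dvd
        (mem_nonZeroDivisors_iff_ne_zero.1 I.2) Q.prime.irreducible hQ
      rwa [associated_iff_eq.1 hassoc]
    · exact (norm_indicator_le_norm_self _ I).trans (norm_dirichletTerm_le hχ s I)
  refine tendsto_nhds_unique (l := (atTop : Filter (Finset (PrimeIdeals K))))
    (f := fun S : Finset (PrimeIdeals K) => Complex.exp
      (∑ P ∈ S, -Complex.log (1 - dirichletTerm χ s P.toNonZero))) ?_ ?_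
  · exact h1
  · refine h2.congr fun S => ?_
    rw [← tsum_subtype, (hasSum_supportedOn hχ hs S).tsum_eq, Complex.exp_sum]
    refine Finset.prod_congr rfl fun P _ => ?_
    rw [Complex.exp_neg, Complex.exp_log]
    intro h
    have h' := (norm_dirichletTerm_le hχ s P.toNonZero).trans (rpow_neg_le_half P hs.le)
    rw [← sub_eq_zero.1 h, norm_one] at h'
    norm_num at h'

/-- The logarithm of the series is the prime sum up to a bounded error. -/
theorem abs_re_primeSum_sub_log_le :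
    |(∑' P : PrimeIdeals K, dirichletTerm χ s P.toNonZero).re -
      Real.log ‖∑' I : (Ideal (𝓞 K))⁰, dirichletTerm χ s I‖| ≤
      ∑' P : PrimeIdeals K, (Ideal.absNorm P.1 : ℝ) ^ (-(2 : ℝ)) := by
  have hT : Summable fun P : PrimeIdeals K => dirichletTerm χ s P.toNonZero :=
    Summable.of_norm_bounded (summable_rpow_primes (K := K) hs) fun P =>
      norm_dirichletTerm_le hχ s _
  have hlog := summable_log_factor (K := K) hχ hs
  rw [← exp_tsum_log_factor hχ hs, Complex.norm_exp, Real.log_exp, ← Complex.sub_re,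
    ← hT.tsum_sub hlog]
  refine (Complex.abs_re_le_norm _).trans ?_
  refine tsum_of_norm_bounded (summable_rpow_primes (K := K) one_lt_two).hasSum fun P => ?_
  set z := dirichletTerm χ s P.toNonZero
  have hle : ‖z‖ ≤ (Ideal.absNorm P.1 : ℝ) ^ (-s) := norm_dirichletTerm_le hχ s _
  have hhalf : ‖z‖ ≤ 1 / 2 := hle.trans (rpow_neg_le_half P hs.le)
  have hb := Complex.norm_log_one_add_sub_self_le (z := -z) (by rw [norm_neg]; linarith)
  rw [sub_neg_eq_add, norm_neg, ← sub_eq_add_neg] at hb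
  have hz1 : z - -Complex.log (1 - z) = Complex.log (1 - z) + z := by ring
  rw [hz1]
  refine hb.trans ?_
  have hinv : (1 - ‖z‖)⁻¹ ≤ 2 := by
    rw [inv_le_comm₀ (by linarith) two_pos]
    linarith
  calc ‖z‖ ^ 2 * (1 - ‖z‖)⁻¹ / 2 ≤ ‖z‖ ^ 2 := by nlinarith [sq_nonneg ‖z‖]
    _ ≤ ((Ideal.absNorm P.1 : ℝ) ^ (-(1 : ℝ))) ^ 2 := by
        refine pow_le_pow_left₀ (norm_nonneg _) (hle.trans ?_) 2
        exact Real.rpow_le_rpow_of_exponent_le
          (by exact_mod_cast le_trans one_le_two P.two_le_absNorm)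
          (by linarith)
    _ = _ := by
        rw [← Real.rpow_natCast, ← Real.rpow_mul (Nat.cast_nonneg _)]
        norm_num

end

/-- The rational prime below a prime ideal, with the shape of the norm. -/
theorem PrimeIdeals.exists_prime_below (P : PrimeIdeals K) :
    ∃ q : Nat.Primes, ((q : ℕ) : 𝓞 K) ∈ P.1 ∧ ∃ f, 1 ≤ f ∧ Ideal.absNorm P.1 = (q : ℕ) ^ f := by
  have hN : ((Ideal.absNorm P.1 : ℕ) : 𝓞 K) ∈ P.1 := Ideal.absNorm_mem P.1
  have h2 := P.two_le_absNorm
  have h0 : Ideal.absNorm P.1 ≠ 0 := by omega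
  rw [← Nat.prod_primeFactorsList h0, Nat.cast_list_prod, ← Multiset.prod_coe] at hN
  obtain ⟨x, hx, hxP⟩ := (P.2.1.multiset_prod_mem_iff_exists_mem _).1 hN
  rw [Multiset.mem_coe, List.mem_map] at hx
  obtain ⟨q, hq, rfl⟩ := hx
  have hqp := Nat.prime_of_mem_primeFactorsList hq
  refine ⟨⟨q, hqp⟩, hxP, ?_⟩
  have hd : Ideal.absNorm P.1 ∣ q ^ Module.finrank ℤ (𝓞 K) := by
    rw [← Ideal.absNorm_span_natCast]
    exact Ideal.absNorm_dvd_absNorm_of_le ((Ideal.span_singleton_le_iff_mem _).2 hxP)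
  obtain ⟨f, -, hf⟩ := (Nat.dvd_prime_pow hqp).1 hd
  refine ⟨f, ?_, hf⟩
  rcases Nat.eq_zero_or_pos f with rfl | h
  · rw [pow_zero] at hf
    omega
  · exact h

/-- The majorant of the exceptional terms. -/
def excMajorant (p : ℕ) (r : Nat.Primes) : ℝ :=
  ((r : ℕ) : ℝ) ^ (-(2 : ℝ)) + if (r : ℕ) = p then 1 else 0

theorem excMajorant_nonneg (p : ℕ) (r : Nat.Primes) : 0 ≤ excMajorant p r :=
  add_nonneg (Real.rpow_nonneg (Nat.cast_nonneg _) _) (by split_ifs <;> norm_num)

theorem rpow_le_excMajorant {p N : ℕ} {r : Nat.Primes} {f : ℕ} (hf1 : 1 ≤ f)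
    (hN : N = (r : ℕ) ^ f) (hexc : ¬ (N.Prime ∧ N ≠ p)) {s : ℝ} (hs : 1 < s) :
    (N : ℝ) ^ (-s) ≤ excMajorant p r := by
  have hr1 : (1 : ℝ) ≤ ((r : ℕ) : ℝ) := by exact_mod_cast r.2.one_le
  have hN1 : (1 : ℝ) ≤ (N : ℝ) := by
    rw [hN, Nat.cast_pow]
    exact one_le_pow₀ hr1
  unfold excMajorant
  rcases Nat.lt_or_ge f 2 with h | h
  · have hf : f = 1 := by omega
    rw [hf, pow_one] at hN
    have hp' : (r : ℕ) = p := by
      by_contra hne
      exact hexc ⟨by rw [hN]; exact r.2, by rw [hN]; exact hne⟩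
    rw [if_pos hp']
    refine le_trans ?_ (le_add_of_nonneg_left (Real.rpow_nonneg (Nat.cast_nonneg _) _))
    exact Real.rpow_le_one_of_one_le_of_nonpos hN1 (by linarith)
  · refine le_add_of_le_of_nonneg ?_ (by split_ifs <;> norm_num)
    calc (N : ℝ) ^ (-s) ≤ (N : ℝ) ^ (-(1 : ℝ)) :=
          Real.rpow_le_rpow_of_exponent_le hN1 (by linarith)
      _ ≤ (((r : ℕ) : ℝ) ^ (2 : ℝ)) ^ (-(1 : ℝ)) := by
          refine Real.rpow_le_rpow_of_nonpos (by positivity) ?_ (by norm_num)
          rw [hN, Nat.cast_pow, Real.rpow_two]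
          exact pow_le_pow_right₀ hr1 h
      _ = _ := by rw [← Real.rpow_mul (Nat.cast_nonneg _)]; norm_num

theorem sum_excMajorant_le (p : ℕ) (U : Finset Nat.Primes) :
    ∑ r ∈ U, excMajorant p r ≤ ∑' r : Nat.Primes, ((r : ℕ) : ℝ) ^ (-(2 : ℝ)) + 1 := by
  simp only [excMajorant, Finset.sum_add_distrib]
  refine add_le_add ((Nat.Primes.summable_rpow.mpr (by norm_num : (-2 : ℝ) < -1)).sum_le_tsum
    _ fun r _ => Real.rpow_nonneg (Nat.cast_nonneg _) _) ?_
  rw [Finset.sum_boole]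
  have h : (U.filter fun r : Nat.Primes => (r : ℕ) = p).card ≤ 1 := Finset.card_le_one.2
    fun a ha b hb => Subtype.ext ((Finset.mem_filter.1 ha).2.trans (Finset.mem_filter.1 hb).2.symm)
  exact_mod_cast h

/-- The sum over prime ideals of non-prime norm or norm `p` is bounded. -/
theorem exists_bound_exceptional (p : ℕ) :
    ∃ C : ℝ, ∀ s : ℝ, 1 < s → ∀ T : Finset (PrimeIdeals K),
      (∀ P ∈ T, ¬ ((Ideal.absNorm P.1).Prime ∧ Ideal.absNorm P.1 ≠ p)) →
      ∑ P ∈ T, (Ideal.absNorm P.1 : ℝ) ^ (-s) ≤ C := by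
  classical
  refine ⟨(Module.finrank ℚ K : ℝ) * (∑' q : Nat.Primes, ((q : ℕ) : ℝ) ^ (-(2 : ℝ)) + 1),
    fun s hs T hT => ?_⟩
  choose q hqmem f hf1 hfN using PrimeIdeals.exists_prime_below (K := K)
  calc ∑ P ∈ T, (Ideal.absNorm P.1 : ℝ) ^ (-s) ≤ ∑ P ∈ T, excMajorant p (q P) :=
        Finset.sum_le_sum fun P hP => rpow_le_excMajorant (hf1 P) (hfN P) (hT P hP) hs
    _ = ∑ r ∈ T.image q, (T.filter fun P => q P = r).card • excMajorant p r :=
        Finset.sum_comp (excMajorant p) q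
    _ ≤ ∑ r ∈ T.image q, (Module.finrank ℚ K : ℝ) * excMajorant p r := by
        refine Finset.sum_le_sum fun r _ => ?_
        rw [nsmul_eq_mul]
        refine mul_le_mul_of_nonneg_right ?_ (excMajorant_nonneg p r)
        rw [Nat.cast_le, ← Finset.card_image_of_injective (T.filter fun P => q P = r)
          (f := fun P : PrimeIdeals K => P.1) Subtype.val_injective]
        refine Density.card_le_finrank_of_mem r.2 _ fun Q hQ => ?_
        obtain ⟨P, hP, rfl⟩ := Finset.mem_image.1 hQ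
        exact ⟨P.2.1.isMaximal P.2.2, (Finset.mem_filter.1 hP).2 ▸ hqmem P⟩
    _ ≤ _ := by
        rw [← Finset.mul_sum]
        exact mul_le_mul_of_nonneg_left (sum_excMajorant_le p _) (Nat.cast_nonneg _)

end FLTAgent.ExtVanishing
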