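import Fermat.Agent.ExtVanishing.ThaineField

/-!
# Completely split primes in a Galois extension of number fields

If a prime `Q` has trivial stabiliser then it has ramification and residue degree one, so the
integers of the base field are dense for `Q`.
-/

set_option autoImplicit false
set_option maxSynthPendingDepth 3

open NumberField Ideal
open scoped Pointwise

namespace FLTAgent.ExtVanishing

variable {K M : Type*} [Field K] [Field M] [NumberField K] [NumberField M] [Algebra K M]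
  [IsGalois K M]

omit [IsGalois K M] [NumberField K] [NumberField M] in
theorem inertia_eq_bot_of_stabilizer {Q : Ideal (𝓞 M)}
    (hstab : ∀ σ : M ≃ₐ[K] M, σ • Q = Q → σ = 1) : Q.inertia (M ≃ₐ[K] M) = ⊥ :=
  (Subgroup.eq_bot_iff_forall _).2 fun σ hσ =>
    hstab σ (MulAction.mem_stabilizer_iff.1 (Ideal.inertia_le_stabilizer (M := M ≃ₐ[K] M) Q hσ))

/-- The base ring is dense at a completely split prime. -/
theorem exists_sub_mem_pow {Q : Ideal (𝓞 M)} [hQp : Q.IsPrime] (hQ : Q ≠ ⊥)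
    (hstab : ∀ σ : M ≃ₐ[K] M, σ • Q = Q → σ = 1) (x : 𝓞 M) (N : ℕ) :
    ∃ y : 𝓞 K, x - algebraMap (𝓞 K) (𝓞 M) y ∈ Q ^ N := by
  classical
  have : Q.IsMaximal := hQp.isMaximal hQ
  set S := (Finset.univ : Finset (M ≃ₐ[K] M)).erase 1 with hS
  have hcop : IsCoprime (Q ^ N) (∏ τ ∈ S, (τ • Q) ^ N) := by
    refine IsCoprime.prod_right fun τ hτ => IsCoprime.pow ?_
    rw [Ideal.isCoprime_iff_sup_eq]
    have : (τ • Q).IsPrime := hQp.smul τ
    refine Ideal.IsMaximal.coprime_of_ne inferInstance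
      (Ideal.IsPrime.isMaximal inferInstance ?_) ?_
    · intro h
      have : Q = (⊥ : Ideal (𝓞 M)) := by
        rw [← inv_smul_smul τ Q, h, ← Ideal.zero_eq_bot, smul_zero]
      exact hQ this
    · intro h
      exact Finset.ne_of_mem_erase hτ (hstab τ h.symm)
  rw [Ideal.isCoprime_iff_exists] at hcop
  obtain ⟨a, ha, b, hb, hab⟩ := hcop
  set y₀ := b * x with hy₀
  have hy₀Q : x - y₀ ∈ Q ^ N := by
    have : x - y₀ = a * x := by rw [hy₀]; linear_combination (-x) * hab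
    rw [this]
    exact (Q ^ N).mul_mem_right x ha
  obtain ⟨y, hy⟩ := Algebra.IsInvariant.isInvariant (A := 𝓞 K) (G := M ≃ₐ[K] M)
    (∑ τ : M ≃ₐ[K] M, τ • y₀) fun σ => by
      rw [Finset.smul_sum]
      simp only [smul_smul]
      exact Equiv.sum_comp (Equiv.mulLeft σ) (fun τ => τ • y₀)
  refine ⟨y, ?_⟩
  rw [hy, ← Finset.add_sum_erase _ _ (Finset.mem_univ (1 : M ≃ₐ[K] M)), one_smul, ← sub_sub]
  refine (Q ^ N).sub_mem hy₀Q ((Q ^ N).sum_mem fun τ hτ => ?_)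
  have hne : τ⁻¹ ∈ S :=
    Finset.mem_erase.2 ⟨inv_ne_one.2 (Finset.ne_of_mem_erase hτ), Finset.mem_univ _⟩
  have hb' : b ∈ (τ⁻¹ • Q) ^ N := Ideal.le_of_dvd (Finset.dvd_prod_of_mem _ hne) hb
  have h1 : τ • y₀ ∈ τ • ((τ⁻¹ • Q) ^ N) :=
    Ideal.smul_mem_pointwise_smul τ _ _ (((τ⁻¹ • Q) ^ N).mul_mem_right x hb')
  rwa [smul_pow', smul_inv_smul] at h1

/-- Multiplicities are unchanged at a completely split prime. -/
theorem mem_pow_of_algebraMap_mem {q : Ideal (𝓞 K)} [q.IsPrime] (hq : q ≠ ⊥)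
    {Q : Ideal (𝓞 M)} [Q.IsPrime] [Q.LiesOver q] (hQ : Q ≠ ⊥)
    (hstab : ∀ σ : M ≃ₐ[K] M, σ • Q = Q → σ = 1) {z : 𝓞 K} {N : ℕ}
    (hz : algebraMap (𝓞 K) (𝓞 M) z ∈ Q ^ N) : z ∈ q ^ N := by
  rcases eq_or_ne z 0 with rfl | hz0
  · exact zero_mem _
  have h := emultiplicity_algebraMap (M := M) hq (Q := Q) hQ hz0
  rw [inertia_eq_bot_of_stabilizer hstab, Subgroup.card_bot, Nat.cast_one, one_mul] at h
  rw [← Ideal.dvd_span_singleton] at hz ⊢
  exact pow_dvd_of_le_emultiplicity (h ▸ le_emultiplicity_of_pow_dvd hz)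

/-- The residue degree is one. -/
theorem absNorm_eq_of_stabilizer {q : Ideal (𝓞 K)} [q.IsPrime] (_hq : q ≠ ⊥)
    {Q : Ideal (𝓞 M)} [Q.IsPrime] [Q.LiesOver q] (hQ : Q ≠ ⊥)
    (hstab : ∀ σ : M ≃ₐ[K] M, σ • Q = Q → σ = 1) : absNorm Q = absNorm q := by
  rw [absNorm_apply, absNorm_apply, Submodule.cardQuot_apply, Submodule.cardQuot_apply]
  refine (Nat.card_eq_of_bijective (Ideal.quotientMap Q (algebraMap (𝓞 K) (𝓞 M))
    (Q.over_def q).le) ⟨Ideal.quotientMap_injective' (Q.over_def q).ge, ?_⟩).symm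
  intro x
  obtain ⟨x, rfl⟩ := Ideal.Quotient.mk_surjective x
  obtain ⟨y, hy⟩ := exists_sub_mem_pow hQ hstab x 1
  refine ⟨Ideal.Quotient.mk q y, ?_⟩
  rw [Ideal.quotientMap_mk, eq_comm, Ideal.Quotient.eq]
  simpa using hy

end FLTAgent.ExtVanishing
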