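import Fermat.Agent.ExtVanishing.Descent
import Fermat.Agent.ExtVanishing.SplitPrime
import Fermat.Agent.ExtVanishing.IdealEuler
import Fermat.Agent.Density.Growth
import Mathlib.FieldTheory.KummerExtension
import Mathlib.Analysis.SpecialFunctions.Complex.CircleAddChar

/-!
# There is no `ω²` character of the class group modulo `p`

If `φ` is such a character then, by Thaine's relation, the degree one primes with `φ ≠ 0` split
completely in `K(ε ^ (1/p))`, so they have density at most `1/p`. This is incompatible with the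
boundedness of the `L`-series of `φ` near `1`.
-/

set_option autoImplicit false
set_option maxSynthPendingDepth 3

noncomputable section

open NumberField Filter Topology Ideal
open scoped nonZeroDivisors Classical Pointwise

namespace FLTAgent.ExtVanishing

section Counting

variable {K : Type*} [Field K] [NumberField K]

/-- The prime ideals of norm `q` with a given property. -/
def primeCount (Pr : PrimeIdeals K → Prop) (q : ℕ) : ℕ :=
  Nat.card {P : PrimeIdeals K // Pr P ∧ absNorm P.1 = q}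

theorem finite_primeFiber (Pr : PrimeIdeals K → Prop) (q : ℕ) :
    Finite {P : PrimeIdeals K // Pr P ∧ absNorm P.1 = q} := by
  have := Density.finite_absNorm_eq K q
  exact Finite.of_injective
    (fun P => (⟨P.1.toNonZero, P.2.2⟩ : {I : (Ideal (𝓞 K))⁰ // absNorm (I : Ideal (𝓞 K)) = q}))
    fun P P' h => Subtype.ext (PrimeIdeals.toNonZero_injective (congrArg Subtype.val h))

theorem primeCount_top {q : ℕ} (hq : q.Prime) :
    primeCount (K := K) (fun P => (absNorm P.1).Prime) q = Density.idealCount K q := by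
  refine Nat.card_eq_of_bijective (fun P => ⟨P.1.toNonZero, P.2.2⟩) ⟨fun P P' h =>
    Subtype.ext (PrimeIdeals.toNonZero_injective (congrArg Subtype.val h)), fun I => ?_⟩
  have hI : (I.1 : Ideal (𝓞 K)).IsPrime :=
    Ideal.isPrime_of_irreducible_absNorm (by rw [I.2]; exact hq)
  exact ⟨⟨⟨(I.1 : Ideal (𝓞 K)), hI, mem_nonZeroDivisors_iff_ne_zero.1 I.1.2⟩,
    show (absNorm (I.1 : Ideal (𝓞 K))).Prime by rw [I.2]; exact hq, I.2⟩, rfl⟩

theorem summable_ite_rpow (Pr : PrimeIdeals K → Prop) [DecidablePred Pr] {s : ℝ} (hs : 1 < s) :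
    Summable fun P : PrimeIdeals K => if Pr P then (absNorm P.1 : ℝ) ^ (-s) else 0 := by
  refine (summable_rpow_primes (K := K) hs).of_nonneg_of_le (fun P => ?_) fun P => ?_
  · split_ifs
    · exact Real.rpow_nonneg (Nat.cast_nonneg _) _
    · rfl
  · split_ifs
    · rfl
    · exact Real.rpow_nonneg (Nat.cast_nonneg _) _

/-- Sums over degree one primes, arranged by the rational prime below. -/
theorem hasSum_primeCount (Pr : PrimeIdeals K → Prop) [DecidablePred Pr]
    (hPr : ∀ P, Pr P → (absNorm P.1).Prime)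
    {s : ℝ} (hs : 1 < s) :
    HasSum (fun q : Nat.Primes => (primeCount Pr q : ℝ) * ((q : ℕ) : ℝ) ^ (-s))
      (∑' P : PrimeIdeals K, if Pr P then (absNorm P.1 : ℝ) ^ (-s) else 0) := by
  have h1 := (summable_ite_rpow Pr hs).hasSum
  rw [← hasSum_subtype_iff_of_support_subset (s := {P | Pr P}) (fun P hP => by
    by_contra h
    exact hP (if_neg h))] at h1
  let g : {P : PrimeIdeals K | Pr P} → Nat.Primes := fun P => ⟨absNorm P.1.1, hPr _ P.2⟩
  rw [← (Equiv.sigmaFiberEquiv g).hasSum_iff] at h1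
  refine HasSum.sigma h1 fun q => ?_
  let e : {P : PrimeIdeals K // Pr P ∧ absNorm P.1 = (q : ℕ)} ≃ {x // g x = q} :=
    { toFun := fun P => ⟨⟨P.1, P.2.1⟩, Subtype.ext P.2.2⟩
      invFun := fun x => ⟨x.1.1, x.1.2, congrArg Subtype.val x.2⟩
      left_inv := fun _ => rfl
      right_inv := fun _ => rfl }
  have := finite_primeFiber Pr (q : ℕ)
  have : Fintype {P : PrimeIdeals K // Pr P ∧ absNorm P.1 = (q : ℕ)} := Fintype.ofFinite _
  have : Fintype {x // g x = q} := Fintype.ofEquiv _ e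
  have hcard : primeCount Pr (q : ℕ) = Fintype.card {x // g x = q} := by
    rw [primeCount, Nat.card_congr e, Nat.card_eq_fintype_card]
  have hterm : ∀ x : {x // g x = q},
      (((fun P => if Pr P then (absNorm P.1 : ℝ) ^ (-s) else 0) ∘ Subtype.val) ∘
        Equiv.sigmaFiberEquiv g) ⟨q, x⟩ = ((q : ℕ) : ℝ) ^ (-s) := fun x => by
    show (if Pr x.1.1 then (absNorm x.1.1.1 : ℝ) ^ (-s) else 0) = _
    refine (if_pos x.1.2).trans ?_
    rw [show absNorm x.1.1.1 = (q : ℕ) from congrArg Subtype.val x.2]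
  convert hasSum_fintype _ using 1
  rw [Finset.sum_congr rfl fun x _ => hterm x, Finset.sum_const, Finset.card_univ, nsmul_eq_mul,
    hcard]

theorem re_primeSeries_natCast (c : Nat.Primes → ℕ) (s : ℝ) :
    (Density.primeSeries (fun q => (c q : ℂ)) s).re =
      ∑' q : Nat.Primes, (c q : ℝ) * ((q : ℕ) : ℝ) ^ (-s) := by
  rw [Density.primeSeries]
  have h : ∀ q : Nat.Primes, (c q : ℂ) * ((((q : ℕ) : ℝ) ^ (-s) : ℝ) : ℂ) =
      (((c q : ℝ) * ((q : ℕ) : ℝ) ^ (-s) : ℝ) : ℂ) := fun q => by push_cast; ring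
  rw [tsum_congr h, ← Complex.ofReal_tsum, Complex.ofReal_re]

/-- The sum over the degree one primes grows like `log (1 / (s - 1))`. -/
theorem exists_le_sum_degreeOne :
    ∃ C : ℝ, ∀ᶠ s in 𝓝[>] (1 : ℝ), Real.log (1 / (s - 1)) - C ≤
      ∑' P : PrimeIdeals K, if (absNorm P.1).Prime then (absNorm P.1 : ℝ) ^ (-s) else 0 := by
  obtain ⟨C, hC⟩ := (Density.hasLogDensity_idealCount (K := K)).congr_density
    (show (1 : ℂ) = ((1 : ℝ) : ℂ) by simp) |>.exists_re_le
  refine ⟨C, ?_⟩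
  filter_upwards [hC, self_mem_nhdsWithin] with s hs hs1
  rw [← (hasSum_primeCount (fun P : PrimeIdeals K => (absNorm P.1).Prime) (fun _ h => h)
    hs1).tsum_eq,
    tsum_congr fun q : Nat.Primes => by rw [primeCount_top q.2],
    ← re_primeSeries_natCast (fun q : Nat.Primes => Density.idealCount K q)]
  have := (abs_le.1 hs).1
  linarith

end Counting

variable {p : ℕ} [hp : Fact p.Prime] {K : Type} [Field K] [NumberField K]
  [hK : IsCyclotomicExtension {p} ℚ K] {ζ : K} (hζ : IsPrimitiveRoot ζ p)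

/-- Degree one primes away from `p` modulo which `epsUnit` is a `p`-th power. -/
def IsBadPrime (P : PrimeIdeals K) : Prop :=
  (absNorm P.1).Prime ∧ absNorm P.1 ≠ p ∧ ∃ t : 𝓞 K, (epsUnit hζ : 𝓞 K) - t ^ p ∈ P.1

section Split

variable {M : Type} [Field M] [NumberField M] [Algebra K M] [IsGalois K M] {β : 𝓞 M}

include hK in
omit hK in
theorem stabilizer_eq_one (hβ : β ^ p = algebraMap (𝓞 K) (𝓞 M) (epsUnit hζ : 𝓞 K))
    (hgen : ∀ σ : M ≃ₐ[K] M, σ (β : M) = β → σ = 1) {P : PrimeIdeals K} (hP : IsBadPrime hζ P)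
    {Q : Ideal (𝓞 M)} [Q.IsPrime] [Q.LiesOver P.1] (σ : M ≃ₐ[K] M) (hσ : σ • Q = Q) : σ = 1 := by
  obtain ⟨hl, hlp, t, ht⟩ := hP
  have := P.2.1
  have : Fact (absNorm P.1).Prime := ⟨hl⟩
  have hζP := (zeta_sub_one_notMem hζ hlp (𝔩 := P.1) rfl).1
  set μ : 𝓞 M := algebraMap (𝓞 K) (𝓞 M) hζ.toInteger with hμ
  have hμp : IsPrimitiveRoot μ p :=
    hζ.toInteger_isPrimitiveRoot.map_of_injective (FaithfulSMul.algebraMap_injective _ _)
  set t' : 𝓞 M := algebraMap (𝓞 K) (𝓞 M) t with ht'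
  have hsub : β ^ p - t' ^ p ∈ Q := by
    rw [hβ, ht', ← map_pow, ← map_sub]
    exact (Ideal.mem_of_liesOver Q P.1 _).1 ht
  rw [hμp.pow_sub_pow_eq_prod_sub_mul β t' hp.out.pos] at hsub
  obtain ⟨ν, hν, hνQ⟩ := ((inferInstance : Q.IsPrime).prod_mem_iff).1 hsub
  rw [Polynomial.mem_nthRootsFinset hp.out.pos] at hν
  obtain ⟨i, -, rfl⟩ := hμp.eq_pow_of_pow_eq_one hν
  -- apply `σ`
  have hfix : σ • (μ ^ i * t') = μ ^ i * t' := by
    rw [hμ, ht', ← map_pow, ← map_mul, smul_algebraMap]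
  have hσQ : σ • (β - μ ^ i * t') ∈ Q := hσ ▸ Ideal.smul_mem_pointwise_smul σ _ _ hνQ
  rw [smul_sub, hfix] at hσQ
  have hdiff : σ • β - β ∈ Q := by
    have := Q.sub_mem hσQ hνQ
    simpa using this
  -- `σ β = μ ^ j β`
  have hβu : IsUnit β := (isUnit_pow_iff hp.out.ne_zero).1 (hβ ▸ (Units.isUnit _).map _)
  obtain ⟨u, hu⟩ := hβu
  have hrat : ((σ • β) * (↑u⁻¹ : 𝓞 M)) ^ p = 1 := by
    rw [mul_pow, ← smul_pow', hβ, smul_algebraMap, ← hβ, ← hu, ← mul_pow, Units.mul_inv, one_pow]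
  obtain ⟨j, hj, hjeq⟩ := hμp.eq_pow_of_pow_eq_one hrat
  have hσβ : σ • β = μ ^ j * β := by rw [hjeq, ← hu, Units.inv_mul_cancel_right]
  rcases Nat.eq_zero_or_pos j with rfl | hj0
  · refine hgen σ ?_
    rw [pow_zero, one_mul] at hσβ
    exact congrArg (fun z : 𝓞 M => (z : M)) hσβ
  exfalso
  rw [hσβ, ← sub_one_mul] at hdiff
  have hj1 : μ ^ j - 1 ∈ Q :=
    ((inferInstance : Q.IsPrime).mem_or_mem hdiff).resolve_right fun h =>
      Ideal.IsPrime.ne_top (I := Q) inferInstance (Ideal.eq_top_of_isUnit_mem _ h (hu ▸ u.isUnit))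
  have hjP : hζ.toInteger ^ j - 1 ∈ P.1 := by
    refine (Ideal.mem_of_liesOver Q P.1 _).2 ?_
    rw [map_sub, map_pow, map_one]
    exact hj1
  obtain ⟨w, hw⟩ := (hζ.toInteger_isPrimitiveRoot.associated_sub_one_pow_sub_one_of_coprime
    ((Nat.coprime_comm.1 (hp.out.coprime_iff_not_dvd.2
      fun h => absurd (Nat.le_of_dvd hj0 h) (by omega))))).symm
  exact hζP (hw ▸ P.1.mul_mem_right _ hjP)

include hK in
omit hK in
theorem mul_primeCount_bad_le (hfin : Module.finrank K M = p)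
    (hβ : β ^ p = algebraMap (𝓞 K) (𝓞 M) (epsUnit hζ : 𝓞 K))
    (hgen : ∀ σ : M ≃ₐ[K] M, σ (β : M) = β → σ = 1) (q : ℕ) :
    p * primeCount (IsBadPrime hζ) q ≤ Density.idealCount M q := by
  have := Density.finite_absNorm_eq M q
  have hex : ∀ P : PrimeIdeals K, ∃ Q : Ideal (𝓞 M), Q.IsPrime ∧ Q.LiesOver P.1 := fun P => by
    have := P.2.1
    obtain ⟨⟨Q, hQ⟩⟩ := Ideal.nonempty_primesOver (P := P.1) (S := 𝓞 M)
    exact ⟨Q, hQ.1, hQ.2⟩
  choose Qf hQp hQo using hex
  have key : ∀ (P : {P : PrimeIdeals K // IsBadPrime hζ P ∧ absNorm P.1 = q}) (σ : M ≃ₐ[K] M),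
      σ • Qf P.1 ≠ ⊥ ∧ absNorm (σ • Qf P.1) = q := by
    intro P σ
    have := P.1.2.1
    have := hQp P.1
    have := hQo P.1
    have : (σ • Qf P.1).IsPrime := (hQp P.1).smul σ
    have : (σ • Qf P.1).LiesOver P.1.1 := inferInstance
    have hne : σ • Qf P.1 ≠ ⊥ := Ideal.ne_bot_of_liesOver_of_ne_bot P.1.2.2 _
    refine ⟨hne, (absNorm_eq_of_stabilizer P.1.2.2 hne fun τ hτ => ?_).trans P.2.2⟩
    exact stabilizer_eq_one hζ hβ hgen P.2.1 τ hτ
  let f : {P : PrimeIdeals K // IsBadPrime hζ P ∧ absNorm P.1 = q} × (M ≃ₐ[K] M) →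
      {I : (Ideal (𝓞 M))⁰ // absNorm (I : Ideal (𝓞 M)) = q} := fun x =>
    ⟨⟨x.2 • Qf x.1.1, mem_nonZeroDivisors_iff_ne_zero.2 (key x.1 x.2).1⟩, (key x.1 x.2).2⟩
  have hinj : Function.Injective f := by
    rintro ⟨P, σ⟩ ⟨P', σ'⟩ h
    have h' : σ • Qf P.1 = σ' • Qf P'.1 :=
      congrArg (fun z : {I : (Ideal (𝓞 M))⁰ // absNorm (I : Ideal (𝓞 M)) = q} =>
        ((z.1 : (Ideal (𝓞 M))⁰) : Ideal (𝓞 M))) h
    have := hQo P.1
    have := hQo P'.1
    have hPP : P.1.1 = P'.1.1 := by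
      rw [(inferInstance : (σ • Qf P.1).LiesOver P.1.1).over,
        (inferInstance : (σ' • Qf P'.1).LiesOver P'.1.1).over, h']
    obtain rfl : P = P' := Subtype.ext (Subtype.ext hPP)
    have := hQp P.1
    have := stabilizer_eq_one hζ hβ hgen P.2.1 (Q := Qf P.1) (σ'⁻¹ * σ) (by
      rw [mul_smul, h', inv_smul_smul])
    rw [inv_mul_eq_one] at this
    rw [this]
  have := Nat.card_le_card_of_injective f hinj
  rwa [Nat.card_prod, IsGalois.card_aut_eq_finrank, hfin, mul_comm] at this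

end Split

include hK in
/-- The bad primes have density at most `1/p`. -/
theorem exists_bad_le (h5 : 5 ≤ p) :
    ∃ C : ℝ, ∀ᶠ s in 𝓝[>] (1 : ℝ),
      (p : ℝ) * (∑' P : PrimeIdeals K,
        if IsBadPrime hζ P then (absNorm P.1 : ℝ) ^ (-s) else 0) ≤
        Real.log (1 / (s - 1)) + C := by
  have hne : ∀ b : K, b ^ p ≠ ((epsUnit hζ : 𝓞 K) : K) := by
    intro b hb
    obtain ⟨z, hz⟩ := exists_int_of_pow hp.out.ne_zero hb
    have hzp : z ^ p = (epsUnit hζ : 𝓞 K) := RingOfIntegers.ext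
      ((show ((z ^ p : 𝓞 K) : K) = (z : K) ^ p from rfl).trans (by rw [hz, hb]))
    have hzu : IsUnit z := (isUnit_pow_iff hp.out.ne_zero).1 (hzp ▸ Units.isUnit _)
    refine secondLogDeriv_epsUnit hζ h5 ?_
    rw [show epsUnit hζ = hzu.unit ^ p from Units.ext hzp.symm, ofMul_pow, map_nsmul, nsmul_eq_mul,
      ZMod.natCast_self, zero_mul]
  have hirr : Irreducible (Polynomial.X ^ p - Polynomial.C ((epsUnit hζ : 𝓞 K) : K)) :=
    X_pow_sub_C_irreducible_of_prime hp.out hne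
  have hμ : (primitiveRoots p K).Nonempty := ⟨ζ, (mem_primitiveRoots hp.out.pos).2 hζ⟩
  set f : Polynomial K := Polynomial.X ^ p - Polynomial.C ((epsUnit hζ : 𝓞 K) : K) with hf
  set M := f.SplittingField with hM
  have : Polynomial.IsSplittingField K M
      (Polynomial.X ^ p - Polynomial.C ((epsUnit hζ : 𝓞 K) : K)) :=
    Polynomial.IsSplittingField.splittingField f
  have : IsGalois K M := isGalois_of_isSplittingField_X_pow_sub_C hμ hirr M
  have : FiniteDimensional K M := Polynomial.IsSplittingField.finiteDimensional M f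
  have : NumberField M := NumberField.of_module_finite K M
  have : NeZero p := ⟨hp.out.ne_zero⟩
  set b : M := rootOfSplitsXPowSubC hp.out.pos ((epsUnit hζ : 𝓞 K) : K) M with hb
  have hbp : b ^ p = algebraMap K M ((epsUnit hζ : 𝓞 K) : K) := rootOfSplitsXPowSubC_pow _ M
  have hbint : IsIntegral ℤ b := by
    refine IsIntegral.of_pow hp.out.pos (hbp ▸ ?_)
    exact (RingOfIntegers.isIntegral_coe _).map ((algebraMap K M).toIntAlgHom)
  set β : 𝓞 M := ⟨b, hbint⟩
  have hβ : β ^ p = algebraMap (𝓞 K) (𝓞 M) (epsUnit hζ : 𝓞 K) := RingOfIntegers.ext hbp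
  have hgen : ∀ σ : M ≃ₐ[K] M, σ (β : M) = β → σ = 1 := fun σ hσ => by
    have hext : σ.toAlgHom = (1 : M ≃ₐ[K] M).toAlgHom :=
      AlgHom.ext_of_adjoin_eq_top (Algebra.adjoin_root_eq_top_of_isSplittingField hμ hirr hbp)
        (fun z hz => by rw [Set.mem_singleton_iff.1 hz]; exact hσ)
    exact AlgEquiv.ext fun z => AlgHom.congr_fun hext z
  have hcount := mul_primeCount_bad_le hζ (finrank_of_isSplittingField_X_pow_sub_C hμ hirr M) hβ
    hgen
  obtain ⟨C, hC⟩ := (Density.hasLogDensity_idealCount (K := M)).congr_density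
    (show (1 : ℂ) = ((1 : ℝ) : ℂ) by simp) |>.exists_re_le
  refine ⟨C, ?_⟩
  filter_upwards [hC, self_mem_nhdsWithin] with s hs hs1
  have hsum := (Density.isBoundedOnPrimes_idealCount (K := M)).summable hs1
  have hsumR : Summable fun q : Nat.Primes =>
      (Density.idealCount M q : ℝ) * ((q : ℕ) : ℝ) ^ (-s) := by
    refine Complex.summable_ofReal.1 (hsum.congr fun q => ?_)
    push_cast
    ring
  have hB := hasSum_primeCount (IsBadPrime hζ) (fun _ h => h.1) hs1
  have hle := hasSum_le (fun q : Nat.Primes => ?_) (hB.mul_left (p : ℝ)) hsumR.hasSum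
  · rw [← re_primeSeries_natCast (fun q : Nat.Primes => Density.idealCount M q)] at hle
    have := (abs_le.1 hs).2
    linarith
  · rw [← mul_assoc]
    refine mul_le_mul_of_nonneg_right ?_ (Real.rpow_nonneg (Nat.cast_nonneg _) _)
    exact_mod_cast hcount q

section Char

variable (φ : Additive (ClassGroup (𝓞 K)) →+ ZMod p)

/-- The complex character of the class group attached to `φ`. -/
def classChar : ClassGroup (𝓞 K) →* ℂ where
  toFun C := ZMod.stdAddChar (φ (Additive.ofMul C))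
  map_one' := by simp
  map_mul' C D := by rw [ofMul_mul, map_add, AddChar.map_add_eq_mul]

omit [NumberField K] hK in
theorem norm_classChar (C : ClassGroup (𝓞 K)) : ‖classChar φ C‖ = 1 := by
  show ‖ZMod.stdAddChar (φ (Additive.ofMul C))‖ = 1
  rw [ZMod.stdAddChar_apply]
  exact Circle.norm_coe _

/-- `φ` on ideals. -/
def idealFn (I : Ideal (𝓞 K)) : ZMod p :=
  if h : I = ⊥ then 0
  else φ (Additive.ofMul (ClassGroup.mk0 ⟨I, mem_nonZeroDivisors_iff_ne_zero.2 h⟩))

omit hK in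
theorem idealFn_coe (I : (Ideal (𝓞 K))⁰) :
    idealFn φ (I : Ideal (𝓞 K)) = φ (Additive.ofMul (ClassGroup.mk0 I)) := by
  rw [idealFn, dif_neg (show ¬ (I : Ideal (𝓞 K)) = ⊥ from mem_nonZeroDivisors_iff_ne_zero.1 I.2)]

omit hK in
theorem exists_tendsto_sum_classChar (hφ : φ ≠ 0) :
    ∃ l : ℂ, Tendsto (fun s : ℝ => ∑' I : (Ideal (𝓞 K))⁰,
      dirichletTerm ((classChar φ).comp ClassGroup.mk0) s I) (𝓝[>] 1) (𝓝 l) := by
  have hsum0 : ∑ C : ClassGroup (𝓞 K), classChar φ C = 0 := by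
    obtain ⟨x, hx⟩ : ∃ x, φ x ≠ 0 := not_forall.1 fun h => hφ (AddMonoidHom.ext h)
    have hne : classChar φ x.toMul ≠ 1 := fun h => hx (ZMod.injective_stdAddChar (by
      rw [AddChar.map_zero_eq_one, ← h]
      rfl))
    have h := Fintype.sum_equiv (Equiv.mulLeft x.toMul) (fun C => classChar φ (x.toMul * C))
      (classChar φ) fun _ => rfl
    simp only [map_mul, ← Finset.mul_sum] at h
    exact mul_left_eq_self₀.1 h |>.resolve_left hne
  choose l hl using fun C => Density.exists_tendsto_classSum_sub_classSum (K := K) C 1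
  refine ⟨∑ C : ClassGroup (𝓞 K), classChar φ C * l C,
    (tendsto_finsetSum _ fun C _ => (hl C).const_mul (classChar φ C)).congr' ?_⟩
  filter_upwards [self_mem_nhdsWithin] with s hs
  simp only [mul_sub, Finset.sum_sub_distrib, ← Finset.sum_mul, hsum0, zero_mul, sub_zero]
  let e := Equiv.sigmaFiberEquiv fun I : (Ideal (𝓞 K))⁰ => ClassGroup.mk0 I
  have hsum : Summable fun I : (Ideal (𝓞 K))⁰ =>
      dirichletTerm ((classChar φ).comp ClassGroup.mk0) s I :=
    Summable.of_norm_bounded (Density.summable_absNorm_rpow (K := K) hs) fun I =>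
      norm_dirichletTerm_le (fun J => (norm_classChar φ _).le) s I
  rw [← e.tsum_eq]
  refine Eq.symm ((Summable.tsum_sigma (e.summable_iff.2 hsum)).trans ?_)
  rw [tsum_fintype]
  refine Finset.sum_congr rfl fun C _ => ?_
  rw [Density.classSum, ← tsum_mul_left]
  refine tsum_congr fun I => ?_
  show classChar φ (ClassGroup.mk0 I.1) * _ = _
  rw [I.2, one_mul]
  rfl

include hK in
/-- **Vanishing of the `ω²` eigenspace of the class group modulo `p`.** -/
theorem eigen_character_eq_zero (h5 : 5 ≤ p)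
    (heig : ∀ b x, φ (classAction hζ b x) = ((b ^ 2 : (ZMod p)ˣ) : ZMod p) * φ x) : φ = 0 := by
  by_contra hφ
  -- Thaine's relation: outside the exceptional and bad primes the character is trivial
  have hmul : ∀ I J, I ≠ ⊥ → J ≠ ⊥ → idealFn φ (I * J) = idealFn φ I + idealFn φ J := by
    intro I J hI hJ
    lift I to (Ideal (𝓞 K))⁰ using mem_nonZeroDivisors_iff_ne_zero.2 hI
    lift J to (Ideal (𝓞 K))⁰ using mem_nonZeroDivisors_iff_ne_zero.2 hJ
    rw [← Submonoid.coe_mul, idealFn_coe, idealFn_coe, idealFn_coe, map_mul, ofMul_mul, map_add]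
  have hprin : ∀ x : 𝓞 K, x ≠ 0 → idealFn φ (span {x}) = 0 := by
    intro x hx
    rw [idealFn, dif_neg (by simpa using hx),
      (ClassGroup.mk0_eq_one_iff _).2 ⟨⟨x, rfl⟩⟩, ofMul_one, map_zero]
  have heq : ∀ (b : (ZMod p)ˣ) (I : Ideal (𝓞 K)), I ≠ ⊥ →
      idealFn φ (I.map (autInt (galAut hζ b))) =
        ((b ^ 2 : (ZMod p)ˣ) : ZMod p) * idealFn φ I := by
    intro b I hI
    lift I to (Ideal (𝓞 K))⁰ using mem_nonZeroDivisors_iff_ne_zero.2 hI
    rw [← mapNonZero_val, idealFn_coe, idealFn_coe, ← classAction_mk0, heig]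
  set χ : (Ideal (𝓞 K))⁰ →* ℂ := (classChar φ).comp ClassGroup.mk0 with hχdef
  have hχ : ∀ I, ‖χ I‖ ≤ 1 := fun I => (norm_classChar φ _).le
  have hgood : ∀ P : PrimeIdeals K, (absNorm P.1).Prime → absNorm P.1 ≠ p →
      ¬ IsBadPrime hζ P → χ P.toNonZero = 1 := by
    intro P hl hlp hnb
    have hf : idealFn φ P.1 = 0 := by
      by_contra hne
      have := P.2.1
      have : Fact (absNorm P.1).Prime := ⟨hl⟩
      exact hnb ⟨hl, hlp, epsUnit_isPowResidue hζ h5 hmul hprin heq hlp rfl hne⟩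
    rw [← PrimeIdeals.coe_toNonZero, idealFn_coe] at hf
    show ZMod.stdAddChar (φ (Additive.ofMul (ClassGroup.mk0 P.toNonZero))) = 1
    rw [hf, AddChar.map_zero_eq_one]
  obtain ⟨Ce, hCe⟩ := exists_bound_exceptional (K := K) p
  obtain ⟨C1, hC1⟩ := exists_le_sum_degreeOne (K := K)
  obtain ⟨Cb, hCb⟩ := exists_bad_le hζ h5
  obtain ⟨l, hl⟩ := exists_tendsto_sum_classChar φ hφ
  have hL : ∀ᶠ s in 𝓝[>] (1 : ℝ), ‖∑' I : (Ideal (𝓞 K))⁰, dirichletTerm χ s I‖ ≤ ‖l‖ + 1 :=
    hl.norm.eventually (eventually_le_nhds (lt_add_one _))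
  set D : ℝ := ∑' P : PrimeIdeals K, (absNorm P.1 : ℝ) ^ (-(2 : ℝ))
  have hp5 : (5 : ℝ) ≤ p := by exact_mod_cast h5
  set R : ℝ := Real.log (‖l‖ + 1) + D + |C1| + 3 * |Ce| + |Cb|
  have hbig := (Density.tendsto_log_one_div_sub_one).eventually (eventually_gt_atTop (2 * R))
  obtain ⟨s, hs1, hs2, hs3, hs4, hs5⟩ :=
    ((eventually_mem_nhdsWithin (a := (1 : ℝ)) (s := Set.Ioi 1)).and
      (hC1.and (hCb.and (hL.and hbig)))).exists
  simp only [Set.mem_Ioi] at hs1
  set lg : ℝ := Real.log (1 / (s - 1))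
  have hT : Summable fun P : PrimeIdeals K => dirichletTerm χ s P.toNonZero :=
    Summable.of_norm_bounded (summable_rpow_primes (K := K) hs1) fun P =>
      norm_dirichletTerm_le hχ s _
  set A : ℝ := ∑' P : PrimeIdeals K, if (absNorm P.1).Prime then (absNorm P.1 : ℝ) ^ (-s) else 0
  set B : ℝ := ∑' P : PrimeIdeals K, if IsBadPrime hζ P then (absNorm P.1 : ℝ) ^ (-s) else 0
  let exc : PrimeIdeals K → Prop := fun P => ¬ ((absNorm P.1).Prime ∧ absNorm P.1 ≠ p)
  set E : ℝ := ∑' P : PrimeIdeals K, if exc P then (absNorm P.1 : ℝ) ^ (-s) else 0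
  have hE : E ≤ Ce := (summable_ite_rpow exc hs1).tsum_le_of_sum_le fun T =>
    le_of_eq_of_le (Finset.sum_filter exc (fun P => (absNorm P.1 : ℝ) ^ (-s))).symm
      (hCe s hs1 _ fun P hP => (Finset.mem_filter.1 hP).2)
  have hlow : A - 2 * B - 3 * E ≤ (∑' P : PrimeIdeals K, dirichletTerm χ s P.toNonZero).re := by
    refine hasSum_le (fun P => ?_) (((summable_ite_rpow _ hs1).hasSum.sub
      ((summable_ite_rpow _ hs1).hasSum.mul_left 2)).sub
      ((summable_ite_rpow exc hs1).hasSum.mul_left 3)) (Complex.hasSum_re hT.hasSum)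
    set n : ℝ := (absNorm P.1 : ℝ) ^ (-s) with hn
    have hn0 : 0 ≤ n := Real.rpow_nonneg (Nat.cast_nonneg _) _
    have hre : (dirichletTerm χ s P.toNonZero).re = (χ P.toNonZero).re * n := by
      rw [dirichletTerm_apply, PrimeIdeals.coe_toNonZero, Complex.re_mul_ofReal]
    have hge : -1 ≤ (χ P.toNonZero).re :=
      (neg_le_neg (hχ P.toNonZero)).trans (neg_le_of_abs_le (Complex.abs_re_le_norm _))
    rw [hre]
    by_cases hx : exc P
    · have h1 : -n ≤ (χ P.toNonZero).re * n := by nlinarith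
      rw [if_pos hx]
      split_ifs <;> linarith
    · rw [if_neg hx]
      obtain ⟨hP1, hP2⟩ := not_not.1 hx
      rw [if_pos hP1]
      by_cases hb : IsBadPrime hζ P
      · rw [if_pos hb]; nlinarith
      · rw [if_neg hb, hgood P hP1 hP2 hb, Complex.one_re]
        linarith
  have hmain := abs_re_primeSum_sub_log_le hχ hs1
  have hne : ∑' I : (Ideal (𝓞 K))⁰, dirichletTerm χ s I ≠ 0 := by
    rw [← exp_tsum_log_factor hχ hs1]
    exact Complex.exp_ne_zero _
  have hlog : Real.log ‖∑' I : (Ideal (𝓞 K))⁰, dirichletTerm χ s I‖ ≤ Real.log (‖l‖ + 1) :=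
    Real.log_le_log (norm_pos_iff.2 hne) hs4
  have hB5 : 5 * B ≤ lg + |Cb| := by
    have hB0 : 0 ≤ B := tsum_nonneg fun P => by
      split_ifs
      · exact Real.rpow_nonneg (Nat.cast_nonneg _) _
      · rfl
    nlinarith [hs3, le_abs_self Cb]
  have hD := (abs_le.1 hmain).2
  have hD0 : 0 ≤ D := tsum_nonneg fun P => Real.rpow_nonneg (Nat.cast_nonneg _) _
  have hl0 : 0 ≤ Real.log (‖l‖ + 1) := Real.log_nonneg (by linarith [norm_nonneg l])
  linarith [hlow, hE, hs2, hs5, hD, hlog, hB5, abs_nonneg Cb, le_abs_self C1, le_abs_self Ce,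
    abs_nonneg C1, abs_nonneg Ce]

end Char

end FLTAgent.ExtVanishing
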