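import Fermat.Agent.RegularData.CyclotomicJet
import Mathlib.LinearAlgebra.FreeModule.ModN
import Mathlib.RingTheory.RootsOfUnity.CyclotomicUnits
import Mathlib.FieldTheory.Finite.Basic

/-!
# The cyclotomic unit of the `ω²`-component

`epsUnit` is `∏ ((1 - ζ^b) / (1 - ζ)) ^ n_b` with `n_b ≡ b⁻² (mod p)`. It is an eigenvector modulo
`p`-th powers and Kummer's second logarithmic derivative of it is `-1/12`.
-/

set_option autoImplicit false

open NumberField Polynomial DualNumber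

namespace FLTAgent.ExtVanishing

section Space

variable (p : ℕ) (K : Type*) [Field K]

/-- Units modulo `p`-th powers. -/
abbrev UnitsModP : Type _ := ModN (Additive (𝓞 K)ˣ) p

/-- The class of a unit modulo `p`-th powers. -/
noncomputable def unitClass : Additive (𝓞 K)ˣ →+ UnitsModP p K := ModN.mkQ p

theorem unitClass_eq_zero_iff (u : (𝓞 K)ˣ) :
    unitClass p K (Additive.ofMul u) = 0 ↔ ∃ v : (𝓞 K)ˣ, u = v ^ p := by
  rw [unitClass, ModN.mkQ]
  constructor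
  · intro h
    obtain ⟨z, hz⟩ := (Submodule.Quotient.mk_eq_zero _).1 h
    refine ⟨z.toMul, ?_⟩
    have := congrArg Additive.toMul hz
    simpa using this.symm
  · rintro ⟨v, rfl⟩
    exact (Submodule.Quotient.mk_eq_zero _).2 ⟨Additive.ofMul v, by simp⟩

variable {K} [NumberField K]

/-- An automorphism of `K` acting on its integers. -/
noncomputable def autInt (σ : K ≃ₐ[ℚ] K) : 𝓞 K →+* 𝓞 K := RingOfIntegers.mapRingHom σ

theorem coe_autInt (σ : K ≃ₐ[ℚ] K) (x : 𝓞 K) : ((autInt σ x : 𝓞 K) : K) = σ (x : K) := rfl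

/-- An automorphism of `K` acting on units. -/
noncomputable def unitsAut (σ : K ≃ₐ[ℚ] K) : (𝓞 K)ˣ →* (𝓞 K)ˣ :=
  Units.map (autInt σ).toMonoidHom

theorem coe_unitsAut (σ : K ≃ₐ[ℚ] K) (u : (𝓞 K)ˣ) :
    ((unitsAut σ u : 𝓞 K) : K) = σ ((u : 𝓞 K) : K) := rfl

end Space

variable {p : ℕ} [hp : Fact p.Prime] {K : Type*} [Field K] [NumberField K]
  [hK : IsCyclotomicExtension {p} ℚ K] {ζ : K} (hζ : IsPrimitiveRoot ζ p)

include hK in
omit [NumberField K] hK in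
/-- `1 + ζ + ⋯ + ζ^(b-1)` as a unit. -/
theorem isUnit_geom (b : (ZMod p)ˣ) :
    IsUnit (∑ i ∈ Finset.range (b : ZMod p).val, hζ.toInteger ^ i) := by
  refine hζ.toInteger_isPrimitiveRoot.geom_sum_isUnit hp.out.two_le ?_
  exact ZMod.val_coe_unit_coprime b

/-- The unit `(1 - ζ^b)/(1 - ζ)`. -/
noncomputable def geomUnit (b : (ZMod p)ˣ) : (𝓞 K)ˣ := (isUnit_geom hζ b).unit

omit [NumberField K] hK in
theorem geomUnit_mul (b : (ZMod p)ˣ) :
    (geomUnit hζ b : 𝓞 K) * (hζ.toInteger - 1) = hζ.toInteger ^ (b : ZMod p).val - 1 :=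
  geom_sum_mul _ _

/-- The exponent `b⁻² mod p`. -/
noncomputable def epsExp (b : (ZMod p)ˣ) : ℕ := ((b⁻¹ ^ 2 : (ZMod p)ˣ) : ZMod p).val

/-- The `ω²`-projection of the cyclotomic units. -/
noncomputable def epsUnit : (𝓞 K)ˣ := ∏ b : (ZMod p)ˣ, geomUnit hζ b ^ epsExp b

omit [NumberField K] hK in
theorem unitClass_epsUnit : unitClass p K (Additive.ofMul (epsUnit hζ)) =
    ∑ b : (ZMod p)ˣ, ((b⁻¹ ^ 2 : (ZMod p)ˣ) : ZMod p) •
      unitClass p K (Additive.ofMul (geomUnit hζ b)) := by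
  rw [epsUnit, ofMul_prod, map_sum]
  refine Finset.sum_congr rfl fun b _ => ?_
  rw [ofMul_pow, map_nsmul, ← Nat.cast_smul_eq_nsmul (ZMod p), epsExp, ZMod.natCast_zmod_val]

theorem sum_units_inv_sq (h5 : 5 ≤ p) : ∑ b : (ZMod p)ˣ, ((b⁻¹ ^ 2 : (ZMod p)ˣ) : ZMod p) = 0 := by
  rw [← Equiv.sum_comp (Equiv.inv (ZMod p)ˣ)]
  simp only [Equiv.inv_apply, inv_inv, Units.val_pow_eq_pow_val]
  rw [FiniteField.sum_pow_units, ZMod.card, if_neg]
  intro h
  have := Nat.le_of_dvd (by decide) h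
  omega

theorem sum_units_inv (h5 : 5 ≤ p) : ∑ b : (ZMod p)ˣ, ((b⁻¹ : (ZMod p)ˣ) : ZMod p) = 0 := by
  rw [← Equiv.sum_comp (Equiv.inv (ZMod p)ˣ)]
  simp only [Equiv.inv_apply, inv_inv]
  have := FiniteField.sum_pow_units (ZMod p) 1
  simp only [pow_one, Nat.dvd_one] at this
  rw [this, if_neg]
  rw [ZMod.card]
  omega

include hK in
theorem unitsAut_geomUnit {σ : K ≃ₐ[ℚ] K} {c : (ZMod p)ˣ} (hσ : σ ζ = ζ ^ (c : ZMod p).val)
    (b : (ZMod p)ˣ) : unitsAut σ (geomUnit hζ b) * geomUnit hζ c = geomUnit hζ (b * c) := by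
  have hne : hζ.toInteger - 1 ≠ 0 := hζ.zeta_sub_one_prime'.ne_zero
  have hσ' : autInt σ hζ.toInteger = hζ.toInteger ^ (c : ZMod p).val :=
    RingOfIntegers.ext hσ
  ext1
  refine mul_right_cancel₀ hne ?_
  rw [Units.val_mul, mul_assoc, geomUnit_mul, geomUnit_mul, ← hσ']
  have h1 : (unitsAut σ (geomUnit hζ b) : 𝓞 K) =
      autInt σ (geomUnit hζ b : 𝓞 K) := rfl
  rw [h1, ← map_one (autInt σ), ← map_sub, ← map_mul, geomUnit_mul, map_sub,
    map_pow, hσ', map_one, ← pow_mul]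
  congr 1
  have hpow : hζ.toInteger ^ p = 1 := hζ.toInteger_isPrimitiveRoot.pow_eq_one
  rw [pow_eq_pow_mod _ hpow, Units.val_mul, ZMod.val_mul, mul_comm]

include hK in
theorem unitClass_unitsAut_epsUnit (h5 : 5 ≤ p) {σ : K ≃ₐ[ℚ] K} {c : (ZMod p)ˣ}
    (hσ : σ ζ = ζ ^ (c : ZMod p).val) :
    unitClass p K (Additive.ofMul (unitsAut σ (epsUnit hζ))) =
      ((c ^ 2 : (ZMod p)ˣ) : ZMod p) • unitClass p K (Additive.ofMul (epsUnit hζ)) := by
  have hgeom : ∀ b, unitClass p K (Additive.ofMul (unitsAut σ (geomUnit hζ b))) =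
      unitClass p K (Additive.ofMul (geomUnit hζ (b * c))) -
        unitClass p K (Additive.ofMul (geomUnit hζ c)) := by
    intro b
    rw [← unitsAut_geomUnit hζ hσ b, ofMul_mul, map_add, add_sub_cancel_right]
  rw [unitClass_epsUnit, epsUnit, map_prod, ofMul_prod, map_sum, Finset.smul_sum]
  simp only [map_pow, ofMul_pow, map_nsmul, hgeom, ← Nat.cast_smul_eq_nsmul (ZMod p), epsExp,
    ZMod.natCast_zmod_val, smul_sub, Finset.sum_sub_distrib, ← mul_smul]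
  rw [← Finset.sum_smul, sum_units_inv_sq h5, zero_smul, sub_zero]
  rw [← Equiv.sum_comp (Equiv.mulRight c) (fun b : (ZMod p)ˣ =>
    (((c ^ 2 : (ZMod p)ˣ) : ZMod p) * ((b⁻¹ ^ 2 : (ZMod p)ˣ) : ZMod p)) •
      unitClass p K (Additive.ofMul (geomUnit hζ b)))]
  refine Finset.sum_congr rfl fun b _ => ?_
  simp only [Equiv.coe_mulRight]
  congr 1
  rw [← Units.val_mul, ← mul_pow, mul_inv_rev, mul_inv_cancel_left]

/-! ### The second logarithmic derivative -/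

section LogDeriv

open FLTAgent.RegularData

variable (p) in
/-- Truncation `𝔽_p[X]/(X^(p-2)) → 𝔽_p[ε]`. -/
noncomputable def jetTrunc (h5 : 5 ≤ p) : JetRing p →+* DualNumber (ZMod p) :=
  Ideal.Quotient.lift _ (aeval (R := ZMod p) (ε : DualNumber (ZMod p))).toRingHom (fun f hf => by
    obtain ⟨g, rfl⟩ := Ideal.mem_span_singleton.1 hf
    have h2 : (ε : DualNumber (ZMod p)) ^ (p - 2) = 0 := by
      rw [show p - 2 = 2 + (p - 4) by omega, pow_add, sq, eps_mul_eps, zero_mul]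
    simp [h2])

theorem jetTrunc_X (h5 : 5 ≤ p) : jetTrunc p h5 (jetX p) = ε := by
  rw [jetTrunc, jetX, Ideal.Quotient.lift_mk]
  simp

/-- The second logarithmic derivative. -/
noncomputable def secondLogDeriv (h5 : 5 ≤ p) : Additive (𝓞 K)ˣ →+ ZMod p :=
  ((TrivSqZeroExt.sndHom (ZMod p) (ZMod p)).toAddMonoidHom.comp
    (jetTrunc p h5).toAddMonoidHom).comp (logDeriv' hζ)

theorem secondLogDeriv_apply (h5 : 5 ≤ p) (u : Additive (𝓞 K)ˣ) :
    secondLogDeriv hζ h5 u = TrivSqZeroExt.snd (jetTrunc p h5 (logDeriv' hζ u)) := rfl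

theorem secondLogDeriv_eq_zero_of_congr (h5 : 5 ≤ p) (u : (𝓞 K)ˣ)
    (h : ∃ n : ℤ, (p : 𝓞 K) ∣ (u : 𝓞 K) - n) :
    secondLogDeriv hζ h5 (Additive.ofMul u) = 0 := by
  rw [secondLogDeriv_apply, logDeriv'_eq_zero_of_congr hζ u h, map_zero, TrivSqZeroExt.snd_zero]

theorem two_mul_sum_range_cast (a : ℕ) :
    2 * (∑ i ∈ Finset.range a, (i : ZMod p)) = (a : ZMod p) * ((a : ZMod p) - 1) := by
  induction a with
  | zero => simp
  | succ a ih => rw [Finset.sum_range_succ, mul_add, ih]; push_cast; ring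

theorem three_mul_sum_range_cast (a : ℕ) :
    3 * (∑ i ∈ Finset.range a, (i : ZMod p) * ((i : ZMod p) - 1)) =
      (a : ZMod p) * ((a : ZMod p) - 1) * ((a : ZMod p) - 2) := by
  induction a with
  | zero => simp
  | succ a ih => rw [Finset.sum_range_succ, mul_add, ih]; push_cast; ring

theorem secondLogDeriv_geomUnit (h5 : 5 ≤ p) (b : (ZMod p)ˣ) :
    12 * secondLogDeriv hζ h5 (Additive.ofMul (geomUnit hζ b)) =
      ((b : ZMod p) - 1) * ((b : ZMod p) - 5) := by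
  set a := (b : ZMod p).val with ha
  set u := geomUnit hζ b with hu
  have hu' : (u : 𝓞 K) = ∑ i ∈ Finset.range a, hζ.toInteger ^ i := rfl
  have hinv : TrivSqZeroExt.fst (jetHom hζ (u : 𝓞 K)) *
      TrivSqZeroExt.fst (jetHom hζ ((u⁻¹ : (𝓞 K)ˣ) : 𝓞 K)) = 1 := by
    rw [← TrivSqZeroExt.fst_mul, ← map_mul, Units.mul_inv, map_one, TrivSqZeroExt.fst_one]
  have hkey : logDeriv' hζ (Additive.ofMul u) * TrivSqZeroExt.fst (jetHom hζ (u : 𝓞 K)) =
      TrivSqZeroExt.snd (jetHom hζ (u : 𝓞 K)) := by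
    show TrivSqZeroExt.snd (jetHom hζ (u : 𝓞 K)) * _ * _ = _
    rw [toMul_ofMul, mul_assoc, mul_comm (TrivSqZeroExt.fst (jetHom hζ ((u⁻¹ : (𝓞 K)ˣ) : 𝓞 K))),
      hinv, mul_one]
  have hf : TrivSqZeroExt.fst (jetHom hζ (u : 𝓞 K)) = ∑ i ∈ Finset.range a, (1 + jetX p) ^ i := by
    simp only [hu', map_sum, map_pow, TrivSqZeroExt.fst_sum, jetHom_zeta, fst_jetZeta_pow]
  have hg : TrivSqZeroExt.snd (jetHom hζ (u : 𝓞 K)) =
      ∑ i ∈ Finset.range a, (i : JetRing p) * (1 + jetX p) ^ (i - 1) := by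
    simp only [hu', map_sum, map_pow, TrivSqZeroExt.snd_sum, jetHom_zeta, snd_jetZeta_pow]
  have h := congrArg (jetTrunc p h5) hkey
  rw [hf, hg] at h
  simp only [map_mul, map_sum, map_pow, map_add, map_one, jetTrunc_X, map_natCast] at h
  set d := jetTrunc p h5 (logDeriv' hζ (Additive.ofMul u)) with hd
  have h0 := congrArg TrivSqZeroExt.fst h
  have h1 := congrArg TrivSqZeroExt.snd h
  simp only [TrivSqZeroExt.fst_mul, DualNumber.snd_mul, TrivSqZeroExt.fst_sum,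
    TrivSqZeroExt.snd_sum, TrivSqZeroExt.fst_pow, TrivSqZeroExt.snd_pow, TrivSqZeroExt.fst_add,
    TrivSqZeroExt.snd_add, TrivSqZeroExt.fst_one, TrivSqZeroExt.snd_one, fst_eps, snd_eps,
    TrivSqZeroExt.fst_natCast, TrivSqZeroExt.snd_natCast, add_zero, zero_add, one_pow, mul_one,
    Finset.sum_const, Finset.card_range, nsmul_eq_mul, smul_eq_mul]
    at h0 h1
  have h2 := two_mul_sum_range_cast (p := p) a
  have h3 := three_mul_sum_range_cast (p := p) a
  have hS : ∑ i ∈ Finset.range a, (i : ZMod p) * ((i - 1 : ℕ) : ZMod p) =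
      ∑ i ∈ Finset.range a, (i : ZMod p) * ((i : ZMod p) - 1) := by
    refine Finset.sum_congr rfl fun i _ => ?_
    rcases i with _ | i <;> simp
  rw [hS] at h1
  have hA : (a : ZMod p) = (b : ZMod p) := ZMod.natCast_zmod_val _
  rw [hA] at h0 h1 h2 h3
  rw [secondLogDeriv_apply, ← hd]
  set S1 := ∑ i ∈ Finset.range a, (i : ZMod p)
  set S2 := ∑ i ∈ Finset.range a, (i : ZMod p) * ((i : ZMod p) - 1)
  refine mul_left_cancel₀ (pow_ne_zero 2 b.ne_zero) ?_
  linear_combination (12 * (b : ZMod p)) * h1 - (12 * S1) * h0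
    - 3 * (2 * S1 + (b : ZMod p) * ((b : ZMod p) - 1)) * h2 + (4 * (b : ZMod p)) * h3

theorem secondLogDeriv_epsUnit (h5 : 5 ≤ p) :
    secondLogDeriv hζ h5 (Additive.ofMul (epsUnit hζ)) ≠ 0 := by
  have h12 : 12 * secondLogDeriv hζ h5 (Additive.ofMul (epsUnit hζ)) = -1 := by
    rw [epsUnit, ofMul_prod, map_sum, Finset.mul_sum]
    have : ∀ b : (ZMod p)ˣ,
        12 * secondLogDeriv hζ h5 (Additive.ofMul (geomUnit hζ b ^ epsExp b)) =
        1 - 6 * ((b⁻¹ : (ZMod p)ˣ) : ZMod p) + 5 * ((b⁻¹ ^ 2 : (ZMod p)ˣ) : ZMod p) := by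
      intro b
      rw [ofMul_pow, map_nsmul, nsmul_eq_mul, mul_left_comm, secondLogDeriv_geomUnit hζ h5,
        epsExp, ZMod.natCast_zmod_val]
      have hb : ((b⁻¹ : (ZMod p)ˣ) : ZMod p) * (b : ZMod p) = 1 := Units.inv_mul b
      rw [Units.val_pow_eq_pow_val]
      linear_combination (((b⁻¹ : (ZMod p)ˣ) : ZMod p) * (b : ZMod p) + 1
        - 6 * ((b⁻¹ : (ZMod p)ˣ) : ZMod p)) * hb
    rw [Finset.sum_congr rfl fun b _ => this b, Finset.sum_add_distrib, Finset.sum_sub_distrib,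
      ← Finset.mul_sum, ← Finset.mul_sum, sum_units_inv h5, sum_units_inv_sq h5, Finset.sum_const,
      Finset.card_univ, ZMod.card_units, nsmul_one, Nat.cast_sub hp.out.one_le, ZMod.natCast_self]
    simp
  intro h
  rw [h, mul_zero] at h12
  exact one_ne_zero (neg_eq_zero.1 h12.symm)

end LogDeriv

end FLTAgent.ExtVanishing
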