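import Mathlib.LinearAlgebra.FreeModule.ModN
import Mathlib.LinearAlgebra.Charpoly.Basic
import Mathlib.LinearAlgebra.Charpoly.ToMatrix
import Mathlib.LinearAlgebra.Eigenspace.Zero
import Mathlib.LinearAlgebra.Matrix.Charpoly.Coeff
import Mathlib.FieldTheory.Separable
import Mathlib.RingTheory.Polynomial.Cyclotomic.Basic
import Mathlib.Algebra.Field.ZMod

/-!
# Eigenspaces mod `p` of a lattice with a cyclic endomorphism killed by `1 + X + ⋯ + X^(n-1)`

If `p ∤ n`, two eigenvectors mod `p` for the same eigenvalue are proportional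
(`exists_eq_smul_of_eigen`). Used for the units of the cyclotomic field in `UnitRank`.
-/

set_option autoImplicit false

open Polynomial Module

namespace FLTAgent.ExtVanishing

theorem charpoly_eq_geom_sum {M : Type*} [AddCommGroup M] [Module.Free ℤ M] [Module.Finite ℤ M]
    {r : ℕ} (hr : finrank ℤ M = r) (τ : Module.End ℤ M) (w : M)
    (hind : ∀ c : Fin r → ℤ, ∑ i, c i • (τ ^ (i : ℕ)) w = 0 → c = 0)
    (hkill : ∑ i ∈ Finset.range (r + 1), (τ ^ i) w = 0) :
    τ.charpoly = ∑ i ∈ Finset.range (r + 1), X ^ i := by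
  set P : ℤ[X] := ∑ i ∈ Finset.range (r + 1), X ^ i with hP
  have hPdeg : P.natDegree = r ∧ P.Monic := by
    refine ⟨?_, monic_geom_sum_X (Nat.succ_ne_zero r)⟩
    refine natDegree_eq_of_le_of_coeff_ne_zero
      (natDegree_sum_le_of_forall_le _ _ fun i hi => ?_) ?_
    · have := Finset.mem_range.1 hi
      simp only [natDegree_X_pow]
      omega
    · simp [hP, finsetSum_coeff, coeff_X_pow]
  have hC := τ.charpoly_monic
  have hCdeg : τ.charpoly.natDegree = r := by rw [τ.charpoly_natDegree, hr]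
  rw [← sub_eq_zero]
  by_contra hne
  have hlt : (τ.charpoly - P).natDegree < r := by
    rw [← not_le]
    intro hle
    have hzero : (τ.charpoly - P).coeff (τ.charpoly - P).natDegree = 0 := by
      have hdle : (τ.charpoly - P).natDegree ≤ r :=
        (natDegree_sub_le _ _).trans (by rw [hCdeg, hPdeg.1, max_self])
      rw [le_antisymm hdle hle, coeff_sub]
      conv_lhs => arg 1; rw [← hCdeg]
      conv_lhs => arg 2; rw [← hPdeg.1]
      rw [hC.coeff_natDegree, hPdeg.2.coeff_natDegree, sub_self]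
    exact hne (leadingCoeff_eq_zero.1 hzero)
  set D := τ.charpoly - P with hD
  have hev : aeval τ D w = 0 := by
    rw [hD, map_sub, LinearMap.sub_apply, LinearMap.aeval_self_charpoly, LinearMap.zero_apply,
      zero_sub, neg_eq_zero, hP, map_sum, LinearMap.sum_apply]
    simpa using hkill
  have hco := hind (fun i => D.coeff i) (by
    rw [aeval_eq_sum_range' hlt, LinearMap.sum_apply] at hev
    simp only [LinearMap.smul_apply] at hev
    rw [← Fin.sum_univ_eq_sum_range (fun i => D.coeff i • (τ ^ i) w)] at hev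
    exact hev)
  refine hne (Polynomial.ext fun i => ?_)
  rw [coeff_zero]
  by_cases hi : i < r
  · exact congrFun hco ⟨i, hi⟩
  · exact coeff_eq_zero_of_natDegree_lt (by omega)

/-- Two eigenvectors mod `p` for the same eigenvalue are proportional. -/
theorem exists_eq_smul_of_eigen {M : Type*} [AddCommGroup M] [Module.Free ℤ M] [Module.Finite ℤ M]
    {p : ℕ} [hp : Fact p.Prime] {r : ℕ} (hr : finrank ℤ M = r) (hpr : ¬ p ∣ r + 1)
    (τ : Module.End ℤ M) (w : M)
    (hind : ∀ c : Fin r → ℤ, ∑ i, c i • (τ ^ (i : ℕ)) w = 0 → c = 0)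
    (hkill : ∑ i ∈ Finset.range (r + 1), (τ ^ i) w = 0) (t : ZMod p)
    {x y : M} (hx : ModN.mkQ p (τ x) = t • ModN.mkQ p x)
    (hy : ModN.mkQ p (τ y) = t • ModN.mkQ p y) (hy0 : ModN.mkQ p y ≠ 0) :
    ∃ k : ZMod p, ModN.mkQ p x = k • ModN.mkQ p y := by
  classical
  set b := Module.Free.chooseBasis ℤ M with hb
  set bb : Basis _ (ZMod p) (ModN M p) := ModN.basis b with hbb
  have hrepr : ∀ m i, bb.repr (ModN.mkQ p m) i = (b.repr m i : ZMod p) := by
    intro m i
    conv_lhs => rw [← b.sum_repr m]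
    rw [map_sum, map_sum, Finset.sum_congr rfl (g := fun j =>
      (b.repr m j : ZMod p) • Finsupp.single j (1 : ZMod p))]
    · simp [Finsupp.single_apply]
    · intro j _
      rw [map_zsmul, ← ModN.basis_apply_eq_mkQ, ← hbb, ← Int.cast_smul_eq_zsmul (ZMod p), map_smul,
        Basis.repr_self]
  set T : Module.End (ZMod p) (ModN M p) := bb.constr (ZMod p) fun i => ModN.mkQ p (τ (b i)) with hT
  have hTm : ∀ m, T (ModN.mkQ p m) = ModN.mkQ p (τ m) := by
    intro m
    conv_lhs => rw [← b.sum_repr m]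
    conv_rhs => rw [← b.sum_repr m]
    simp only [map_sum, map_zsmul]
    refine Finset.sum_congr rfl fun j _ => ?_
    rw [← ModN.basis_apply_eq_mkQ, ← hbb, hT, Basis.constr_basis]
  have hmat : LinearMap.toMatrix bb bb T =
      (LinearMap.toMatrix b b τ).map (Int.castRingHom (ZMod p)) := by
    ext i j
    rw [LinearMap.toMatrix_apply, Matrix.map_apply, LinearMap.toMatrix_apply, hbb,
      ModN.basis_apply_eq_mkQ, hTm, ← hbb, hrepr]
    rfl
  have hcp : T.charpoly = ∑ i ∈ Finset.range (r + 1), X ^ i := by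
    rw [← LinearMap.charpoly_toMatrix T bb, hmat, Matrix.charpoly_map,
      LinearMap.charpoly_toMatrix τ b, charpoly_eq_geom_sum hr τ w hind hkill]
    simp [Polynomial.map_sum]
  have hsep : T.charpoly.Separable := by
    have h1 : ((X : (ZMod p)[X]) ^ (r + 1) - 1).Separable :=
      Polynomial.X_pow_sub_one_separable_iff.2
        (by rwa [Ne, ZMod.natCast_eq_zero_iff])
    rw [hcp]
    exact h1.of_dvd ⟨X - 1, (geom_sum_mul _ _).symm⟩
  have hdim : finrank (ZMod p) (T.eigenspace t) ≤ 1 :=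
    (LinearMap.finrank_eigenspace_le T t).trans
      (Polynomial.rootMultiplicity_le_one_of_separable hsep t)
  have hxm : ModN.mkQ p x ∈ T.eigenspace t := Module.End.mem_eigenspace_iff.2 (by rw [hTm, hx])
  have hym : ModN.mkQ p y ∈ T.eigenspace t := Module.End.mem_eigenspace_iff.2 (by rw [hTm, hy])
  obtain ⟨k, hk⟩ : ∃ k : ZMod p, k • (⟨_, hym⟩ : T.eigenspace t) = ⟨_, hxm⟩ := by
    refine exists_smul_eq_of_finrank_eq_one (le_antisymm hdim ?_) (fun h => hy0 ?_) _
    · have hsub : (⟨_, hym⟩ : T.eigenspace t) ≠ 0 := fun h => hy0 (congrArg Subtype.val h)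
      exact finrank_pos_iff_exists_ne_zero.2 ⟨_, hsub⟩
    · exact congrArg Subtype.val h
  exact ⟨k, (congrArg Subtype.val hk).symm⟩

end FLTAgent.ExtVanishing
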