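import Fermat.Agent.ExtVanishing.CyclotomicUnit
import Fermat.Agent.ExtVanishing.LatticeEigen
import Mathlib.NumberTheory.NumberField.Units.DirichletTheorem
import Mathlib.NumberTheory.NumberField.Cyclotomic.Embeddings
import Mathlib.NumberTheory.Cyclotomic.Gal

/-!
# The `ω²`-part of the units of `ℚ(ζ_p)` modulo `p`-th powers is at most one dimensional

A Minkowski unit shows that the units modulo torsion are rationally cyclic over the Galois group
with annihilator `1 + X + ⋯ + X^(n-1)`, `n = (p-1)/2`, which is separable mod `p`.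
-/

set_option autoImplicit false
set_option maxSynthPendingDepth 3

open NumberField InfinitePlace Module

namespace FLTAgent.ExtVanishing

variable {p : ℕ} [hp : Fact p.Prime] {K : Type*} [Field K] [NumberField K]
  [hK : IsCyclotomicExtension {p} ℚ K] {ζ : K} (hζ : IsPrimitiveRoot ζ p)

omit hp hK in
/-- Automorphisms preserve torsion units. -/
theorem unitsAut_mem_torsion {σ : K ≃ₐ[ℚ] K} {u : (𝓞 K)ˣ} (hu : u ∈ Units.torsion K) :
    unitsAut σ u ∈ Units.torsion K := by
  rw [Units.torsion, CommGroup.mem_torsion] at hu ⊢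
  exact (unitsAut σ).isOfFinOrder hu

/-- The action on units modulo torsion. -/
noncomputable def latticeAut (σ : K ≃ₐ[ℚ] K) :
    Module.End ℤ (Additive ((𝓞 K)ˣ ⧸ Units.torsion K)) :=
  (MonoidHom.toAdditive (QuotientGroup.map (Units.torsion K) (Units.torsion K) (unitsAut σ)
    fun _ hu => unitsAut_mem_torsion hu)).toIntLinearMap

/-- The projection to units modulo torsion. -/
noncomputable def toLattice : Additive (𝓞 K)ˣ →+ Additive ((𝓞 K)ˣ ⧸ Units.torsion K) :=
  MonoidHom.toAdditive (QuotientGroup.mk' (Units.torsion K))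

omit hp hK in
/-- The lattice action is induced by the action on units. -/
theorem latticeAut_toLattice (σ : K ≃ₐ[ℚ] K) (u : (𝓞 K)ˣ) :
    latticeAut σ (toLattice (Additive.ofMul u)) = toLattice (Additive.ofMul (unitsAut σ u)) := rfl

omit hp hK in
/-- Powers of the lattice action are induced by powers of the automorphism. -/
theorem latticeAut_pow_toLattice (σ : K ≃ₐ[ℚ] K) (i : ℕ) (u : (𝓞 K)ˣ) :
    (latticeAut σ ^ i) (toLattice (Additive.ofMul u)) =
      toLattice (Additive.ofMul (unitsAut (σ ^ i) u)) := by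
  induction i with
  | zero => rfl
  | succ i ih =>
    rw [pow_succ', Module.End.mul_apply, ih, latticeAut_toLattice, pow_succ']
    rfl

/-- The logarithm of a place on units. -/
noncomputable def logPlace (w : InfinitePlace K) : Additive (𝓞 K)ˣ →+ ℝ where
  toFun u := Real.log (w ((u.toMul : 𝓞 K) : K))
  map_zero' := by simp
  map_add' u v := by
    simp only [toMul_add, Units.val_mul, map_mul]
    exact Real.log_mul (Units.pos_at_place u.toMul w).ne' (Units.pos_at_place v.toMul w).ne'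

omit hp hK in
/-- A unit is torsion iff all its logarithms vanish. -/
theorem toLattice_eq_zero_iff (u : Additive (𝓞 K)ˣ) :
    toLattice u = 0 ↔ ∀ w : InfinitePlace K, logPlace w u = 0 := by
  have h1 : toLattice u = 0 ↔ u.toMul ∈ Units.torsion K := QuotientGroup.eq_one_iff u.toMul
  rw [h1, Units.mem_torsion]
  refine forall_congr' fun w => ?_
  show _ ↔ Real.log _ = 0
  constructor
  · intro h
    rw [h, Real.log_one]
  · intro h
    exact Real.eq_one_of_pos_of_log_eq_zero (Units.pos_at_place u.toMul w) h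

include hζ hK in
/-- Complex embeddings are determined by the image of `ζ`. -/
theorem ringHom_ext_zeta {f g : K →+* ℂ} (h : f ζ = g ζ) : f = g := by
  have h1 := (hζ.powerBasis ℚ).algHom_ext (f := f.toRatAlgHom) (g := g.toRatAlgHom)
    (by rw [IsPrimitiveRoot.powerBasis_gen]; exact h)
  exact RingHom.ext fun x => DFunLike.congr_fun h1 x

include hζ hK in
/-- Every element of `(ℤ/p)ˣ` is the exponent of an automorphism on `ζ`. -/
theorem exists_aut_eq_pow (b : (ZMod p)ˣ) :
    ∃ σ : K ≃ₐ[ℚ] K, σ ζ = ζ ^ (b : ZMod p).val := by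
  have : IsGalois ℚ K := IsCyclotomicExtension.isGalois {p} ℚ K
  have hsurj : Function.Surjective (hζ.autToPow ℚ) := by
    refine ((Nat.bijective_iff_injective_and_card _).2 ⟨hζ.autToPow_injective (K := ℚ), ?_⟩).2
    rw [IsGalois.card_aut_eq_finrank, IsCyclotomicExtension.finrank (n := p) K
      (Polynomial.cyclotomic.irreducible_rat hp.out.pos), Nat.card_eq_fintype_card,
      ZMod.card_units, Nat.totient_prime hp.out]
  obtain ⟨σ, rfl⟩ := hsurj b
  exact ⟨σ, (hζ.autToPow_spec ℚ σ).symm⟩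

omit hK in
/-- Powers of an automorphism on `ζ`. -/
theorem pow_apply_zeta {σ : K ≃ₐ[ℚ] K} {c : (ZMod p)ˣ} (hσ : σ ζ = ζ ^ (c : ZMod p).val)
    (hζ' : ζ ^ p = 1) (i : ℕ) : (σ ^ i) ζ = ζ ^ ((c ^ i : (ZMod p)ˣ) : ZMod p).val := by
  induction i with
  | zero => simp [ZMod.val_one]
  | succ i ih =>
    rw [pow_succ', AlgEquiv.mul_apply, ih, map_pow, hσ, ← pow_mul, pow_eq_pow_mod _ hζ',
      pow_succ, Units.val_mul, ZMod.val_mul, mul_comm]

/-- Powers of a primitive `p`-th root depend only on the exponent modulo `p`. -/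
theorem pow_eq_pow_iff_natCast {M : Type*} [CommMonoid M] {z : M}
    (hz : IsPrimitiveRoot z p) (a b : ℕ) : z ^ a = z ^ b ↔ (a : ZMod p) = (b : ZMod p) := by
  have : NeZero p := ⟨hp.out.ne_zero⟩
  rw [ZMod.natCast_eq_natCast_iff]
  constructor
  · intro h
    rw [pow_eq_pow_mod a hz.pow_eq_one, pow_eq_pow_mod b hz.pow_eq_one] at h
    exact hz.pow_inj (Nat.mod_lt _ (NeZero.pos p)) (Nat.mod_lt _ (NeZero.pos p)) h
  · intro h
    rw [pow_eq_pow_mod a hz.pow_eq_one, pow_eq_pow_mod b hz.pow_eq_one, h]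

/-- An element of order `2 q` has `q`-th power `-1` in `ZMod p`. -/
theorem val_pow_half_eq_neg_one {c : (ZMod p)ˣ} {q : ℕ} (hq0 : 0 < q) (hc : orderOf c = 2 * q) :
    ((c ^ q : (ZMod p)ˣ) : ZMod p) = -1 := by
  have h1 : ((c ^ q : (ZMod p)ˣ) : ZMod p) ^ 2 = 1 := by
    rw [← Units.val_pow_eq_pow_val, ← pow_mul, mul_comm, ← hc, pow_orderOf_eq_one, Units.val_one]
  rcases sq_eq_one_iff.1 h1 with h | h
  · exfalso
    have : c ^ q = 1 := Units.ext h
    have := Nat.le_of_dvd hq0 (orderOf_dvd_of_pow_eq_one this)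
    omega
  · exact h

omit hp in
/-- Congruence modulo `q` in terms of congruence modulo `2 q`. -/
theorem modEq_two_mul_or_iff {q : ℕ} (hq0 : 0 < q) (i j : ℕ) :
    (i ≡ j [MOD 2 * q] ∨ i + q ≡ j [MOD 2 * q]) ↔ i ≡ j [MOD q] := by
  simp only [Nat.ModEq]
  have h1 := Nat.mod_mod_of_dvd i (dvd_mul_left q 2)
  have h2 := Nat.mod_mod_of_dvd j (dvd_mul_left q 2)
  have h3 : (i + q) % (2 * q) % q = (i + q) % q := Nat.mod_mod_of_dvd _ (dvd_mul_left q 2)
  have h4 : (i + q) % q = i % q := Nat.add_mod_right i q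
  constructor
  · rintro (h | h)
    · rw [← h1, ← h2, h]
    · rw [← h4, ← h3, h, h2]
  · intro h
    have hmod : ∀ i, i % (2 * q) = i % q ∨ i % (2 * q) = i % q + q := fun i => by
      have := Nat.mod_mul (a := q) (b := 2) (x := i)
      rw [mul_comm q 2] at this
      rcases Nat.mod_two_eq_zero_or_one (i / q) with e | e <;> rw [e] at this <;>
        simp at this <;> omega
    have hiq : (i + q) % (2 * q) = (i % (2 * q) + q) % (2 * q) := (Nat.mod_add_mod _ _ _).symm
    have hlt : i % q < q := Nat.mod_lt _ hq0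
    rcases hmod i with hi | hi <;> rcases hmod j with hj | hj
    · left; omega
    · right; rw [hiq, hi, Nat.mod_eq_of_lt (by omega)]; omega
    · right; rw [hiq, hi, show i % q + q + q = i % q + 2 * q by omega, Nat.add_mod_right,
        Nat.mod_eq_of_lt (by omega)]; omega
    · left; omega

include hK hζ in
/-- The places `x ↦ ‖φ (σ ^ i x)‖` for an automorphism `σ` acting on `ζ` by a generator repeat
exactly modulo `q = (p - 1) / 2`. -/
theorem place_mk_eq_iff_modEq {σ : K ≃ₐ[ℚ] K} {c : (ZMod p)ˣ} (hσ : σ ζ = ζ ^ (c : ZMod p).val)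
    {q : ℕ} (hq0 : 0 < q) (hc : orderOf c = 2 * q) (φ : K →+* ℂ) (i j : ℕ) :
    InfinitePlace.mk (φ.comp ((σ ^ i : K ≃ₐ[ℚ] K) : K →+* K)) =
      InfinitePlace.mk (φ.comp ((σ ^ j : K ≃ₐ[ℚ] K) : K →+* K)) ↔ i ≡ j [MOD q] := by
  have : NeZero p := ⟨hp.out.ne_zero⟩
  have hprim : IsPrimitiveRoot (φ ζ) p := hζ.map_of_injective φ.injective
  have hconj : ∀ i, ComplexEmbedding.conjugate (φ.comp ((σ ^ i : K ≃ₐ[ℚ] K) : K →+* K)) ζ =
      φ ((σ ^ i) ζ) ^ (p - 1) := by
    intro i
    rw [ComplexEmbedding.conjugate_coe_eq]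
    show (starRingEnd ℂ) (φ ((σ ^ i) ζ)) = _
    have h1 : φ ((σ ^ i) ζ) ^ p = 1 := by
      rw [← map_pow, ← map_pow, hζ.pow_eq_one, map_one, map_one]
    have h2 : ‖φ ((σ ^ i) ζ)‖ = 1 := Complex.norm_eq_one_of_pow_eq_one h1 hp.out.ne_zero
    rw [← Complex.inv_eq_conj h2]
    refine inv_eq_of_mul_eq_one_right ?_
    rw [← pow_succ', Nat.sub_add_cancel hp.out.one_le, h1]
  have hcpow : ∀ a b, c ^ a = c ^ b ↔ a ≡ b [MOD 2 * q] := fun a b => by
    rw [pow_eq_pow_iff_modEq, hc]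
  rw [InfinitePlace.mk_eq_iff, ← modEq_two_mul_or_iff hq0, ← hcpow, ← hcpow]
  refine or_congr ?_ ?_
  · constructor
    · intro h
      have := RingHom.congr_fun h ζ
      simp only [RingHom.comp_apply] at this
      rw [show ((σ ^ i : K ≃ₐ[ℚ] K) : K →+* K) ζ = (σ ^ i) ζ from rfl,
        show ((σ ^ j : K ≃ₐ[ℚ] K) : K →+* K) ζ = (σ ^ j) ζ from rfl,
        pow_apply_zeta hσ hζ.pow_eq_one, pow_apply_zeta hσ hζ.pow_eq_one, map_pow, map_pow,
        pow_eq_pow_iff_natCast hprim, ZMod.natCast_zmod_val, ZMod.natCast_zmod_val] at this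
      exact Units.ext this
    · intro h
      refine ringHom_ext_zeta hζ ?_
      show φ ((σ ^ i) ζ) = φ ((σ ^ j) ζ)
      rw [pow_apply_zeta hσ hζ.pow_eq_one, pow_apply_zeta hσ hζ.pow_eq_one, h]
  · have key : φ ((σ ^ i) ζ) ^ (p - 1) = φ ((σ ^ j) ζ) ↔ c ^ (i + q) = c ^ j := by
      rw [pow_apply_zeta hσ hζ.pow_eq_one, pow_apply_zeta hσ hζ.pow_eq_one, map_pow, map_pow,
        ← pow_mul, pow_eq_pow_iff_natCast hprim, Nat.cast_mul, ZMod.natCast_zmod_val,
        ZMod.natCast_zmod_val, Nat.cast_sub hp.out.one_le, ZMod.natCast_self, Nat.cast_one,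
        zero_sub]
      constructor
      · intro h
        ext
        rw [pow_add, Units.val_mul, val_pow_half_eq_neg_one hq0 hc, h]
      · intro h
        rw [← h, pow_add, Units.val_mul, val_pow_half_eq_neg_one hq0 hc]
    constructor
    · intro h
      have := RingHom.congr_fun h ζ
      rw [hconj] at this
      exact key.1 this
    · intro h
      refine ringHom_ext_zeta hζ ?_
      rw [hconj]
      exact key.2 h

include hK hζ in
/-- The infinite places along the powers of `σ`: any `q` consecutive ones are all of them. -/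
theorem exists_places {σ : K ≃ₐ[ℚ] K} {c : (ZMod p)ˣ} (hσ : σ ζ = ζ ^ (c : ZMod p).val) {q : ℕ}
    (hq0 : 0 < q) (hc : orderOf c = 2 * q) (hcard : Fintype.card (InfinitePlace K) = q) :
    ∃ v : ℕ → InfinitePlace K, (∀ i x, v i x = v 0 ((σ ^ i) x)) ∧
      (∀ i j, v i = v j ↔ i ≡ j [MOD q]) ∧
      ∀ j, Function.Bijective (fun i : Fin q => v ((i : ℕ) + j)) := by
  obtain ⟨φ⟩ : Nonempty (K →+* ℂ) := inferInstance
  set v : ℕ → InfinitePlace K := fun i => InfinitePlace.mk (φ.comp ((σ ^ i : K ≃ₐ[ℚ] K) : K →+* K))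
    with hv
  have hvmod : ∀ i j, v i = v j ↔ i ≡ j [MOD q] := place_mk_eq_iff_modEq hζ hσ hq0 hc φ
  refine ⟨v, fun i x => ?_, hvmod, fun j => ?_⟩
  · simp only [hv, InfinitePlace.apply, RingHom.comp_apply, pow_zero]
    rfl
  · rw [Fintype.bijective_iff_injective_and_card, Fintype.card_fin, hcard]
    refine ⟨fun a b h => ?_, rfl⟩
    have h' := Nat.ModEq.add_right_cancel' j ((hvmod _ _).1 h)
    exact Fin.ext (by rw [Nat.ModEq, Nat.mod_eq_of_lt a.isLt, Nat.mod_eq_of_lt b.isLt] at h'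
                      exact h')

include hK in
/-- The logarithms of a unit at the infinite places sum to zero. -/
theorem sum_logPlace_eq_zero (h3 : 2 < p) (u : (𝓞 K)ˣ) :
    ∑ w : InfinitePlace K, logPlace w (Additive.ofMul u) = 0 := by
  classical
  have h1 := Units.sum_mult_mul_log u
  have h2 : ∀ w : InfinitePlace K, (w.mult : ℝ) = 2 := by
    intro w
    have : ¬ w.IsReal := fun h => by
      have h0 := IsCyclotomicExtension.Rat.nrRealPlaces_eq_zero (n := p) K h3
      exact Fintype.card_eq_zero_iff.1 h0 |>.false ⟨w, h⟩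
    simp [InfinitePlace.mult, this]
  simp_rw [h2, ← Finset.mul_sum] at h1
  rw [mul_eq_zero] at h1
  exact h1.resolve_left two_ne_zero

omit hp in
/-- A circulant with zero row sums and negative entries off the diagonal kills only constants. -/
theorem eq_of_circulant_sum_eq_zero {r : ℕ} (g : ℕ → ℝ)
    (hsum0 : ∀ j, ∑ i : Fin (r + 1), g ((i : ℕ) + j) = 0)
    (hneg : ∀ i, ¬ i ≡ 0 [MOD r + 1] → g i < 0) (C : Fin (r + 1) → ℝ)
    (hrel : ∀ j, ∑ i : Fin (r + 1), C i * g ((i : ℕ) + j) = 0) (i k : Fin (r + 1)) : C i = C k := by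
  obtain ⟨m, -, hm⟩ := Finset.exists_max_image Finset.univ C Finset.univ_nonempty
  have h0 : ∑ i : Fin (r + 1), (C m - C i) * g ((i : ℕ) + (r + 1 - (m : ℕ))) = 0 := by
    simp only [sub_mul, Finset.sum_sub_distrib, ← Finset.mul_sum, hsum0, hrel, mul_zero, sub_zero]
  have hterm : ∀ i : Fin (r + 1), i ≠ m → g ((i : ℕ) + (r + 1 - (m : ℕ))) < 0 := by
    intro i hi
    refine hneg _ fun h => hi ?_
    have h' : (i : ℕ) + (r + 1 - (m : ℕ)) + m ≡ 0 + m [MOD r + 1] := h.add_right _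
    rw [show (i : ℕ) + (r + 1 - (m : ℕ)) + m = i + (r + 1) by omega, zero_add, Nat.ModEq,
      Nat.add_mod_right, Nat.mod_eq_of_lt i.isLt, Nat.mod_eq_of_lt m.isLt] at h'
    exact Fin.ext h'
  suffices hall : ∀ i, C i = C m from (hall i).trans (hall k).symm
  intro i
  by_contra hne
  have hle : ∀ j ∈ Finset.univ, (C m - C j) * g ((j : ℕ) + (r + 1 - (m : ℕ))) ≤ 0 := by
    intro j hj
    rcases eq_or_ne j m with rfl | hjm
    · simp
    · exact mul_nonpos_of_nonneg_of_nonpos (sub_nonneg.2 (hm j hj)) (hterm j hjm).le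
  have := (Finset.sum_eq_zero_iff_of_nonpos hle).1 h0 i (Finset.mem_univ _)
  rcases mul_eq_zero.1 this with h | h
  · exact hne (sub_eq_zero.1 h).symm
  · exact (hterm i (fun e => hne (e ▸ rfl))).ne h

include hK hζ in
/-- A Minkowski unit: its first `r` conjugates are independent modulo torsion and the first `r + 1`
sum to zero. -/
theorem exists_minkowski_unit {σ : K ≃ₐ[ℚ] K} {c : (ZMod p)ˣ} (hσ : σ ζ = ζ ^ (c : ZMod p).val)
    {r : ℕ} (hc : orderOf c = 2 * (r + 1)) (h3 : 2 < p)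
    (hcard : Fintype.card (InfinitePlace K) = r + 1) :
    ∃ u₀ : (𝓞 K)ˣ, (∀ d : Fin r → ℤ,
        ∑ i, d i • (latticeAut σ ^ (i : ℕ)) (toLattice (Additive.ofMul u₀)) = 0 → d = 0) ∧
      ∑ i ∈ Finset.range (r + 1), (latticeAut σ ^ i) (toLattice (Additive.ofMul u₀)) = 0 := by
  classical
  obtain ⟨v, hvapp, hvmod, hshift⟩ := exists_places hζ hσ (Nat.succ_pos r) hc hcard
  obtain ⟨u₀, hu₀⟩ := Units.dirichletUnitTheorem.exists_unit K (v 0)
  set g : ℕ → ℝ := fun i => logPlace (v i) (Additive.ofMul u₀) with hg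
  have hsum0 : ∀ j, ∑ i : Fin (r + 1), g ((i : ℕ) + j) = 0 := fun j => by
    rw [← sum_logPlace_eq_zero h3 u₀, ← (hshift j).sum_comp]
  have hlogσ : ∀ i j, logPlace (v j) (Additive.ofMul (unitsAut (σ ^ i) u₀)) = g (i + j) := by
    intro i j
    show Real.log (v j _) = Real.log (v (i + j) _)
    rw [hvapp j, hvapp (i + j), add_comm i j, pow_add]
    rfl
  have hneg : ∀ i, ¬ i ≡ 0 [MOD r + 1] → g i < 0 := fun i hi =>
    hu₀ _ fun h => hi ((hvmod _ _).1 h)
  refine ⟨u₀, fun d hd => ?_, ?_⟩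
  · simp only [latticeAut_pow_toLattice, ← map_zsmul, ← map_sum] at hd
    rw [toLattice_eq_zero_iff] at hd
    set C : Fin (r + 1) → ℝ := Fin.snoc (fun i => (d i : ℝ)) 0 with hC
    have hrel : ∀ j, ∑ i : Fin (r + 1), C i * g ((i : ℕ) + j) = 0 := by
      intro j
      rw [Fin.sum_univ_castSucc]
      have := hd (v j)
      simp only [map_sum, map_zsmul, hlogσ] at this
      simpa [hC, zsmul_eq_mul] using this
    funext i
    have h1 := eq_of_circulant_sum_eq_zero g hsum0 hneg C hrel i.castSucc (Fin.last r)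
    rw [hC, Fin.snoc_castSucc, Fin.snoc_last] at h1
    exact_mod_cast h1
  · simp only [latticeAut_pow_toLattice, ← map_sum]
    rw [toLattice_eq_zero_iff]
    intro w
    obtain ⟨j, rfl⟩ : ∃ j, v j = w := ⟨_, ((hshift 0).surjective w).choose_spec⟩
    simp only [map_sum, hlogσ]
    rw [← Fin.sum_univ_eq_sum_range (fun i => g (i + j))]
    exact hsum0 j

include hK hζ in
/-- Modulo `p`-th powers a torsion unit is a power of `ζ`. -/
theorem exists_unitClass_eq_of_mem_torsion (hodd : Odd p) (hζu : IsUnit hζ.toInteger)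
    (u : (𝓞 K)ˣ) (hu : u ∈ Units.torsion K) : ∃ i : ℕ,
      unitClass p K (Additive.ofMul u) =
        (i : ZMod p) • unitClass p K (Additive.ofMul hζu.unit) := by
  have hz : algebraMap (𝓞 K) K hζ.toInteger = ζ := rfl
  rw [Units.torsion, CommGroup.mem_torsion] at hu
  obtain ⟨i, -, hi⟩ := hζ.exists_pow_or_neg_mul_pow_of_isOfFinOrder hodd
    (x := ((u : 𝓞 K) : K)) (by
      simpa using (((algebraMap (𝓞 K) K).toMonoidHom.comp (Units.coeHom _)).isOfFinOrder hu))
  refine ⟨i, ?_⟩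
  have hneg : unitClass p K (Additive.ofMul (-1 : (𝓞 K)ˣ)) = 0 :=
    (unitClass_eq_zero_iff p K _).2 ⟨-1, by rw [hodd.neg_one_pow]⟩
  rw [Nat.cast_smul_eq_nsmul, ← map_nsmul, ← ofMul_pow]
  rcases hi with hi | hi
  · congr 2
    ext
    simpa [hz] using hi
  · have hu' : u = -1 * hζu.unit ^ i := by
      ext
      simpa [hz] using hi
    rw [hu', ofMul_mul, map_add, hneg, zero_add]

include hK hζ in
/-- `ζ` is not a `p`-th power of a unit. -/
theorem unitClass_zeta_ne_zero (hodd : Odd p) (hζu : IsUnit hζ.toInteger) :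
    unitClass p K (Additive.ofMul hζu.unit) ≠ 0 := by
  have : NeZero p := ⟨hp.out.ne_zero⟩
  rw [Ne, unitClass_eq_zero_iff]
  rintro ⟨z, hz⟩
  have hz' : (z : 𝓞 K) ^ p = hζ.toInteger := by
    rw [← Units.val_pow_eq_pow_val, ← hz]; rfl
  have hfin : IsOfFinOrder z := isOfFinOrder_iff_pow_eq_one.2
    ⟨p * p, Nat.mul_pos hp.out.pos hp.out.pos, Units.ext (by
    rw [Units.val_pow_eq_pow_val, pow_mul, hz', Units.val_one,
      hζ.toInteger_isPrimitiveRoot.pow_eq_one])⟩
  obtain ⟨i, -, hi⟩ := hζ.exists_pow_or_neg_mul_pow_of_isOfFinOrder hodd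
    (x := ((z : 𝓞 K) : K)) (by
      simpa using (((algebraMap (𝓞 K) K).toMonoidHom.comp (Units.coeHom _)).isOfFinOrder hfin))
  have hzK : ((z : 𝓞 K) : K) ^ p = ζ := by
    rw [← map_pow, hz']; rfl
  have h1 : (ζ ^ i) ^ p = 1 := by rw [← pow_mul, mul_comm, pow_mul, hζ.pow_eq_one, one_pow]
  rcases hi with hi | hi <;> rw [hi] at hzK
  · exact hζ.ne_one hp.out.one_lt (hzK.symm.trans h1)
  · rw [hodd.neg_pow, h1] at hzK
    have := hζ.pow_eq_one
    rw [← hzK, hodd.neg_one_pow] at this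
    norm_num at this

include hK hζ in
/-- An eigenclass of eigenvalue `c ^ 2`, `c ≠ 1`, that vanishes in the lattice mod `p` vanishes:
torsion only carries the eigenvalue `c`. -/
theorem unitClass_eq_zero_of_eigen_of_lattice (hodd : Odd p) {σ : K ≃ₐ[ℚ] K} {c : (ZMod p)ˣ}
    (hσ : σ ζ = ζ ^ (c : ZMod p).val) (hc1 : c ≠ 1) (u : (𝓞 K)ˣ)
    (heig : unitClass p K (Additive.ofMul (unitsAut σ u)) =
      ((c ^ 2 : (ZMod p)ˣ) : ZMod p) • unitClass p K (Additive.ofMul u))
    (h : ModN.mkQ p (toLattice (Additive.ofMul u)) = 0) :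
    unitClass p K (Additive.ofMul u) = 0 := by
  have : NeZero p := ⟨hp.out.ne_zero⟩
  have hζu : IsUnit hζ.toInteger := hζ.toInteger_isPrimitiveRoot.isUnit hp.out.ne_zero
  have hzero : ∀ w : (𝓞 K)ˣ, unitClass p K (Additive.ofMul (w ^ p)) = 0 := fun w =>
    (unitClass_eq_zero_iff p K _).2 ⟨w, rfl⟩
  obtain ⟨z, hz⟩ := (Submodule.Quotient.mk_eq_zero _).1 h
  induction z using Additive.rec with | ofMul z => ?_
  induction z using QuotientGroup.induction_on with | _ z => ?_
  have hz' : toLattice (Additive.ofMul (u / z ^ p)) = 0 := by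
    rw [ofMul_div, map_sub, ofMul_pow, map_nsmul, sub_eq_zero, ← hz, LinearMap.lsmul_apply,
      natCast_zsmul]
    rfl
  rw [toLattice, MonoidHom.toAdditive] at hz'
  have hmem : u / z ^ p ∈ Units.torsion K := (QuotientGroup.eq_one_iff _).1 hz'
  obtain ⟨i, hi⟩ := exists_unitClass_eq_of_mem_torsion hζ hodd hζu _ hmem
  rw [ofMul_div, map_sub, hzero, sub_zero] at hi
  have heigζ : unitClass p K (Additive.ofMul (unitsAut σ hζu.unit)) =
      (c : ZMod p) • unitClass p K (Additive.ofMul hζu.unit) := by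
    rw [show (c : ZMod p) • unitClass p K (Additive.ofMul hζu.unit) =
      ((c : ZMod p).val : ZMod p) • unitClass p K (Additive.ofMul hζu.unit) by
        rw [ZMod.natCast_zmod_val], Nat.cast_smul_eq_nsmul, ← map_nsmul, ← ofMul_pow]
    have hz : algebraMap (𝓞 K) K hζ.toInteger = ζ := rfl
    congr 2
    ext
    rw [coe_unitsAut]
    simpa [hz] using hσ
  obtain ⟨w, hw⟩ : ∃ w : (𝓞 K)ˣ, u = hζu.unit ^ i * w ^ p := by
    have h0 : unitClass p K (Additive.ofMul (u / hζu.unit ^ i)) = 0 := by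
      rw [ofMul_div, map_sub, ofMul_pow, map_nsmul, ← Nat.cast_smul_eq_nsmul (ZMod p), hi, sub_self]
    obtain ⟨w, hw⟩ := (unitClass_eq_zero_iff p K _).1 h0
    exact ⟨w, by rw [← hw, mul_div_cancel]⟩
  have hlin : unitClass p K (Additive.ofMul (unitsAut σ u)) =
      (i : ZMod p) • ((c : ZMod p) • unitClass p K (Additive.ofMul hζu.unit)) := by
    rw [hw, map_mul, map_pow, map_pow, ofMul_mul, map_add, hzero, add_zero, ofMul_pow, map_nsmul,
      heigζ, Nat.cast_smul_eq_nsmul]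
  rw [hlin, hi, ← mul_smul, ← mul_smul] at heig
  have h2 := smul_left_injective (ZMod p) (unitClass_zeta_ne_zero hζ hodd hζu) heig
  rw [Units.val_pow_eq_pow_val] at h2
  rcases eq_or_ne (i : ZMod p) 0 with h3 | h3
  · rw [hi, h3, zero_smul]
  · refine absurd (Units.ext (mul_left_cancel₀ (mul_ne_zero h3 c.ne_zero) ?_)) hc1
    rw [Units.val_one]
    linear_combination -h2

omit hK in
/-- An eigenclass modulo `p`-th powers gives an eigenclass in the lattice modulo `p`. -/
theorem mkQ_latticeAut_of_eigen (σ : K ≃ₐ[ℚ] K) (u : (𝓞 K)ˣ) (s : ZMod p)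
    (h : unitClass p K (Additive.ofMul (unitsAut σ u)) = s • unitClass p K (Additive.ofMul u)) :
    ModN.mkQ p (latticeAut σ (toLattice (Additive.ofMul u))) =
      s • ModN.mkQ p (toLattice (Additive.ofMul u)) := by
  have : NeZero p := ⟨hp.out.ne_zero⟩
  rw [← ZMod.natCast_zmod_val s, Nat.cast_smul_eq_nsmul] at h ⊢
  rw [latticeAut_toLattice, ← map_nsmul, ← map_nsmul, ← sub_eq_zero, ← map_sub, ← map_sub]
  rw [← map_nsmul, ← sub_eq_zero, ← map_sub] at h
  rw [← ofMul_pow, ← ofMul_div] at h ⊢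
  obtain ⟨w, hw⟩ := (unitClass_eq_zero_iff p K _).1 h
  rw [hw, ofMul_pow, map_nsmul]
  exact (Submodule.Quotient.mk_eq_zero _).2 ⟨toLattice (Additive.ofMul w), by simp⟩

include hK hζ in
/-- The `ω²`-eigenspace of units mod `p`-th powers is at most one dimensional. -/
theorem exists_unitClass_eq_smul (h5 : 5 ≤ p) {x y : (𝓞 K)ˣ}
    (hx : ∀ (σ : K ≃ₐ[ℚ] K) (c : (ZMod p)ˣ), σ ζ = ζ ^ (c : ZMod p).val →
      unitClass p K (Additive.ofMul (unitsAut σ x)) =
        ((c ^ 2 : (ZMod p)ˣ) : ZMod p) • unitClass p K (Additive.ofMul x))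
    (hy : ∀ (σ : K ≃ₐ[ℚ] K) (c : (ZMod p)ˣ), σ ζ = ζ ^ (c : ZMod p).val →
      unitClass p K (Additive.ofMul (unitsAut σ y)) =
        ((c ^ 2 : (ZMod p)ˣ) : ZMod p) • unitClass p K (Additive.ofMul y))
    (hy0 : unitClass p K (Additive.ofMul y) ≠ 0) :
    ∃ k : ZMod p, unitClass p K (Additive.ofMul x) = k • unitClass p K (Additive.ofMul y) := by
  classical
  have : NeZero p := ⟨hp.out.ne_zero⟩
  obtain ⟨c, hc⟩ := IsCyclic.exists_generator (α := (ZMod p)ˣ)
  have hord : orderOf c = p - 1 := by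
    rw [orderOf_eq_card_of_forall_mem_zpowers hc, Nat.card_eq_fintype_card, ZMod.card_units]
  obtain ⟨σ, hσ⟩ := exists_aut_eq_pow hζ c
  have hodd : Odd p := hp.out.odd_of_ne_two (by omega)
  obtain ⟨q, hq⟩ := id hodd
  obtain ⟨r, rfl⟩ : ∃ r, q = r + 1 := ⟨q - 1, by omega⟩
  have hcard : Fintype.card (InfinitePlace K) = r + 1 := by
    rw [card_eq_nrRealPlaces_add_nrComplexPlaces,
      IsCyclotomicExtension.Rat.nrRealPlaces_eq_zero (n := p) K (by omega),
      IsCyclotomicExtension.Rat.nrComplexPlaces_eq_totient_div_two p, Nat.totient_prime hp.out]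
    omega
  have hrank : finrank ℤ (Additive ((𝓞 K)ˣ ⧸ Units.torsion K)) = r := by
    rw [Units.finrank_modTorsion, Units.rank, hcard, Nat.add_sub_cancel]
  have hpr : ¬ p ∣ r + 1 := fun h => by
    have := Nat.le_of_dvd (by omega) h
    omega
  obtain ⟨u₀, hind, hkill⟩ := exists_minkowski_unit hζ hσ (r := r) (by omega) (by omega) hcard
  have hc1 : c ≠ 1 := fun h => by
    rw [h, orderOf_one] at hord
    omega
  have hnotors := unitClass_eq_zero_of_eigen_of_lattice hζ hodd hσ hc1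
  have hxσ := hx σ c hσ
  have hyσ := hy σ c hσ
  obtain ⟨k, hk⟩ := exists_eq_smul_of_eigen hrank hpr (latticeAut σ) (toLattice (Additive.ofMul u₀))
    hind hkill _ (mkQ_latticeAut_of_eigen σ x _ hxσ) (mkQ_latticeAut_of_eigen σ y _ hyσ)
    (fun h => hy0 (hnotors y hyσ h))
  refine ⟨k, ?_⟩
  have hsplit : ∀ u : (𝓞 K)ˣ, unitClass p K (Additive.ofMul (u / y ^ k.val)) =
      unitClass p K (Additive.ofMul u) - k • unitClass p K (Additive.ofMul y) := fun u => by
    rw [ofMul_div, map_sub, ofMul_pow, map_nsmul, ← Nat.cast_smul_eq_nsmul (ZMod p),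
      ZMod.natCast_zmod_val]
  have hfin := hnotors (x / y ^ k.val) (by
    rw [hsplit, map_div, map_pow, ofMul_div, map_sub, ofMul_pow, map_nsmul, hxσ, hyσ,
      ← Nat.cast_smul_eq_nsmul (ZMod p), ZMod.natCast_zmod_val, smul_sub, smul_comm k]) (by
    rw [ofMul_div, map_sub, map_sub, ofMul_pow, map_nsmul, map_nsmul, hk,
      ← Nat.cast_smul_eq_nsmul (ZMod p), ZMod.natCast_zmod_val, sub_self])
  rwa [hsplit, sub_eq_zero] at hfin

end FLTAgent.ExtVanishing
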