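import Fermat.Agent.ExtVanishing.ThaineField
import Fermat.Agent.ExtVanishing.CyclotomicUnit
import Fermat.Agent.ExtVanishing.UnitRank
import Mathlib.NumberTheory.Cyclotomic.Gal
import Mathlib.RingTheory.Ideal.Norm.AbsNorm

/-!
# Thaine's relation

For a Galois equivariant (`ω²`) character `f` of the class group mod `p` and a degree one prime
`𝔩` with `f 𝔩 ≠ 0`, the cyclotomic unit `epsUnit` is a `p`-th power residue modulo `𝔩`.
-/

set_option autoImplicit false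
set_option maxSynthPendingDepth 3

open NumberField Ideal UniqueFactorizationMonoid

namespace FLTAgent.ExtVanishing

section Generic

variable {L M : Type} [Field L] [Field M] [NumberField L] [NumberField M] [Algebra L M]
  [IsGalois L M]

/-- If `M/L` has degree `l - 1`, the conjugates of `η - z`, for `z ≠ 1` fixed by `x ↦ x ^ l`,
multiply to one. -/
private theorem prod_smul_eta_sub_eq_one {l : ℕ} [hl : Fact l.Prime]
    [IsCyclotomicExtension {l} L M] {η : 𝓞 M} (hη : IsPrimitiveRoot η l)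
    (hcardG : Nat.card (M ≃ₐ[L] M) = l - 1) (heven : Even (l - 1)) {z : 𝓞 L} (hz1 : z ≠ 1)
    (hzl : z ^ l = z) : ∏ τ : M ≃ₐ[L] M, τ • (η - algebraMap (𝓞 L) (𝓞 M) z) = 1 := by
  classical
  set w := algebraMap (𝓞 L) (𝓞 M) z with hw
  have hw1 : w - 1 ≠ 0 := by
    rw [hw, ← map_one (algebraMap (𝓞 L) (𝓞 M)), ← map_sub, Ne,
      map_eq_zero_iff _ (FaithfulSMul.algebraMap_injective (𝓞 L) (𝓞 M))]
    exact sub_ne_zero.2 hz1
  have hwl : w ^ l = w := by rw [hw, ← map_pow, hzl]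
  have h1 : ∀ τ : M ≃ₐ[L] M, τ • (η - w) = τ • η - w := fun τ => by
    rw [smul_sub, hw, smul_algebraMap]
  have himg : (Finset.univ : Finset (M ≃ₐ[L] M)).image (fun τ => τ • η) =
      primitiveRoots l (𝓞 M) := by
    refine Finset.eq_of_subset_of_card_le ?_ ?_
    · intro μ hμ
      obtain ⟨τ, -, rfl⟩ := Finset.mem_image.1 hμ
      exact (mem_primitiveRoots hl.out.pos).2
        (hη.map_of_injective (f := MulSemiringAction.toRingHom (M ≃ₐ[L] M) (𝓞 M) τ)
          (MulAction.injective τ))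
    · rw [hη.card_primitiveRoots, Finset.card_image_of_injective _ fun a b h => aut_ext_eta hη h,
        Finset.card_univ, ← Nat.card_eq_fintype_card, hcardG, Nat.totient_prime hl.out]
  rw [Finset.prod_congr rfl fun τ _ => h1 τ,
    ← Finset.prod_image (g := fun τ : M ≃ₐ[L] M => τ • η) (f := fun μ => μ - w)
      (fun a _ b _ h => aut_ext_eta hη h), himg]
  have hneg : ∏ μ ∈ primitiveRoots l (𝓞 M), (μ - w) = ∏ μ ∈ primitiveRoots l (𝓞 M), (w - μ) := by
    rw [Finset.prod_congr rfl (fun μ _ => (neg_sub w μ).symm), Finset.prod_neg,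
      hη.card_primitiveRoots, Nat.totient_prime hl.out, heven.neg_one_pow, one_mul]
  rw [hneg]
  have := Polynomial.cyclotomic_eq_prod_X_sub_primitiveRoots hη
  apply_fun Polynomial.eval w at this
  simp only [Polynomial.eval_prod, Polynomial.eval_sub, Polynomial.eval_X, Polynomial.eval_C,
    Polynomial.cyclotomic_prime, Polynomial.eval_finsetSum, Polynomial.eval_pow] at this
  rw [← this]
  refine mul_right_cancel₀ hw1 ?_
  rw [geom_sum_mul, hwl, one_mul]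

/-- Hilbert 90 on integers: an element with conjugates multiplying to one is a unit `ξ` with
`s β = ξ β` for some `β ≠ 0`. -/
private theorem exists_smul_eq_unit_mul [IsCyclic (M ≃ₐ[L] M)] {s : M ≃ₐ[L] M}
    (hs : ∀ x, x ∈ Subgroup.zpowers s)
    {u : 𝓞 M} (hprod : ∏ τ : M ≃ₐ[L] M, τ • u = 1) :
    ∃ (ξ : (𝓞 M)ˣ) (β : 𝓞 M), (ξ : 𝓞 M) = u ∧ β ≠ 0 ∧ s • β = (ξ : 𝓞 M) * β := by
  classical
  have hunit : IsUnit u := by
    refine IsUnit.of_mul_eq_one (∏ τ ∈ Finset.univ.erase (1 : M ≃ₐ[L] M), τ • u) ?_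
    have := Finset.mul_prod_erase Finset.univ (fun τ : M ≃ₐ[L] M => τ • u) (Finset.mem_univ 1)
    rw [one_smul] at this
    rw [this, hprod]
  have hnormξ : Algebra.norm L ((hunit.unit : 𝓞 M) : M) = 1 := by
    apply (algebraMap L M).injective
    rw [Algebra.norm_eq_prod_automorphisms, map_one]
    have := congrArg (algebraMap (𝓞 M) M) hprod
    rw [map_prod, map_one] at this
    exact this
  have hnormξ' : Algebra.norm L ((algebraMap (𝓞 M) M) ((hunit.unit⁻¹ : (𝓞 M)ˣ) : 𝓞 M)) = 1 := by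
    have h : Algebra.norm L ((hunit.unit : 𝓞 M) : M) *
        Algebra.norm L ((algebraMap (𝓞 M) M) ((hunit.unit⁻¹ : (𝓞 M)ˣ) : 𝓞 M)) = 1 := by
      rw [← map_mul, ← map_mul, Units.mul_inv, map_one, map_one]
    rwa [hnormξ, one_mul] at h
  obtain ⟨β, hβ, hβ'⟩ :=
    groupCohomology.exists_mul_galRestrict_of_norm_eq_one (A := 𝓞 L) hs hnormξ'
  refine ⟨hunit.unit, β, rfl, hβ, ?_⟩
  have h : galRestrict (𝓞 L) L M (𝓞 M) s β = s • β := by
    apply RingOfIntegers.ext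
    exact algebraMap_galRestrict_apply (𝓞 L) s β
  rw [h] at hβ'
  conv_rhs => rw [← hβ']
  rw [Units.mul_inv_cancel_left]

end Generic

variable {p : ℕ} [hp : Fact p.Prime] {K : Type} [Field K] [NumberField K]
  [hK : IsCyclotomicExtension {p} ℚ K] {ζ : K} (hζ : IsPrimitiveRoot ζ p)

/-- An automorphism of `K` as a ring automorphism of the integers. -/
noncomputable def autEquivInt (σ : K ≃ₐ[ℚ] K) : 𝓞 K ≃+* 𝓞 K := RingOfIntegers.mapRingEquiv σ

omit hp hK in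
theorem map_autInt (σ : K ≃ₐ[ℚ] K) (I : Ideal (𝓞 K)) :
    I.map (autInt σ) = I.map (autEquivInt σ) := rfl

omit hp hK in
theorem mem_map_autInt {σ : K ≃ₐ[ℚ] K} {I : Ideal (𝓞 K)} {x : 𝓞 K} :
    autInt σ x ∈ I.map (autInt σ) ↔ x ∈ I := by
  rw [map_autInt, Ideal.mem_map_of_equiv (autEquivInt σ)]
  exact ⟨fun ⟨y, hy, hxy⟩ => (autEquivInt σ).injective hxy ▸ hy, fun h => ⟨x, h, rfl⟩⟩

omit hp hK in
theorem isPrime_map_autInt (σ : K ≃ₐ[ℚ] K) (I : Ideal (𝓞 K)) [I.IsPrime] :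
    (I.map (autInt σ)).IsPrime := by
  rw [map_autInt]
  exact Ideal.map_isPrime_of_equiv (autEquivInt σ)

omit hp hK in
theorem absNorm_map_autInt (σ : K ≃ₐ[ℚ] K) (I : Ideal (𝓞 K)) :
    absNorm (I.map (autInt σ)) = absNorm I := by
  rw [absNorm_apply, absNorm_apply, Submodule.cardQuot_apply, Submodule.cardQuot_apply]
  exact (Nat.card_congr (Ideal.quotientEquiv I _ (autEquivInt σ) (map_autInt σ I)).toEquiv).symm

include hK in
omit hK in
/-- The degree one prime facts. -/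
theorem zeta_sub_one_notMem {l : ℕ} [hl : Fact l.Prime] (hlp : l ≠ p) {𝔩 : Ideal (𝓞 K)}
    [𝔩.IsPrime] (hnorm : absNorm 𝔩 = l) : hζ.toInteger - 1 ∉ 𝔩 ∧ p ∣ l - 1 := by
  have hbot : 𝔩 ≠ ⊥ := fun h => by
    rw [h, Ideal.absNorm_bot] at hnorm
    exact hl.out.ne_zero hnorm.symm
  have : 𝔩.IsMaximal := Ideal.IsPrime.isMaximal inferInstance hbot
  have hl𝔩 : (l : 𝓞 K) ∈ 𝔩 := hnorm ▸ Ideal.absNorm_mem 𝔩
  have h1 : hζ.toInteger - 1 ∉ 𝔩 := by
    intro h
    obtain ⟨t, ht⟩ := hζ.toInteger_isPrimitiveRoot.sub_one_dvd_natCast hp.out.one_lt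
    have hp𝔩 : (p : 𝓞 K) ∈ 𝔩 := ht ▸ 𝔩.mul_mem_right t h
    obtain ⟨a, b, hab⟩ := Int.isCoprime_iff_gcd_eq_one.2
      (show Int.gcd (p : ℤ) (l : ℤ) = 1 from (Nat.coprime_primes hp.out hl.out).2 (Ne.symm hlp))
    refine Ideal.IsPrime.ne_top (I := 𝔩) inferInstance ((Ideal.eq_top_iff_one 𝔩).2 ?_)
    have := congrArg (fun n : ℤ => (n : 𝓞 K)) hab
    push_cast at this
    exact this ▸ 𝔩.add_mem (𝔩.mul_mem_left _ hp𝔩) (𝔩.mul_mem_left _ hl𝔩)
  refine ⟨h1, ?_⟩
  let : Field (𝓞 K ⧸ 𝔩) := Ideal.Quotient.field 𝔩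
  have : Finite (𝓞 K ⧸ 𝔩) := Ideal.finiteQuotientOfFreeOfNeBot 𝔩 hbot
  have : Fintype (𝓞 K ⧸ 𝔩) := Fintype.ofFinite _
  have hcard : Fintype.card (𝓞 K ⧸ 𝔩) = l := by
    rw [← Nat.card_eq_fintype_card, ← Submodule.cardQuot_apply, ← absNorm_apply, hnorm]
  set z : 𝓞 K ⧸ 𝔩 := Ideal.Quotient.mk 𝔩 hζ.toInteger
  have hz : z ^ p = 1 := by
    rw [← map_pow, hζ.toInteger_isPrimitiveRoot.pow_eq_one, map_one]
  have hz1 : z ≠ 1 := fun h => h1 (Ideal.Quotient.eq.1 (h.trans (map_one _).symm))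
  have hord : orderOf z = p := orderOf_eq_prime hz hz1
  have hz0 : z ≠ 0 := fun h => by
    rw [h, zero_pow hp.out.ne_zero] at hz
    exact zero_ne_one hz
  rw [← hord, ← hcard]
  exact orderOf_dvd_of_pow_eq_one (FiniteField.pow_card_sub_one_eq_one z hz0)

/-- An automorphism raising `ζ` to the `b`-th power. -/
noncomputable def galAut (b : (ZMod p)ˣ) : K ≃ₐ[ℚ] K := Classical.choose (exists_aut_eq_pow hζ b)

theorem galAut_spec (b : (ZMod p)ˣ) : galAut hζ b ζ = ζ ^ (b : ZMod p).val :=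
  Classical.choose_spec (exists_aut_eq_pow hζ b)

theorem autInt_galAut_zeta (b : (ZMod p)ˣ) :
    autInt (galAut hζ b) hζ.toInteger = hζ.toInteger ^ (b : ZMod p).val :=
  RingOfIntegers.ext (galAut_spec hζ b)

include hK in
/-- The primes over `l` are the conjugates of `𝔩`. -/
theorem primes_over {l : ℕ} [hl : Fact l.Prime] (hlp : l ≠ p) {𝔩 : Ideal (𝓞 K)} [𝔩.IsPrime]
    (hnorm : absNorm 𝔩 = l) :
    Function.Injective (fun b : (ZMod p)ˣ => 𝔩.map (autInt (galAut hζ b))) ∧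
    span {(l : 𝓞 K)} = ∏ b : (ZMod p)ˣ, 𝔩.map (autInt (galAut hζ b)) := by
  classical
  set Q : (ZMod p)ˣ → Ideal (𝓞 K) := fun b => 𝔩.map (autInt (galAut hζ b)) with hQ
  have hl𝔩 : (l : 𝓞 K) ∈ 𝔩 := hnorm ▸ Ideal.absNorm_mem 𝔩
  have hlQ : ∀ b, (l : 𝓞 K) ∈ Q b := fun b => by
    have := Ideal.mem_map_of_mem (autInt (galAut hζ b)) hl𝔩
    rwa [map_natCast] at this
  have hprimeQ : ∀ b, (Q b).IsPrime := fun b => isPrime_map_autInt _ _
  have hQnorm : ∀ b, absNorm (Q b) = l := fun b => (absNorm_map_autInt _ _).trans hnorm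
  have hQbot : ∀ b, Q b ≠ ⊥ := fun b h => by
    have := hQnorm b
    rw [h, Ideal.absNorm_bot] at this
    exact hl.out.ne_zero this.symm
  -- residues are integers
  have : Fact (absNorm 𝔩).Prime := ⟨hnorm ▸ hl.out⟩
  obtain ⟨a, ha⟩ : ∃ a : ℤ, hζ.toInteger - (a : 𝓞 K) ∈ 𝔩 := by
    have hbot : 𝔩 ≠ ⊥ := fun h => hQbot 1 (by simp [hQ, h])
    have : Finite (𝓞 K ⧸ 𝔩) := Ideal.finiteQuotientOfFreeOfNeBot 𝔩 hbot
    have : Fintype (𝓞 K ⧸ 𝔩) := Fintype.ofFinite _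
    have hcard : Nat.card (𝓞 K ⧸ 𝔩) = l := by
      rw [← Submodule.cardQuot_apply, ← absNorm_apply, hnorm]
    have hcard' : Fintype.card (𝓞 K ⧸ 𝔩) = l := by rw [← Nat.card_eq_fintype_card, hcard]
    obtain ⟨c, hc⟩ := (ZMod.ringEquivOfPrime (𝓞 K ⧸ 𝔩) hl.out hcard').surjective
      (Ideal.Quotient.mk 𝔩 hζ.toInteger)
    refine ⟨(c.val : ℤ), Ideal.Quotient.eq.1 ?_⟩
    rw [← hc, Int.cast_natCast, map_natCast]
    conv_lhs => rw [← ZMod.natCast_zmod_val c, map_natCast]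
  have hinj : Function.Injective Q := by
    intro b c hbc
    by_contra hne
    have h1 : ∀ d, hζ.toInteger ^ (d : ZMod p).val - (a : 𝓞 K) ∈ Q d := fun d => by
      have := Ideal.mem_map_of_mem (autInt (galAut hζ d)) ha
      rwa [map_sub, map_intCast, autInt_galAut_zeta] at this
    have h2 : hζ.toInteger ^ (b : ZMod p).val - hζ.toInteger ^ (c : ZMod p).val ∈ Q c := by
      have := Ideal.sub_mem _ (hbc ▸ h1 b) (h1 c)
      rwa [sub_sub_sub_cancel_right] at this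
    have hprim := hζ.toInteger_isPrimitiveRoot
    have hassoc : Associated (hζ.toInteger - 1)
        (hζ.toInteger ^ (b : ZMod p).val - hζ.toInteger ^ (c : ZMod p).val) := by
      refine hprim.nthRootsFinset_pairwise_associated_sub_one_sub_of_prime hp.out ?_ ?_ ?_
      · rw [Finset.mem_coe, Polynomial.mem_nthRootsFinset hp.out.pos, ← pow_mul, mul_comm, pow_mul,
          hprim.pow_eq_one, one_pow]
      · rw [Finset.mem_coe, Polynomial.mem_nthRootsFinset hp.out.pos, ← pow_mul, mul_comm, pow_mul,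
          hprim.pow_eq_one, one_pow]
      · intro h
        exact hne (Units.ext (ZMod.val_injective p
          (hprim.pow_inj (ZMod.val_lt _) (ZMod.val_lt _) h)))
    have := hprimeQ c
    obtain ⟨t, ht⟩ := hassoc.symm.dvd
    have h3 : hζ.toInteger - 1 ∈ Q c := ht ▸ Ideal.mul_mem_right t _ h2
    exact (zeta_sub_one_notMem hζ hlp (hQnorm c)).1 h3
  refine ⟨hinj, ?_⟩
  have hdvd : ∏ b, Q b ∣ span {(l : 𝓞 K)} := by
    rw [← Finset.prod_image (g := Q) (f := fun q => q) (fun b _ c _ h => hinj h)]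
    refine Finset.prod_primes_dvd _ ?_ ?_
    · intro q hq
      obtain ⟨b, -, rfl⟩ := Finset.mem_image.1 hq
      exact Ideal.prime_of_isPrime (hQbot b) (hprimeQ b)
    · intro q hq
      obtain ⟨b, -, rfl⟩ := Finset.mem_image.1 hq
      exact Ideal.dvd_span_singleton.2 (hlQ b)
  obtain ⟨R, hR⟩ := hdvd
  have hn := congrArg absNorm hR
  rw [map_mul, map_prod, Finset.prod_congr rfl fun b _ => hQnorm b, Finset.prod_const,
    Finset.card_univ, ZMod.card_units, Ideal.absNorm_span_singleton] at hn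
  have hnormnat : (Algebra.norm ℤ (l : 𝓞 K)).natAbs = l ^ (p - 1) := by
    rw [show (l : 𝓞 K) = algebraMap ℤ (𝓞 K) (l : ℤ) by simp, Algebra.norm_algebraMap,
      RingOfIntegers.rank, IsCyclotomicExtension.finrank (n := p) K
        (Polynomial.cyclotomic.irreducible_rat hp.out.pos), Nat.totient_prime hp.out,
      Int.natAbs_pow, Int.natAbs_natCast]
  rw [hnormnat] at hn
  have hR1 : absNorm R = 1 := by
    have := hl.out.pos
    exact (mul_eq_left₀ (pow_ne_zero _ hl.out.ne_zero)).1 hn.symm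
  rw [hR, Ideal.absNorm_eq_one_iff.1 hR1, Ideal.mul_top]

include hK in
/-- The conjugates of a degree one prime over `l` are primes. -/
private theorem prime_conj {l : ℕ} [hl : Fact l.Prime] {𝔩 : Ideal (𝓞 K)} [𝔩.IsPrime]
    (hnorm : absNorm 𝔩 = l) (b : (ZMod p)ˣ) : Prime (𝔩.map (autInt (galAut hζ b))) := by
  refine Ideal.prime_of_isPrime (fun h => hl.out.ne_zero ?_) (isPrime_map_autInt _ _)
  rw [← hnorm, ← absNorm_map_autInt (galAut hζ b) 𝔩, h, Ideal.absNorm_bot]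

include hK in
/-- Each conjugate of `𝔩` divides `l` exactly once. -/
private theorem emultiplicity_conj {l : ℕ} [hl : Fact l.Prime] (hlp : l ≠ p) {𝔩 : Ideal (𝓞 K)}
    [𝔩.IsPrime] (hnorm : absNorm 𝔩 = l) (b : (ZMod p)ˣ) :
    emultiplicity (𝔩.map (autInt (galAut hζ b))) (span {(l : 𝓞 K)}) = 1 := by
  obtain ⟨hinjQ, hspanl⟩ := primes_over hζ hlp hnorm
  have hP := prime_conj hζ hnorm
  rw [hspanl, Finset.emultiplicity_prod (hP b),
    Finset.sum_eq_single b (fun c _ hc => ?_) (fun h => absurd (Finset.mem_univ _) h),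
    (FiniteMultiplicity.of_prime_left (hP b) (hP b).ne_zero).emultiplicity_self]
  exact emultiplicity_eq_zero.2 fun hd => hc (hinjQ
    (associated_iff_eq.1 ((hP b).associated_of_dvd (hP c) hd))).symm

include hK in
/-- A prime over `l` is a conjugate of `𝔩`. -/
private theorem exists_eq_conj {l : ℕ} [hl : Fact l.Prime] (hlp : l ≠ p) {𝔩 : Ideal (𝓞 K)}
    [𝔩.IsPrime] (hnorm : absNorm 𝔩 = l) {q : Ideal (𝓞 K)} (hq : q.IsPrime) (hqb : q ≠ ⊥)
    (hlq : (l : 𝓞 K) ∈ q) : ∃ b : (ZMod p)ˣ, q = 𝔩.map (autInt (galAut hζ b)) := by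
  have hP := Ideal.prime_of_isPrime hqb hq
  have : q ∣ ∏ b : (ZMod p)ˣ, 𝔩.map (autInt (galAut hζ b)) :=
    (primes_over hζ hlp hnorm).2 ▸ Ideal.dvd_span_singleton.2 hlq
  obtain ⟨b, -, hb⟩ := hP.exists_mem_finset_dvd this
  exact ⟨b, associated_iff_eq.1 (hP.associated_of_dvd (prime_conj hζ hnorm b) hb)⟩

omit hK in
/-- If, away from the conjugates `Qb b` of `𝔩`, the multiplicities in `κ` are divisible by `p`,
then those at the `Qb b` are killed by the eigen-character `f`: `∑ m_b b² = 0`. -/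
private theorem sum_count_mul_sq_eq_zero {f : Ideal (𝓞 K) → ZMod p}
    (hmul : ∀ I J, I ≠ ⊥ → J ≠ ⊥ → f (I * J) = f I + f J)
    (hprin : ∀ x : 𝓞 K, x ≠ 0 → f (span {x}) = 0) {𝔩 : Ideal (𝓞 K)} (hf : f 𝔩 ≠ 0)
    {Qb : (ZMod p)ˣ → Ideal (𝓞 K)} (hinjQ : Function.Injective Qb)
    (hfQ : ∀ b, f (Qb b) = ((b ^ 2 : (ZMod p)ˣ) : ZMod p) * f 𝔩) {κ : 𝓞 K} (hκ : κ ≠ 0)
    (hdvd : ∀ q ∈ normalizedFactors (span ({κ} : Set (𝓞 K))), (∀ b, q ≠ Qb b) →
      p ∣ (normalizedFactors (span ({κ} : Set (𝓞 K)))).count q) :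
    ∑ b : (ZMod p)ˣ, ((normalizedFactors (span ({κ} : Set (𝓞 K)))).count (Qb b) : ZMod p) *
      ((b ^ 2 : (ZMod p)ˣ) : ZMod p) = 0 := by
  classical
  set N := normalizedFactors (span ({κ} : Set (𝓞 K)))
  have hfmul : ∀ S : Multiset (Ideal (𝓞 K)), (∀ q ∈ S, q ≠ ⊥) → f S.prod = (S.map f).sum := by
    intro S
    induction S using Multiset.induction with
    | empty =>
      intro _
      rw [Multiset.map_zero, Multiset.sum_zero, Multiset.prod_zero, Ideal.one_eq_top,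
        ← Ideal.span_singleton_one]
      exact hprin 1 one_ne_zero
    | cons q S ih =>
      intro h
      rw [Multiset.prod_cons, Multiset.map_cons, Multiset.sum_cons,
        hmul q _ (h q (Multiset.mem_cons_self q S)) ?_,
        ih fun r hr => h r (Multiset.mem_cons_of_mem hr)]
      exact Multiset.prod_ne_zero fun h0 => h _ (Multiset.mem_cons_of_mem h0) rfl
  refine (mul_eq_zero.1 ?_).resolve_right hf
  have hsum : ∑ b : (ZMod p)ˣ, (N.count (Qb b) : ZMod p) * f (Qb b) = 0 := by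
    have h0 : (N.map f).sum = 0 := by
      rw [← hfmul N fun q hq => (prime_of_normalized_factor q hq).ne_zero,
        associated_iff_eq.1 (prod_normalizedFactors (by simpa using hκ)), hprin κ hκ]
    rw [Finset.sum_multiset_map_count] at h0
    rw [← h0, ← Finset.sum_image (g := Qb) (f := fun q => (N.count q : ZMod p) * f q)
      (fun a _ b _ h => hinjQ h)]
    simp only [nsmul_eq_mul]
    refine (Finset.sum_subset (Finset.subset_union_left (s₂ := N.toFinset)) fun q hq hq' =>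
      ?_).trans
      (Finset.sum_subset (Finset.subset_union_right (s₁ := Finset.univ.image Qb)) fun q _ hq' =>
        ?_).symm
    · have hqN : q ∈ N := by
        rcases Finset.mem_union.1 hq with h | h
        · exact absurd h hq'
        · exact Multiset.mem_toFinset.1 h
      rw [(ZMod.natCast_eq_zero_iff _ _).2 (hdvd q hqN fun b hb =>
        hq' (Finset.mem_image.2 ⟨b, Finset.mem_univ _, hb.symm⟩)), zero_mul]
    · rw [Multiset.mem_toFinset] at hq'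
      rw [Multiset.count_eq_zero.2 hq', Nat.cast_zero, zero_mul]
  rw [Finset.sum_mul, ← hsum]
  refine Finset.sum_congr rfl fun b _ => ?_
  rw [mul_assoc, ← hfQ b]

include hK in
/-- From `g ^ m_b ≡ 1 - ζ` at the conjugates of `𝔩` and `∑ m_b b² = 0`, `epsUnit` is a `p`-th
power modulo `𝔩`. -/
private theorem exists_pow_sub_mem_of_cong (h5 : 5 ≤ p) {𝔩 : Ideal (𝓞 K)} [𝔩.IsMaximal]
    (hζ𝔩 : hζ.toInteger - 1 ∉ 𝔩) {g : ℕ} {m : (ZMod p)ˣ → ℕ}
    (hcong : ∀ b, (g : 𝓞 K) ^ m b - (1 - hζ.toInteger) ∈ 𝔩.map (autInt (galAut hζ b)))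
    (hmain : ∑ b : (ZMod p)ˣ, (m b : ZMod p) * ((b ^ 2 : (ZMod p)ˣ) : ZMod p) = 0) :
    ∃ t : 𝓞 K, (epsUnit hζ : 𝓞 K) - t ^ p ∈ 𝔩 := by
  let : Field (𝓞 K ⧸ 𝔩) := Ideal.Quotient.field 𝔩
  set π := Ideal.Quotient.mk 𝔩 with hπ
  have hres : ∀ b : (ZMod p)ˣ, π (1 - hζ.toInteger ^ (b : ZMod p).val) =
      π (g : 𝓞 K) ^ m b⁻¹ := by
    intro b
    have h := hcong b⁻¹
    set σ := galAut hζ b⁻¹ with hσdef
    have hσζ : autInt σ (hζ.toInteger ^ (b : ZMod p).val) = hζ.toInteger := by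
      rw [map_pow, autInt_galAut_zeta, ← pow_mul,
        pow_eq_pow_mod _ hζ.toInteger_isPrimitiveRoot.pow_eq_one, ← ZMod.val_mul, Units.inv_mul,
        ZMod.val_one, pow_one]
    rw [← map_pow]
    refine (Ideal.Quotient.eq.2 ?_).symm
    refine (mem_map_autInt (σ := σ)).1 ?_
    rw [map_sub, map_pow, map_natCast, map_sub, map_one, hσζ]
    exact h
  have hne : ∀ b : (ZMod p)ˣ, π (geomUnit hζ b : 𝓞 K) * π (1 - hζ.toInteger) =
      π (1 - hζ.toInteger ^ (b : ZMod p).val) := by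
    intro b
    rw [← map_mul]
    congr 1
    linear_combination -(geomUnit_mul hζ b)
  obtain ⟨j, hj⟩ : p ∣ ∑ b : (ZMod p)ˣ, m b⁻¹ * epsExp b := by
    rw [← ZMod.natCast_eq_zero_iff, Nat.cast_sum, ← hmain, ← Equiv.sum_comp (Equiv.inv (ZMod p)ˣ)]
    refine Finset.sum_congr rfl fun b _ => ?_
    simp only [Equiv.inv_apply, inv_inv, Nat.cast_mul, epsExp, ZMod.natCast_zmod_val]
  obtain ⟨k, hk⟩ : p ∣ ∑ b : (ZMod p)ˣ, epsExp b := by
    rw [← ZMod.natCast_eq_zero_iff, Nat.cast_sum]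
    simp only [epsExp, ZMod.natCast_zmod_val]
    exact sum_units_inv_sq h5
  have h1ζ : π (1 - hζ.toInteger) ≠ 0 := fun h => hζ𝔩 (by
    rw [hπ, Ideal.Quotient.eq_zero_iff_mem] at h
    simpa using 𝔩.neg_mem h)
  have hfinal : π (epsUnit hζ : 𝓞 K) * (π (1 - hζ.toInteger) ^ k) ^ p = (π (g : 𝓞 K) ^ j) ^ p := by
    rw [← pow_mul, ← pow_mul, mul_comm j, ← hj, mul_comm k, ← hk, ← Finset.prod_pow_eq_pow_sum,
      ← Finset.prod_pow_eq_pow_sum, epsUnit, Units.coe_prod, map_prod, ← Finset.prod_mul_distrib]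
    refine Finset.prod_congr rfl fun b _ => ?_
    rw [Units.val_pow_eq_pow_val, map_pow, ← mul_pow, hne, hres, ← pow_mul]
  obtain ⟨t, ht⟩ := Ideal.Quotient.mk_surjective (I := 𝔩)
    (π (g : 𝓞 K) ^ j / π (1 - hζ.toInteger) ^ k)
  refine ⟨t, Ideal.Quotient.eq.1 ?_⟩
  rw [map_pow, ht, div_pow, eq_div_iff (pow_ne_zero _ (pow_ne_zero _ h1ζ))]
  exact hfinal

include hK in
/-- **Thaine's relation**. -/
theorem epsUnit_isPowResidue (h5 : 5 ≤ p) {f : Ideal (𝓞 K) → ZMod p}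
    (hmul : ∀ I J, I ≠ ⊥ → J ≠ ⊥ → f (I * J) = f I + f J)
    (hprin : ∀ x : 𝓞 K, x ≠ 0 → f (span {x}) = 0)
    (heig : ∀ (b : (ZMod p)ˣ) (I : Ideal (𝓞 K)), I ≠ ⊥ →
      f (I.map (autInt (galAut hζ b))) = ((b ^ 2 : (ZMod p)ˣ) : ZMod p) * f I)
    {l : ℕ} [hl : Fact l.Prime] (hlp : l ≠ p) {𝔩 : Ideal (𝓞 K)} [𝔩.IsPrime]
    (hnorm : absNorm 𝔩 = l) (hf : f 𝔩 ≠ 0) :
    ∃ t : 𝓞 K, (epsUnit hζ : 𝓞 K) - t ^ p ∈ 𝔩 := by
  classical
  have : NeZero (l : K) := ⟨Nat.cast_ne_zero.2 hl.out.ne_zero⟩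
  have : NeZero l := ⟨hl.out.ne_zero⟩
  set M := CyclotomicField l K
  have : IsCyclotomicExtension {l} K M := CyclotomicField.isCyclotomicExtension l K
  have : NumberField M := IsCyclotomicExtension.numberField {l} K M
  have : IsGalois K M := IsCyclotomicExtension.isGalois {l} K M
  set η : 𝓞 M := (IsCyclotomicExtension.zeta_spec l K M).toInteger
  have hη : IsPrimitiveRoot η l :=
    (IsCyclotomicExtension.zeta_spec l K M).toInteger_isPrimitiveRoot
  obtain ⟨hζ𝔩, hpl⟩ := zeta_sub_one_notMem hζ hlp hnorm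
  set Qb : (ZMod p)ˣ → Ideal (𝓞 K) := fun b => 𝔩.map (autInt (galAut hζ b))
  have hQ : ∀ b, Prime (Qb b) := prime_conj hζ hnorm
  have hQl : ∀ b, emultiplicity (Qb b) (span {(l : 𝓞 K)}) = 1 := emultiplicity_conj hζ hlp hnorm
  have h𝔩bot : 𝔩 ≠ ⊥ := fun h => hl.out.ne_zero (by rw [← hnorm, h, Ideal.absNorm_bot])
  have h𝔩l : emultiplicity 𝔩 (span {(l : 𝓞 K)}) = 1 := by
    obtain ⟨b, hb⟩ := exists_eq_conj hζ hlp hnorm (q := 𝔩) inferInstance h𝔩bot
      (hnorm ▸ Ideal.absNorm_mem 𝔩)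
    conv_lhs => arg 1; rw [hb]
    exact hQl b
  -- the group
  have : IsCyclic (M ≃ₐ[K] M) :=
    isCyclic_of_injective _ ((coe_eta_isPrimitiveRoot hη).autToPow_injective (K := K))
  obtain ⟨s, hs⟩ := IsCyclic.exists_generator (α := M ≃ₐ[K] M)
  obtain ⟨g, -, hg⟩ := smul_eta_eq_pow (K := K) hη s
  obtain ⟨⟨P, hPp, hP𝔩⟩⟩ := (inferInstance : Nonempty (𝔩.primesOver (𝓞 M)))
  obtain ⟨hcardG, -, -⟩ := totally_ramified (K := K) hη h𝔩bot h𝔩l (Q := P)
    (Ideal.ne_bot_of_liesOver_of_ne_bot h𝔩bot P)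
  -- the unit `ξ = η - ζ` and a `β` with `s β = ξ β`
  have hlodd : Even (l - 1) := by
    rcases hl.out.eq_two_or_odd' with h | h
    · subst h
      have := Nat.le_of_dvd (by norm_num) hpl
      omega
    · exact Nat.Odd.sub_odd h odd_one
  have hζl : hζ.toInteger ^ l = hζ.toInteger := by
    obtain ⟨k, hk⟩ := hpl
    have hlk : l = p * k + 1 := by have := hl.out.pos; omega
    calc hζ.toInteger ^ l = hζ.toInteger ^ (p * k + 1) := congrArg (hζ.toInteger ^ ·) hlk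
      _ = hζ.toInteger := by
        rw [pow_succ, pow_mul, hζ.toInteger_isPrimitiveRoot.pow_eq_one, one_pow, one_mul]
  obtain ⟨ξ, β, hξη, hβ, hsβ⟩ := exists_smul_eq_unit_mul hs (prod_smul_eta_sub_eq_one hη hcardG
    hlodd (hζ.toInteger_isPrimitiveRoot.ne_one hp.out.one_lt) hζl)
  have hξ : (ξ : 𝓞 M) - algebraMap (𝓞 K) (𝓞 M) (1 - hζ.toInteger) ∈ span {η - 1} := by
    rw [hξη, map_sub, map_one]
    exact Ideal.mem_span_singleton.2 ⟨1, by ring⟩
  -- the multiplicities in `κ = N β`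
  set κ := RingOfIntegers.norm K β
  have hκ : κ ≠ 0 := fun h => by
    have h1 := congrArg (algebraMap (𝓞 K) K) h
    rw [map_zero] at h1
    exact RingOfIntegers.coe_ne_zero_iff.2 hβ (Algebra.norm_eq_zero_iff.1 h1)
  set N := normalizedFactors (span ({κ} : Set (𝓞 K)))
  have hcount : ∀ q : Ideal (𝓞 K), Prime q → emultiplicity q (span {κ}) = (N.count q : ℕ∞) :=
    fun q hq => by
      rw [emultiplicity_eq_count_normalizedFactors hq.irreducible (by simpa using hκ),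
        normalize_eq]
  have hcong : ∀ b, (g : 𝓞 K) ^ N.count (Qb b) - (1 - hζ.toInteger) ∈ Qb b := fun b =>
    haveI := Ideal.isPrime_of_prime (hQ b)
    pow_multiplicity_norm_sub hη hβ hs hsβ (hQ b).ne_zero (hQl b) hg hξ (hcount _ (hQ b))
  have hdvd : ∀ q ∈ N, (∀ b, q ≠ Qb b) → p ∣ N.count q := fun q hqN hne => by
    have hP : Prime q := prime_of_normalized_factor q hqN
    have := Ideal.isPrime_of_prime hP
    have hlq : (l : 𝓞 K) ∉ q := fun h => by
      obtain ⟨b, hb⟩ := exists_eq_conj hζ hlp hnorm this hP.ne_zero h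
      exact hne b hb
    have hd := dvd_multiplicity_norm hη hβ hs hsβ hP.ne_zero hlq (hcount q hP)
    rw [hcardG] at hd
    exact hpl.trans hd
  have : 𝔩.IsMaximal := Ideal.IsPrime.isMaximal inferInstance h𝔩bot
  exact exists_pow_sub_mem_of_cong hζ h5 hζ𝔩 hcong (sum_count_mul_sq_eq_zero hmul hprin hf
    (primes_over hζ hlp hnorm).1 (fun b => heig b 𝔩 h𝔩bot) hκ hdvd)

end FLTAgent.ExtVanishing
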