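import Fermat.Agent.ExtVanishing.EigenCharacter
import Fermat.Agent.ExtVanishing.Thaine
import Fermat.Agent.Regular.CyclotomicPrep
import Fermat.Prelude.Def_ClassGroup_GaloisAction
import Mathlib.NumberTheory.NumberField.Cyclotomic.PID
import Mathlib.NumberTheory.NumberField.Cyclotomic.Three

/-!
# From a hyperprimary `ω²` Kummer element to an `ω²` character of the class group

A Kummer element `α` (eigen, divisor a `p`-th power, locally a `p`-th power at `p`, not globally)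
cannot exist for `p = 3`; for `p ≥ 5` it gives a nonzero `ω²`-equivariant character mod `p` of the
class group.
-/

set_option autoImplicit false
set_option maxSynthPendingDepth 3

open NumberField Ideal
open scoped nonZeroDivisors

namespace FLTAgent.ExtVanishing

variable {p : ℕ} [hp : Fact p.Prime] {K : Type} [Field K] [NumberField K]
  [hK : IsCyclotomicExtension {p} ℚ K] {ζ : K} (hζ : IsPrimitiveRoot ζ p)

/-- A hyperprimary Kummer element of the `ω²` eigenspace which is not a `p`-th power. -/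
structure IsKummerElement (α : 𝓞 K) : Prop where
  ne_zero : α ≠ 0
  not_pow : ∀ y : K, y ^ p ≠ (α : K)
  eigen : ∀ b : (ZMod p)ˣ, ∃ γ : K,
    galAut hζ b (α : K) = (α : K) ^ ((b ^ 2 : (ZMod p)ˣ) : ZMod p).val * γ ^ p
  divisor : ∃ 𝔞 : Ideal (𝓞 K), span {α} = 𝔞 ^ p
  locally_pow : ∀ N : ℕ, ∃ γ : 𝓞 K, (hζ.toInteger - 1) ^ N ∣ α - γ ^ p

include hK in
theorem galAut_mul (b c : (ZMod p)ˣ) : galAut hζ (b * c) = galAut hζ b * galAut hζ c := by
  have h : (galAut hζ b * galAut hζ c) ζ = ζ ^ ((b * c : (ZMod p)ˣ) : ZMod p).val := by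
    rw [AlgEquiv.mul_apply, galAut_spec, map_pow, galAut_spec, ← pow_mul,
      pow_eq_pow_mod _ hζ.pow_eq_one, Units.val_mul, ZMod.val_mul]
  have h' : (galAut hζ (b * c)).toAlgHom = (galAut hζ b * galAut hζ c).toAlgHom := by
    apply (hζ.powerBasis ℚ).algHom_ext
    rw [IsPrimitiveRoot.powerBasis_gen]
    exact (galAut_spec hζ (b * c)).trans h.symm
  exact AlgEquiv.ext fun x => AlgHom.congr_fun h' x

theorem mapNonZero_val (σ : K ≃ₐ[ℚ] K) (I : (Ideal (𝓞 K))⁰) :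
    (Ideal.mapNonZero (autEquivInt σ) I : Ideal (𝓞 K)) = (I : Ideal (𝓞 K)).map (autInt σ) := rfl

omit hp hK in
theorem autInt_one : autInt (1 : K ≃ₐ[ℚ] K) = RingHom.id (𝓞 K) :=
  RingHom.ext fun x => RingOfIntegers.ext (by rw [coe_autInt]; simp)

omit hp hK in
theorem autInt_mul (σ τ : K ≃ₐ[ℚ] K) : autInt (σ * τ) = (autInt σ).comp (autInt τ) :=
  RingHom.ext fun x => RingOfIntegers.ext (by
    rw [RingHom.comp_apply, coe_autInt, coe_autInt, coe_autInt, AlgEquiv.mul_apply])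

/-- The map on the class group induced by `galAut b`. -/
noncomputable def classMap (b : (ZMod p)ˣ) :
    Additive (ClassGroup (𝓞 K)) →+ Additive (ClassGroup (𝓞 K)) :=
  MonoidHom.toAdditive (ClassGroup.mulEquiv (autEquivInt (galAut hζ b))).toMonoidHom

theorem classMap_mk0 (b : (ZMod p)ˣ) (I : (Ideal (𝓞 K))⁰) :
    classMap hζ b (Additive.ofMul (ClassGroup.mk0 I)) =
      Additive.ofMul (ClassGroup.mk0 (Ideal.mapNonZero (autEquivInt (galAut hζ b)) I)) := by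
  rw [← ClassGroup.mulEquiv_mk0]
  rfl

include hK in
theorem classMap_one : classMap hζ 1 = AddMonoidHom.id (Additive (ClassGroup (𝓞 K))) := by
  have h1 : galAut hζ 1 = 1 := by
    have h := galAut_mul hζ 1 1
    rw [one_mul] at h
    exact left_eq_mul.1 h
  refine AddMonoidHom.ext fun x => ?_
  obtain ⟨I, hI⟩ := ClassGroup.mk0_surjective x.toMul
  have hx : x = Additive.ofMul (ClassGroup.mk0 I) := by rw [hI, ofMul_toMul]
  rw [hx, classMap_mk0, AddMonoidHom.id_apply]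
  refine congrArg Additive.ofMul (congrArg ClassGroup.mk0 (Subtype.ext ?_))
  rw [mapNonZero_val, h1, autInt_one, Ideal.map_id]

include hK in
theorem classMap_mul (b c : (ZMod p)ˣ) :
    classMap hζ (b * c) = (classMap hζ b).comp (classMap hζ c) := by
  refine AddMonoidHom.ext fun x => ?_
  obtain ⟨I, hI⟩ := ClassGroup.mk0_surjective x.toMul
  have hx : x = Additive.ofMul (ClassGroup.mk0 I) := by rw [hI, ofMul_toMul]
  rw [hx, AddMonoidHom.comp_apply, classMap_mk0, classMap_mk0, classMap_mk0]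
  refine congrArg Additive.ofMul (congrArg ClassGroup.mk0 (Subtype.ext ?_))
  rw [mapNonZero_val, mapNonZero_val, mapNonZero_val, Ideal.map_map, galAut_mul, autInt_mul]

/-- The action of `(ℤ/p)ˣ` on the class group. -/
noncomputable def classAction : (ZMod p)ˣ →* AddMonoid.End (Additive (ClassGroup (𝓞 K))) where
  toFun b := classMap hζ b
  map_one' := classMap_one hζ
  map_mul' b c := classMap_mul hζ b c

theorem classAction_mk0 (b : (ZMod p)ˣ) (I : (Ideal (𝓞 K))⁰) :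
    classAction hζ b (Additive.ofMul (ClassGroup.mk0 I)) =
      Additive.ofMul (ClassGroup.mk0 (Ideal.mapNonZero (autEquivInt (galAut hζ b)) I)) :=
  classMap_mk0 hζ b I

omit hp hK [NumberField K] in
/-- An element of `K` with integral `p`-th power is integral. -/
theorem exists_int_of_pow {x : K} {y : 𝓞 K} {n : ℕ} (hn : n ≠ 0) (h : x ^ n = (y : K)) :
    ∃ z : 𝓞 K, (z : K) = x :=
  ⟨⟨x, IsIntegral.of_pow (Nat.pos_of_ne_zero hn) (h ▸ y.isIntegral_coe)⟩, rfl⟩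

include hK in
/-- The `p = 3` case. -/
theorem false_of_kummerElement_three (h3 : p = 3) {α : 𝓞 K} (h : IsKummerElement hζ α) : False := by
  subst h3
  have := IsCyclotomicExtension.Rat.three_pid K
  obtain ⟨𝔞, h𝔞⟩ := h.divisor
  obtain ⟨a, rfl⟩ := IsPrincipalIdealRing.principal 𝔞
  rw [← Ideal.span, Ideal.span_singleton_pow, Ideal.span_singleton_eq_span_singleton] at h𝔞
  obtain ⟨u, hu⟩ := h𝔞.symm
  -- units are `± ζ ^ i`
  have hζ3 : IsPrimitiveRoot ζ 3 := hζ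
  obtain ⟨i, hi⟩ : ∃ i : ℕ, ((u : 𝓞 K) : K) = ζ ^ i ∨ ((u : 𝓞 K) : K) = -ζ ^ i := by
    have := IsCyclotomicExtension.Rat.Three.Units.mem hζ3 u
    simp only [List.mem_cons, List.not_mem_nil, or_false] at this
    rcases this with rfl | rfl | rfl | rfl | rfl | rfl
    · exact ⟨0, Or.inl (by simp)⟩
    · exact ⟨0, Or.inr (by simp)⟩
    · exact ⟨1, Or.inl (by simp)⟩
    · exact ⟨1, Or.inr (by simp)⟩
    · exact ⟨2, Or.inl (by simp)⟩
    · exact ⟨2, Or.inr (by simp)⟩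
  -- `u` is a cube
  have hneg : ((-1 : K)) ^ 3 = -1 := by norm_num
  obtain ⟨s, hs, hus⟩ : ∃ s : K, s ^ 2 = 1 ∧ ((u : 𝓞 K) : K) = s * ζ ^ i := by
    rcases hi with hi | hi
    · exact ⟨1, one_pow 2, by rw [one_mul, hi]⟩
    · exact ⟨-1, by norm_num, by rw [neg_one_mul, hi]⟩
  have hs3 : s ^ 3 = s := by rw [pow_succ, hs, one_mul]
  have hα : (α : K) = (s * ζ ^ i) * (a : K) ^ 3 := by
    rw [← hus, ← hu]
    push_cast
    ring
  obtain ⟨γ, hγ⟩ := h.eigen (-1)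
  have hv1 : (((-1 : (ZMod 3)ˣ) ^ 2 : (ZMod 3)ˣ) : ZMod 3).val = 1 := by
    rw [neg_one_sq, Units.val_one]; rfl
  rw [hv1, pow_one] at hγ
  set σ := galAut hζ (-1 : (ZMod 3)ˣ) with hσ
  have hσζ : σ ζ = ζ ^ 2 := by
    rw [hσ, galAut_spec]
    congr 1
  have hσs : σ s = s := by
    rcases sq_eq_one_iff.1 hs with rfl | rfl <;> simp
  have ha0 : (a : K) ≠ 0 := fun ha => h.ne_zero (by
    have : (α : K) = 0 := by rw [hα, ha]; ring
    exact RingOfIntegers.ext this)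
  have hζ0 : ζ ≠ 0 := hζ.ne_zero (by norm_num)
  have hs0 : s ≠ 0 := fun e => by rw [e] at hs; norm_num at hs
  rw [hα, map_mul, map_mul, map_pow, map_pow, hσs, hσζ] at hγ
  -- `ζ ^ i` is a cube
  have hcube : ∃ y : K, y ^ 3 = ζ ^ i := by
    refine ⟨(a : K) * γ / σ (a : K), ?_⟩
    have hσa : σ (a : K) ≠ 0 := (map_ne_zero σ).2 ha0
    rw [div_pow, mul_pow, div_eq_iff (pow_ne_zero _ hσa)]
    refine mul_left_cancel₀ (mul_ne_zero hs0 (pow_ne_zero i hζ0)) ?_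
    rw [show (ζ ^ 2) ^ i = (ζ ^ i) ^ 2 by rw [← pow_mul, ← pow_mul, mul_comm]] at hγ
    linear_combination -hγ
  obtain ⟨y, hy⟩ := hcube
  exact h.not_pow (s * y * (a : K)) (by rw [hα, mul_pow, mul_pow, hs3, hy])

include hK in
/-- If `α = u a ^ p`, the unit `u` is an `ω²`-eigenvector modulo `p`-th powers. -/
private theorem unitClass_unitsAut_of_kummerElement {α : 𝓞 K} (h : IsKummerElement hζ α)
    {u : (𝓞 K)ˣ} {a : 𝓞 K} (hαu : (α : K) = ((u : 𝓞 K) : K) * (a : K) ^ p) (ha0 : (a : K) ≠ 0)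
    {σ : K ≃ₐ[ℚ] K} {c : (ZMod p)ˣ} (hσ : σ ζ = ζ ^ (c : ZMod p).val) :
    unitClass p K (Additive.ofMul (unitsAut σ u)) =
      ((c ^ 2 : (ZMod p)ˣ) : ZMod p) • unitClass p K (Additive.ofMul u) := by
  have hu0 : ((u : 𝓞 K) : K) ≠ 0 := RingOfIntegers.coe_ne_zero_iff.2 u.ne_zero
  have hσeq : σ = galAut hζ c := by
    have h' : σ.toAlgHom = (galAut hζ c).toAlgHom := by
      apply (hζ.powerBasis ℚ).algHom_ext
      rw [IsPrimitiveRoot.powerBasis_gen]
      exact hσ.trans (galAut_spec hζ c).symm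
    exact AlgEquiv.ext fun z => AlgHom.congr_fun h' z
  subst hσeq
  set k := ((c ^ 2 : (ZMod p)ˣ) : ZMod p).val with hk
  obtain ⟨γ, hγ⟩ := h.eigen c
  rw [hαu, map_mul, map_pow] at hγ
  set σ := galAut hζ c
  -- the quotient is a `p`-th power
  have hσa : σ (a : K) ≠ 0 := by simpa using ha0
  set δ : K := (a : K) ^ k * γ / σ (a : K) with hδ
  have hδp : δ ^ p = ((unitsAut σ u / u ^ k : (𝓞 K)ˣ) : 𝓞 K) := by
    rw [hδ, div_pow, eq_comm, eq_div_iff (pow_ne_zero _ hσa)]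
    have hq : (((unitsAut σ u / u ^ k : (𝓞 K)ˣ) : 𝓞 K) : K) * ((u : 𝓞 K) : K) ^ k =
        σ ((u : 𝓞 K) : K) := by
      rw [← coe_unitsAut, ← map_pow (algebraMap (𝓞 K) K), ← map_mul, ← Units.val_pow_eq_pow_val,
        ← Units.val_mul, div_mul_cancel]
    refine mul_right_cancel₀ (pow_ne_zero k hu0) ?_
    rw [mul_assoc, mul_comm (σ (a : K) ^ p), ← mul_assoc, hq, hγ, mul_pow, mul_pow,
      ← pow_mul, ← pow_mul, mul_comm p k]
    ring
  obtain ⟨z, hz⟩ := exists_int_of_pow hp.out.ne_zero hδp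
  have hzp : z ^ p = ((unitsAut σ u / u ^ k : (𝓞 K)ˣ) : 𝓞 K) :=
    RingOfIntegers.ext ((show ((z ^ p : 𝓞 K) : K) = (z : K) ^ p from rfl).trans
      (by rw [hz, hδp]))
  have hzu : IsUnit z := (isUnit_pow_iff hp.out.ne_zero).1 (hzp ▸ Units.isUnit _)
  have h0 : unitClass p K (Additive.ofMul (unitsAut σ u / u ^ k)) = 0 :=
    (unitClass_eq_zero_iff p K _).2 ⟨hzu.unit, Units.ext hzp.symm⟩
  rw [ofMul_div, map_sub, ofMul_pow, map_nsmul, sub_eq_zero, ← Nat.cast_smul_eq_nsmul (ZMod p),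
    hk, ZMod.natCast_zmod_val] at h0
  exact h0

include hK in
/-- A local `p`-th power congruence for `u (π ^ j a') ^ p` descends to `u a' ^ p` modulo `p`. -/
private theorem exists_dvd_mul_pow_sub {α u a' γ : 𝓞 K} {j : ℕ}
    (hα : α = ((hζ.toInteger - 1) ^ j * a') ^ p * u)
    (hγ : (hζ.toInteger - 1) ^ (j * p + p) ∣ α - γ ^ p) :
    ∃ γ' : 𝓞 K, (p : 𝓞 K) ∣ a' ^ p * u - γ' ^ p := by
  have hπ := hζ.zeta_sub_one_prime'
  have hjγ : ∀ i ≤ j, (hζ.toInteger - 1) ^ i ∣ γ := by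
    intro i
    induction i with
    | zero => simp
    | succ i ih =>
      intro hi
      obtain ⟨t, ht⟩ := ih (by omega)
      have h1 : (hζ.toInteger - 1) ^ (i * p + 1) ∣ γ ^ p := by
        have h2 : (hζ.toInteger - 1) ^ (i * p + 1) ∣ α := by
          refine (pow_dvd_pow _ (show i * p + 1 ≤ j * p from ?_)).trans ?_
          · calc i * p + 1 ≤ i * p + p := by have := hp.out.pos; omega
              _ = (i + 1) * p := by ring
              _ ≤ j * p := Nat.mul_le_mul_right p hi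
          · rw [hα, mul_pow, ← pow_mul]
            exact dvd_mul_of_dvd_left (dvd_mul_right _ _) _
        have h3 := dvd_sub h2 ((pow_dvd_pow _ (show i * p + 1 ≤ j * p + p by
          have := Nat.mul_le_mul_right p (show i ≤ j by omega)
          have := hp.out.pos
          omega)).trans hγ)
        rwa [sub_sub_cancel] at h3
      rw [ht, mul_pow, ← pow_mul, pow_succ,
        mul_dvd_mul_iff_left (pow_ne_zero _ hπ.ne_zero)] at h1
      obtain ⟨t', ht'⟩ := hπ.dvd_of_dvd_pow h1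
      exact ⟨t', by rw [ht, ht']; ring⟩
  obtain ⟨γ', hγ'⟩ := hjγ j le_rfl
  rw [hα, hγ'] at hγ
  have hrw : ((hζ.toInteger - 1) ^ j * a') ^ p * u -
      ((hζ.toInteger - 1) ^ j * γ') ^ p =
      (hζ.toInteger - 1) ^ (j * p) * (a' ^ p * u - γ' ^ p) := by ring
  rw [hrw, pow_add, mul_dvd_mul_iff_left (pow_ne_zero _ hπ.ne_zero)] at hγ
  have hpd : (p : 𝓞 K) ∣ a' ^ p * u - γ' ^ p :=
    ((IsCyclotomicExtension.Rat.associated_zeta_sub_one_pow_prime p hζ).symm.dvd.trans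
      (pow_dvd_pow _ (Nat.sub_le _ _))).trans hγ
  exact ⟨γ', hpd⟩

include hK in
/-- The unit part of a Kummer element has vanishing second logarithmic derivative. -/
private theorem secondLogDeriv_unit_eq_zero (h5 : 5 ≤ p) {α : 𝓞 K} (h : IsKummerElement hζ α)
    {u : (𝓞 K)ˣ} {a : 𝓞 K} (hu : a ^ p * (u : 𝓞 K) = α) (ha0 : (a : K) ≠ 0) :
    secondLogDeriv hζ h5 (Additive.ofMul u) = 0 := by
  apply secondLogDeriv_eq_zero_of_congr
  obtain ⟨j, hj⟩ : ∃ j : ℕ, emultiplicity (hζ.toInteger - 1) a = j :=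
    ⟨_, (FiniteMultiplicity.of_prime_left hζ.zeta_sub_one_prime'
      (fun e => ha0 (by rw [e]; simp))).emultiplicity_eq_multiplicity⟩
  obtain ⟨⟨a', ha'⟩, hndvd⟩ := emultiplicity_eq_coe.1 hj
  have hπ := hζ.zeta_sub_one_prime'
  have ha'' : ¬ hζ.toInteger - 1 ∣ a' := fun ⟨t, ht⟩ => hndvd ⟨t, by rw [ha', ht]; ring⟩
  obtain ⟨γ, hγ⟩ := h.locally_pow (j * p + p)
  obtain ⟨γ', hpd⟩ := exists_dvd_mul_pow_sub hζ (u := (u : 𝓞 K)) (by rw [← hu, ha']) hγ
  obtain ⟨n₁, hn₁⟩ := FLTAgent.Regular.exists_int_dvd_pow_sub (p := p) a'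
  obtain ⟨n₂, hn₂⟩ := FLTAgent.Regular.exists_int_dvd_pow_sub (p := p) γ'
  have hπp : hζ.toInteger - 1 ∣ (p : 𝓞 K) := hζ.toInteger_sub_one_dvd_prime'
  have hn : ¬ (p : ℤ) ∣ n₁ := fun hd => ha'' <| by
    have h1 : hζ.toInteger - 1 ∣ (n₁ : 𝓞 K) :=
      (IsCyclotomicExtension.Rat.zeta_sub_one_dvd_intCast_iff' p hζ).2 hd
    have h2 := dvd_add (hπp.trans hn₁) h1
    rw [sub_add_cancel] at h2
    exact hπ.dvd_of_dvd_pow h2
  obtain ⟨l, m, hlm⟩ :=
    (Prime.coprime_iff_not_dvd (Nat.prime_iff_prime_int.1 hp.out)).2 hn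
  refine ⟨m * n₂, ?_⟩
  have hlm' : (l : 𝓞 K) * p + (m : 𝓞 K) * n₁ = 1 := by
    have := congrArg (fun n : ℤ => (n : 𝓞 K)) hlm
    push_cast at this
    exact this
  obtain ⟨t₁, ht₁⟩ := hn₁
  obtain ⟨t₂, ht₂⟩ := hn₂
  obtain ⟨t₃, ht₃⟩ := hpd
  refine ⟨(u : 𝓞 K) * l - m * (u : 𝓞 K) * t₁ + m * t₂ + m * t₃, ?_⟩
  push_cast
  linear_combination -(u : 𝓞 K) * hlm' - ((m : 𝓞 K) * (u : 𝓞 K)) * ht₁ + (m : 𝓞 K) * ht₂
    + (m : 𝓞 K) * ht₃

include hK in
/-- The divisor `𝔞` of a Kummer element is not principal. -/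
private theorem not_isPrincipal_of_kummerElement (h5 : 5 ≤ p) {α : 𝓞 K}
    (h : IsKummerElement hζ α) {𝔞 : Ideal (𝓞 K)} (h𝔞 : span {α} = 𝔞 ^ p) :
    ¬ 𝔞.IsPrincipal := by
  intro hprinc
  have hαK : (α : K) ≠ 0 := RingOfIntegers.coe_ne_zero_iff.2 h.ne_zero
  obtain ⟨a, ha⟩ := hprinc.principal
  rw [← Ideal.span] at ha
  rw [ha, Ideal.span_singleton_pow, Ideal.span_singleton_eq_span_singleton] at h𝔞
  obtain ⟨u, hu⟩ := h𝔞.symm
  have hαu : (α : K) = ((u : 𝓞 K) : K) * (a : K) ^ p := by rw [← hu]; push_cast; ring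
  have ha0 : (a : K) ≠ 0 := fun e => hαK (by rw [hαu, e, zero_pow hp.out.ne_zero, mul_zero])
  have heps : unitClass p K (Additive.ofMul (epsUnit hζ)) ≠ 0 := by
    rw [Ne, unitClass_eq_zero_iff]
    rintro ⟨v, hv⟩
    refine secondLogDeriv_epsUnit hζ h5 ?_
    rw [hv, ofMul_pow, map_nsmul, nsmul_eq_mul, ZMod.natCast_self, zero_mul]
  have heig : ∀ (σ : K ≃ₐ[ℚ] K) (c : (ZMod p)ˣ), σ ζ = ζ ^ (c : ZMod p).val →
      unitClass p K (Additive.ofMul (unitsAut σ u)) =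
        ((c ^ 2 : (ZMod p)ˣ) : ZMod p) • unitClass p K (Additive.ofMul u) :=
    fun σ c hσ => unitClass_unitsAut_of_kummerElement hζ h hαu ha0 hσ
  obtain ⟨k, hk⟩ := exists_unitClass_eq_smul hζ h5 heig
    (fun σ c hσ => unitClass_unitsAut_epsUnit hζ h5 hσ) heps
  have hloc := secondLogDeriv_unit_eq_zero hζ h5 h hu ha0
  obtain ⟨v, hv⟩ : ∃ v : (𝓞 K)ˣ, u = v ^ p := by
    have hd : unitClass p K (Additive.ofMul (u / epsUnit hζ ^ k.val)) = 0 := by
      rw [ofMul_div, map_sub, ofMul_pow, map_nsmul, hk, ← Nat.cast_smul_eq_nsmul (ZMod p),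
        ZMod.natCast_zmod_val, sub_self]
    obtain ⟨v, hv⟩ := (unitClass_eq_zero_iff p K _).1 hd
    have hL : secondLogDeriv hζ h5 (Additive.ofMul u) =
        k * secondLogDeriv hζ h5 (Additive.ofMul (epsUnit hζ)) := by
      rw [div_eq_iff_eq_mul] at hv
      rw [hv, ofMul_mul, map_add, ofMul_pow, ofMul_pow, map_nsmul, map_nsmul, nsmul_eq_mul,
        nsmul_eq_mul, ZMod.natCast_self, zero_mul, zero_add, ZMod.natCast_zmod_val]
    rw [hloc] at hL
    have hk0 : k = 0 := (mul_eq_zero.1 hL.symm).resolve_right (secondLogDeriv_epsUnit hζ h5)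
    rw [hk0, ZMod.val_zero, pow_zero, div_one] at hv
    exact ⟨v, hv⟩
  exact h.not_pow (((v : 𝓞 K) : K) * (a : K)) (by
    rw [hαu, hv, Units.val_pow_eq_pow_val, mul_pow]; push_cast; rfl)

include hK in
/-- The class of the divisor of a Kummer element is an `ω²`-eigenvector. -/
private theorem classAction_divisor {α : 𝓞 K} (h : IsKummerElement hζ α) {A : (Ideal (𝓞 K))⁰}
    (hA : span {α} = (A : Ideal (𝓞 K)) ^ p) (b : (ZMod p)ˣ) :
    classAction hζ b (Additive.ofMul (ClassGroup.mk0 A)) =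
      (((b ^ 2 : (ZMod p)ˣ) : ZMod p).val : ℤ) • Additive.ofMul (ClassGroup.mk0 A) := by
  have hαK : (α : K) ≠ 0 := RingOfIntegers.coe_ne_zero_iff.2 h.ne_zero
  obtain ⟨𝔞, h𝔞m⟩ := A
  have h𝔞0 : 𝔞 ≠ ⊥ := mem_nonZeroDivisors_iff_ne_zero.1 h𝔞m
  have h𝔞 : span {α} = 𝔞 ^ p := hA
  obtain ⟨γ, hγ⟩ := h.eigen b
  set k := ((b ^ 2 : (ZMod p)ˣ) : ZMod p).val
  rw [classAction_mk0, natCast_zsmul, ← ofMul_pow, ← map_pow]
  refine congrArg Additive.ofMul ((ClassGroup.mk0_eq_mk0_iff).2 ?_)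
  obtain ⟨r, s, hs, hrs⟩ := IsFractionRing.div_surjective (A := 𝓞 K) γ
  have hs0 : s ≠ 0 := nonZeroDivisors.ne_zero hs
  have hγ0 : γ ≠ 0 := fun e => by
    rw [e, zero_pow hp.out.ne_zero, mul_zero] at hγ
    exact hαK (by simpa using hγ)
  have hr0 : r ≠ 0 := fun e => hγ0 (by rw [← hrs, e, map_zero, zero_div])
  refine ⟨s, r, hs0, hr0, ?_⟩
  have hint : autInt (galAut hζ b) α * s ^ p = α ^ k * r ^ p := by
    apply RingOfIntegers.ext
    show galAut hζ b (α : K) * (s : K) ^ p = (α : K) ^ k * (r : K) ^ p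
    rw [hγ, ← hrs, mul_assoc, ← mul_pow,
      div_mul_cancel₀ _ (RingOfIntegers.coe_ne_zero_iff.2 hs0)]
  have heq : ((span {s}) * 𝔞.map (autInt (galAut hζ b))) ^ p = ((span {r}) * 𝔞 ^ k) ^ p := by
    rw [mul_pow, mul_pow, ← Ideal.map_pow, ← h𝔞, Ideal.map_span, Set.image_singleton,
      Ideal.span_singleton_pow, Ideal.span_singleton_mul_span_singleton, ← pow_mul, mul_comm k,
      pow_mul, ← h𝔞, Ideal.span_singleton_pow, Ideal.span_singleton_pow,
      Ideal.span_singleton_mul_span_singleton, mul_comm (s ^ p), hint, mul_comm (α ^ k)]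
  have hinj : ∀ {I J : Ideal (𝓞 K)}, I ≠ ⊥ → J ≠ ⊥ → I ^ p = J ^ p → I = J := fun hI hJ he =>
    dvd_antisymm
      (FLTAgent.Regular.ideal_dvd_of_pow_dvd_pow hp.out.ne_zero hI hJ he.dvd)
      (FLTAgent.Regular.ideal_dvd_of_pow_dvd_pow hp.out.ne_zero hJ hI he.symm.dvd)
  rw [SubmonoidClass.coe_pow, mapNonZero_val]
  refine hinj ?_ ?_ heq
  · rw [← Ideal.zero_eq_bot]
    refine mul_ne_zero ?_ ?_
    · simpa using hs0
    · exact fun e => h𝔞0 ((Ideal.map_eq_bot_iff_of_injective (f := autInt (galAut hζ b))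
        (autEquivInt (galAut hζ b)).injective).1 e)
  · rw [← Ideal.zero_eq_bot]
    refine mul_ne_zero ?_ (pow_ne_zero _ h𝔞0)
    simpa using hr0

include hK in
/-- For `p ≥ 5` a Kummer element yields a nonzero `ω²`-character of ideals modulo principal ones. -/
theorem exists_character_of_kummerElement (h5 : 5 ≤ p) {α : 𝓞 K} (h : IsKummerElement hζ α) :
    ∃ φ : Additive (ClassGroup (𝓞 K)) →+ ZMod p, φ ≠ 0 ∧
      ∀ b x, φ (classAction hζ b x) = ((b ^ 2 : (ZMod p)ˣ) : ZMod p) * φ x := by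
  obtain ⟨𝔞, h𝔞⟩ := h.divisor
  have h𝔞0 : 𝔞 ≠ ⊥ := fun e => h.ne_zero (by
    rw [e, ← Ideal.zero_eq_bot, zero_pow hp.out.ne_zero, Ideal.zero_eq_bot,
      Ideal.span_singleton_eq_bot] at h𝔞
    exact h𝔞)
  set A : (Ideal (𝓞 K))⁰ := ⟨𝔞, mem_nonZeroDivisors_iff_ne_zero.2 h𝔞0⟩ with hA
  set x : Additive (ClassGroup (𝓞 K)) := Additive.ofMul (ClassGroup.mk0 A) with hx
  have hx0 : x ≠ 0 := fun hx0 => not_isPrincipal_of_kummerElement hζ h5 h h𝔞
    ((ClassGroup.mk0_eq_one_iff A.2).1 (congrArg Additive.toMul hx0))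
  have hpx : (p : ℤ) • x = 0 := by
    rw [natCast_zsmul, hx, ← ofMul_pow, ← map_pow]
    refine congrArg Additive.ofMul ((ClassGroup.mk0_eq_one_iff (A ^ p).2).2 ⟨⟨α, ?_⟩⟩)
    rw [SubmonoidClass.coe_pow]
    exact h𝔞.symm
  obtain ⟨φ, hφ, hφeq⟩ := exists_eigen_character (classAction hζ) (powMonoidHom 2) hx0 hpx
    fun b => classAction_divisor hζ h (A := A) h𝔞 b
  exact ⟨φ, hφ, fun b y => hφeq b y⟩

end FLTAgent.ExtVanishing
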