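import Mathlib.LinearAlgebra.Dimension.Free
import Mathlib.LinearAlgebra.Dual.Lemmas
import Mathlib.Algebra.Module.ZMod
import Mathlib.LinearAlgebra.FreeModule.ModN
import Mathlib.GroupTheory.OrderOfElement
import Mathlib.Algebra.Field.ZMod
import Mathlib.FieldTheory.Finite.Basic
import Mathlib.Tactic.Module
import Mathlib.NumberTheory.Basic

/-!
# An eigen element of order `p` gives an eigen character mod `p`

For an abelian finite group `A` with an action of `(ℤ/p)ˣ` and `x` of order `p` in the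
eigenspace of a character `χ`, there is a nonzero `χ`-equivariant map `A → ℤ/p`.
-/

set_option autoImplicit false

namespace FLTAgent.ExtVanishing

/-- The Teichmüller-type lift of `χ b` modulo `p ^ N`. -/
noncomputable def eigenLift {p : ℕ} (χ : (ZMod p)ˣ →* (ZMod p)ˣ) (N : ℕ) (b : (ZMod p)ˣ) : ℤ :=
  (((χ b : ZMod p).val : ℤ)) ^ p ^ N

theorem eigenLift_cast {p : ℕ} [hp : Fact p.Prime] (χ : (ZMod p)ˣ →* (ZMod p)ˣ) (N : ℕ)
    (b : (ZMod p)ˣ) : (eigenLift χ N b : ZMod p) = (χ b : ZMod p) := by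
  simp [eigenLift, ZMod.pow_card_pow]

theorem eigenLift_mul {p : ℕ} [hp : Fact p.Prime] (χ : (ZMod p)ˣ →* (ZMod p)ˣ) (N : ℕ)
    (b c : (ZMod p)ˣ) :
    (p : ℤ) ^ (N + 1) ∣ eigenLift χ N (b * c) - eigenLift χ N b * eigenLift χ N c := by
  rw [eigenLift, eigenLift, eigenLift, ← mul_pow]
  refine dvd_sub_pow_of_dvd_sub ?_ N
  rw [← ZMod.intCast_zmod_eq_zero_iff_dvd]
  simp

theorem exists_eigen_character {p : ℕ} [hp : Fact p.Prime] {A : Type*} [AddCommGroup A] [Finite A]
    (ρ : (ZMod p)ˣ →* AddMonoid.End A) (χ : (ZMod p)ˣ →* (ZMod p)ˣ)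
    {x : A} (hx : x ≠ 0) (hpx : (p : ℤ) • x = 0)
    (hρx : ∀ b, ρ b x = ((χ b : ZMod p).val : ℤ) • x) :
    ∃ φ : A →+ ZMod p, φ ≠ 0 ∧ ∀ b y, φ (ρ b y) = (χ b : ZMod p) * φ y := by
  classical
  set N := Nat.card A with hN
  set t := eigenLift χ N with ht
  -- `p ^ (N + 1)` times anything has no `p`-torsion left
  have key : ∀ a : A, (p : ℤ) • ((p : ℤ) ^ (N + 1) • a) = 0 → (p : ℤ) ^ (N + 1) • a = 0 := by
    intro a ha
    have hd : addOrderOf a ∣ p ^ (N + 2) := by
      refine addOrderOf_dvd_iff_nsmul_eq_zero.2 ?_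
      rw [← natCast_zsmul, Nat.cast_pow, pow_succ', mul_smul]
      exact ha
    obtain ⟨i, hi, he⟩ := (Nat.dvd_prime_pow hp.out).1 hd
    have hle : p ^ i ≤ N := he ▸ Nat.le_of_dvd Nat.card_pos (addOrderOf_dvd_natCard a)
    have hiN : i ≤ N := ((Nat.lt_pow_self hp.out.one_lt).le).trans hle
    have hz : (p ^ i : ℕ) • a = 0 := he ▸ addOrderOf_nsmul_eq_zero a
    rw [show N + 1 = (N + 1 - i) + i by omega, pow_add, mul_smul]
    rw [show ((p : ℤ) ^ i) • a = (0 : A) by rw [← Nat.cast_pow, natCast_zsmul]; exact hz, smul_zero]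
  -- the idempotent up to a scalar
  set e : A →+ A :=
    { toFun := fun y => ∑ b : (ZMod p)ˣ, t b⁻¹ • ρ b y
      map_zero' := by simp
      map_add' := fun y z => by simp [smul_add, Finset.sum_add_distrib] } with he
  have e_apply : ∀ y, e y = ∑ b : (ZMod p)ˣ, t b⁻¹ • ρ b y := fun y => rfl
  have hshift : ∀ d y, ∃ w, e (ρ d y) = t d • e y + (p : ℤ) ^ (N + 1) • w := by
    intro d y
    choose k hk using fun b : (ZMod p)ˣ => eigenLift_mul χ N (b * d)⁻¹ d
    refine ⟨∑ b, k b • ρ (b * d) y, ?_⟩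
    rw [e_apply, e_apply, Finset.smul_sum, Finset.smul_sum]
    rw [← Equiv.sum_comp (Equiv.mulRight d) (fun b => t d • t b⁻¹ • ρ b y),
      ← Finset.sum_add_distrib]
    refine Finset.sum_congr rfl fun b _ => ?_
    have h1 := hk b
    have e1 : (b * d)⁻¹ * d = b⁻¹ := by simp
    rw [e1] at h1
    have e2 : ρ b (ρ d y) = ρ (b * d) y := by rw [map_mul]; rfl
    simp only [Equiv.coe_mulRight]
    rw [e2, ← mul_smul, ← mul_smul, ← add_smul]
    congr 1
    rw [← ht] at h1
    linear_combination h1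
  have hex : e x = ((p : ℤ) - 1) • x := by
    rw [e_apply]
    have : ∀ b : (ZMod p)ˣ, t b⁻¹ • ρ b x = (1 : ℤ) • x := by
      intro b
      rw [hρx, ← mul_smul]
      have hd : (p : ℤ) ∣ t b⁻¹ * ((χ b : ZMod p).val : ℤ) - 1 := by
        rw [← ZMod.intCast_zmod_eq_zero_iff_dvd]
        push_cast
        rw [ht, eigenLift_cast, ZMod.natCast_zmod_val, map_inv, Units.inv_mul, sub_self]
      obtain ⟨k, hk⟩ := hd
      rw [show t b⁻¹ * ((χ b : ZMod p).val : ℤ) = k * p + 1 by linear_combination hk, add_smul,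
        mul_smul, hpx, smul_zero, zero_add]
    rw [Finset.sum_congr rfl fun b _ => this b, Finset.sum_const, Finset.card_univ,
      ZMod.card_units, one_smul, ← natCast_zsmul, Nat.cast_sub hp.out.one_le, Nat.cast_one]
  -- the image of `e` is not in `p A`
  have hne : ∃ y, ∀ z, e y ≠ (p : ℤ) • z := by
    by_contra hall
    push Not at hall
    have hee : ∀ y, ∃ z w, ((p : ℤ) - 1) • e y = (p : ℤ) • e z + (p : ℤ) ^ (N + 1) • w := by
      intro y
      obtain ⟨z, hz⟩ := hall y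
      choose w hw using fun b : (ZMod p)ˣ => hshift b y
      choose k hk using fun b : (ZMod p)ˣ => eigenLift_mul χ N b⁻¹ b
      have ht1 : ∀ b : (ZMod p)ˣ, t b⁻¹ * t b = 1 - (p : ℤ) ^ (N + 1) * k b := by
        intro b
        have h1 := hk b
        rw [inv_mul_cancel] at h1
        have h11 : eigenLift χ N (1 : (ZMod p)ˣ) = 1 := by simp [eigenLift, ZMod.val_one]
        rw [h11] at h1
        rw [ht]
        linear_combination -h1
      refine ⟨z, (∑ b, k b • e y) - ∑ b, t b⁻¹ • w b, ?_⟩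
      have h2 : e (e y) = ∑ b, (t b⁻¹ • (t b • e y + (p : ℤ) ^ (N + 1) • w b)) := by
        conv_lhs => rw [e_apply y]
        rw [map_sum]
        exact Finset.sum_congr rfl fun b _ => by rw [map_zsmul, hw b]
      rw [show (p : ℤ) • e z = e (e y) by rw [hz, map_zsmul], h2]
      simp only [smul_add, ← mul_smul, ht1, sub_smul, one_smul, Finset.sum_add_distrib,
        Finset.sum_sub_distrib, smul_sub, Finset.smul_sum]
      rw [Finset.sum_const, Finset.card_univ, ZMod.card_units, ← natCast_zsmul,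
        Nat.cast_sub hp.out.one_le, Nat.cast_one]
      simp only [mul_smul, smul_comm (t _) ((p : ℤ) ^ (N + 1))]
      module
    have hiter : ∀ k : ℕ, k ≤ N + 1 → ∀ y, ∃ v, ((p : ℤ) - 1) ^ k • e y = (p : ℤ) ^ k • v := by
      intro k
      induction k with
      | zero => exact fun _ y => ⟨e y, by simp⟩
      | succ k ih =>
        intro hk y
        obtain ⟨z, w, hzw⟩ := hee y
        obtain ⟨v, hv⟩ := ih (by omega) z
        refine ⟨v + (((p : ℤ) - 1) ^ k * (p : ℤ) ^ (N - k)) • w, ?_⟩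
        rw [pow_succ, mul_smul, hzw, smul_add, smul_comm _ (p : ℤ), hv, smul_add, ← mul_smul,
          ← mul_smul, ← mul_smul, ← mul_assoc]
        congr 2
        · ring
        · rw [mul_comm _ ((p : ℤ) ^ (N + 1)), show N + 1 = (k + 1) + (N - k) by omega, pow_add]
          ring
    obtain ⟨v, hv⟩ := hiter (N + 1) le_rfl x
    rw [hex, ← mul_smul, ← pow_succ] at hv
    have h0 : (p : ℤ) ^ (N + 1) • v = 0 := key v (by rw [← hv, smul_comm, hpx, smul_zero])
    rw [h0] at hv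
    obtain ⟨k, hk⟩ : (p : ℤ) ∣ ((p : ℤ) - 1) ^ (N + 1 + 1) - (-1) ^ (N + 1 + 1) :=
      dvd_trans ⟨1, by ring⟩ (sub_dvd_pow_sub_pow _ _ _)
    have h1 : ((-1 : ℤ) ^ (N + 1 + 1)) • x = 0 := by
      rw [show ((-1 : ℤ) ^ (N + 1 + 1)) = ((p : ℤ) - 1) ^ (N + 1 + 1) - k * p by
        linear_combination -hk, sub_smul, mul_smul, hpx, hv, smul_zero, sub_zero]
    rcases neg_one_pow_eq_or ℤ (N + 1 + 1) with h2 | h2 <;> rw [h2] at h1 <;> simp [hx] at h1
  obtain ⟨y₀, hy₀⟩ := hne
  -- reduce modulo `p`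
  have hy₀' : ModN.mkQ p (e y₀) ≠ 0 := by
    intro h
    obtain ⟨z, hz⟩ := (Submodule.Quotient.mk_eq_zero _).1 h
    exact hy₀ z (by simpa using hz.symm)
  obtain ⟨f, hf⟩ : ∃ f : Module.Dual (ZMod p) (ModN A p), f (ModN.mkQ p (e y₀)) ≠ 0 := by
    by_contra hall
    push Not at hall
    exact hy₀' ((Module.forall_dual_apply_eq_zero_iff (ZMod p) _).1 hall)
  refine ⟨(f.toAddMonoidHom.comp (ModN.mkQ p)).comp e, ?_, ?_⟩
  · intro h
    exact hf (DFunLike.congr_fun h y₀)
  · intro b y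
    obtain ⟨w, hw⟩ := hshift b y
    simp only [AddMonoidHom.comp_apply, hw, map_add, map_zsmul]
    rw [zsmul_eq_mul, zsmul_eq_mul]
    rw [ht, eigenLift_cast]
    simp

end FLTAgent.ExtVanishing
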