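import Fermat.Agent.ExtVanishing.Cocycle
import Fermat.Agent.ExtVanishing.Places
import Fermat.Agent.ExtVanishing.SplitPrime
import Fermat.Agent.ExtVanishing.IdealEuler
import Fermat.Agent.ExtVanishing.Descent

/-!
# The Kummer element of a non-split admissible extension

The Lagrange resolvent `β` of an extension cocycle (`IsExtCocycle.exists_resolvent`) gives the
Kummer element `α = β ^ p` of the cyclotomic field `cycField ζ` (`exists_kummerElement`), which
`Descent` and `CharDensity` rule out. Used by the proof of S14.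
-/

set_option autoImplicit false
set_option maxSynthPendingDepth 3

noncomputable section

open NumberField
open scoped Pointwise nonZeroDivisors

namespace FLTAgent.ExtVanishing

open FLTAgent.Density (Qbar GalQ Zbar primeBelow)

variable {p : ℕ} [hp : Fact p.Prime]

theorem pow_val_add {M : Type*} [Monoid M] {ζ : M} (hζ : ζ ^ p = 1) (a b : ZMod p) :
    ζ ^ (a + b).val = ζ ^ a.val * ζ ^ b.val := by
  have : NeZero p := ⟨hp.out.ne_zero⟩
  rw [ZMod.val_add, ← pow_add]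
  exact (pow_eq_pow_mod _ hζ).symm

theorem pow_val_mul {M : Type*} [Monoid M] {ζ : M} (hζ : ζ ^ p = 1) (a b : ZMod p) :
    ζ ^ (a * b).val = (ζ ^ a.val) ^ b.val := by
  rw [ZMod.val_mul, ← pow_mul]
  exact (pow_eq_pow_mod _ hζ).symm

section Cocycle

variable {c : GalQ → ZMod p} (hc : IsExtCocycle p c)

include hc

theorem IsExtCocycle.map_one : c 1 = 0 := by
  have h := hc.map_mul 1 1
  rw [cycChar_one, one_mul, one_mul] at h
  exact left_eq_add.1 h

theorem IsExtCocycle.map_conj {σ h : GalQ} (hh : cycChar p h = 1) :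
    cycChar p (σ⁻¹ * (h * σ)) = 1 ∧ c (σ⁻¹ * (h * σ)) = cycChar p σ * c h := by
  have h1 : cycChar p σ⁻¹ * cycChar p σ = 1 := by
    rw [← cycChar_mul, inv_mul_cancel, cycChar_one]
  have h2 : cycChar p σ * c σ⁻¹ + c σ = 0 := by
    rw [← hc.map_mul, inv_mul_cancel, hc.map_one]
  refine ⟨by rw [cycChar_mul, cycChar_mul, hh, one_mul, h1], ?_⟩
  rw [hc.map_mul, hc.map_mul, cycChar_mul, hh, one_mul]
  linear_combination h2

/-- The Lagrange resolvent. -/
theorem IsExtCocycle.exists_resolvent {ζ : Qbar} (hζ : IsPrimitiveRoot ζ p) :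
    ∃ β : Qbar, β ≠ 0 ∧ IsIntegral ℤ β ∧
      ∀ σ : GalQ, cycChar p σ = 1 → σ β = ζ ^ (c σ).val * β := by
  classical
  obtain ⟨E, hfin, hnor, hE⟩ := (krullTopology_mem_nhds_one_iff_of_normal ℚ Qbar _).1
    (hc.isOpen.mem_nhds ⟨cycChar_one p, hc.map_one⟩)
  have := hfin
  have : Normal ℚ E := by convert hnor using 1; exact Subsingleton.elim _ _
  have : IsGalois ℚ E := ⟨⟩
  obtain ⟨ext, hext⟩ : ∃ ext : (E ≃ₐ[ℚ] E) → GalQ,
      ∀ g (y : E), ext g (y : Qbar) = ((g y : E) : Qbar) :=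
    ⟨fun g => g.liftNormal Qbar, fun g y => AlgEquiv.liftNormal_commutes g Qbar y⟩
  have hwd : ∀ σ τ : GalQ, (∀ y : E, σ (y : Qbar) = τ (y : Qbar)) →
      cycChar p σ = cycChar p τ ∧ c σ = c τ := by
    intro σ τ h
    have hmem : τ⁻¹ * σ ∈ E.fixingSubgroup := by
      intro y
      change τ⁻¹ (σ (y : Qbar)) = (y : Qbar)
      rw [h y, ← AlgEquiv.mul_apply, inv_mul_cancel, AlgEquiv.one_apply]
    obtain ⟨h1, h2⟩ : cycChar p (τ⁻¹ * σ) = 1 ∧ c (τ⁻¹ * σ) = 0 := hE hmem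
    have e : σ = τ * (τ⁻¹ * σ) := (mul_inv_cancel_left τ σ).symm
    constructor
    · rw [e, cycChar_mul, h1, mul_one]
    · rw [e, hc.map_mul, h1, h2, one_mul, add_zero]
  let ω : (E ≃ₐ[ℚ] E) → Qbar := fun g =>
    if cycChar p (ext g) = 1 then ζ ^ (-(c (ext g))).val else 0
  -- independence of characters
  obtain ⟨x, hx⟩ : ∃ x : E, ∑ g : E ≃ₐ[ℚ] E, ω g * ((g x : E) : Qbar) ≠ 0 := by
    by_contra hall
    push Not at hall
    have hli : LinearIndependent Qbar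
        fun g : E ≃ₐ[ℚ] E => (E.val.comp g.toAlgHom).toLinearMap :=
      (linearIndependent_toLinearMap ℚ E Qbar).comp _ fun g g' h =>
        AlgEquiv.ext fun y => Subtype.ext (AlgHom.congr_fun h y)
    have h0 := Fintype.linearIndependent_iff.1 hli ω (LinearMap.ext fun y => by
      simp only [LinearMap.coe_sum, Finset.sum_apply, LinearMap.smul_apply,
        AlgHom.toLinearMap_apply, smul_eq_mul, LinearMap.zero_apply]
      exact hall y) 1
    obtain ⟨e1, e2⟩ := hwd (ext 1) 1 fun y => hext 1 y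
    simp only [ω, e1, e2, cycChar_one, hc.map_one, if_true, neg_zero, ZMod.val_zero,
      pow_zero] at h0
    exact one_ne_zero h0
  set β₀ : Qbar := ∑ g : E ≃ₐ[ℚ] E, ω g * ((g x : E) : Qbar) with hβ₀
  have hσβ : ∀ σ : GalQ, cycChar p σ = 1 → σ β₀ = ζ ^ (c σ).val * β₀ := by
    intro σ hσ
    have hσζ := (cycChar_eq_one_iff p hζ σ).1 hσ
    have hω : ∀ g, σ (ω g) = ω g := fun g => by
      simp only [ω]
      split_ifs
      · rw [map_pow, hσζ]
      · rw [_root_.map_zero]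
    set r : E ≃ₐ[ℚ] E := σ.restrictNormal E
    have hr : ∀ y : E, σ (y : Qbar) = ((r y : E) : Qbar) := fun y =>
      (AlgEquiv.restrictNormal_commutes σ E y).symm
    rw [hβ₀, map_sum, Finset.mul_sum]
    refine Fintype.sum_equiv (Equiv.mulLeft r) _ _ fun g => ?_
    rw [_root_.map_mul, hω, hr, Equiv.coe_mulLeft, AlgEquiv.mul_apply, ← mul_assoc]
    congr 1
    obtain ⟨e1, e2⟩ := hwd (ext (r * g)) (σ * ext g) fun y => by
      rw [hext, AlgEquiv.mul_apply, AlgEquiv.mul_apply, hext, hr]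
    simp only [ω, e1, e2, cycChar_mul, hσ, one_mul]
    split_ifs with hg
    · rw [← pow_val_add hζ.pow_eq_one, hc.map_mul, hg, one_mul]
      congr 2
      ring
    · rw [mul_zero]
  obtain ⟨n, hn, hint⟩ := ((IsFractionRing.isAlgebraic_iff ℤ ℚ Qbar).2
    (Algebra.IsAlgebraic.isAlgebraic β₀)).exists_integral_multiple
  refine ⟨n • β₀, smul_ne_zero hn hx, hint, fun σ hσ => ?_⟩
  rw [map_zsmul, hσβ σ hσ, mul_smul_comm]

end Cocycle

/-- The field `ℚ(ζ)` inside `ℚbar`. -/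
abbrev cycField (ζ : Qbar) : IntermediateField ℚ Qbar := IntermediateField.adjoin ℚ {ζ}

theorem mem_adjoin_of_fixed {ζ : Qbar} (hζ : IsPrimitiveRoot ζ p) {x : Qbar}
    (hx : ∀ σ : GalQ, cycChar p σ = 1 → σ x = x) : x ∈ IntermediateField.adjoin ℚ {ζ} := by
  rw [← InfiniteGalois.fixedField_fixingSubgroup (IntermediateField.adjoin ℚ {ζ}),
    IntermediateField.mem_fixedField_iff]
  intro σ hσ
  exact hx σ ((cycChar_eq_one_iff p hζ σ).2
    (hσ ⟨ζ, IntermediateField.subset_adjoin ℚ _ rfl⟩))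

theorem apply_eq_of_mem_adjoin {S : Set Qbar} {σ : GalQ} (h : ∀ s ∈ S, σ s = s) {x : Qbar}
    (hx : x ∈ IntermediateField.adjoin ℚ S) : σ x = x := by
  induction hx using IntermediateField.adjoin_induction with
  | mem s hs => exact h s hs
  | algebraMap r => exact σ.commutes r
  | add a b _ _ ha hb => rw [map_add, ha, hb]
  | inv a _ ha => rw [map_inv₀, ha]
  | mul a b _ _ ha hb => rw [map_mul, ha, hb]

theorem exists_span_eq_pow {K : Type*} [Field K] [NumberField K] {α : 𝓞 K} (hα : α ≠ 0) {n : ℕ}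
    (h : ∀ q : PrimeIdeals K, ∃ m : ℕ, emultiplicity q.1 (Ideal.span {α}) = (n * m : ℕ)) :
    ∃ 𝔞 : Ideal (𝓞 K), Ideal.span {α} = 𝔞 ^ n := by
  classical
  have h0 : Ideal.span {α} ≠ (0 : Ideal (𝓞 K)) := by simpa using hα
  obtain ⟨u, hu⟩ := Multiset.exists_smul_of_dvd_count
    (UniqueFactorizationMonoid.normalizedFactors (Ideal.span {α})) (k := n) fun q hq => by
      have hqp := UniqueFactorizationMonoid.prime_of_normalized_factor q hq
      obtain ⟨m, hm⟩ := h ⟨q, Ideal.isPrime_of_prime hqp, hqp.ne_zero⟩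
      rw [UniqueFactorizationMonoid.emultiplicity_eq_count_normalizedFactors hqp.irreducible h0,
        normalize_eq] at hm
      exact ⟨m, Nat.cast_inj.1 hm⟩
  refine ⟨u.prod, ?_⟩
  have hprod := congrArg Multiset.prod hu
  rw [Multiset.prod_nsmul] at hprod
  rw [← hprod]
  exact (associated_iff_eq.1 (UniqueFactorizationMonoid.prod_normalizedFactors h0)).symm

section Field

variable {c : GalQ → ZMod p} (hc : IsExtCocycle p c) {ζ β : Qbar} (hζ : IsPrimitiveRoot ζ p)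
  (hβ0 : β ≠ 0) (hβ : ∀ σ : GalQ, cycChar p σ = 1 → σ β = ζ ^ (c σ).val * β)

include hζ hβ hβ0

theorem apply_eq_self_iff (σ : GalQ) :
    (σ ζ = ζ ∧ σ β = β) ↔ cycChar p σ = 1 ∧ c σ = 0 := by
  constructor
  · rintro ⟨h1, h2⟩
    have hχ := (cycChar_eq_one_iff p hζ σ).2 h1
    refine ⟨hχ, ?_⟩
    rw [hβ σ hχ, mul_eq_right₀ hβ0] at h2
    by_contra h0
    exact hζ.pow_ne_one_of_pos_of_lt ((ZMod.val_eq_zero _).not.2 h0) (ZMod.val_lt _) h2
  · rintro ⟨h1, h2⟩
    exact ⟨(cycChar_eq_one_iff p hζ σ).1 h1, by rw [hβ σ h1, h2, ZMod.val_zero, pow_zero, one_mul]⟩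

theorem mem_fixingSubgroup_adjoin_iff (σ : GalQ) :
    σ ∈ (IntermediateField.adjoin ℚ ({ζ, β} : Set Qbar)).fixingSubgroup ↔
      cycChar p σ = 1 ∧ c σ = 0 := by
  rw [← apply_eq_self_iff hζ hβ0 hβ]
  constructor
  · intro h
    exact ⟨h ⟨ζ, IntermediateField.subset_adjoin ℚ _ (Or.inl rfl)⟩,
      h ⟨β, IntermediateField.subset_adjoin ℚ _ (Or.inr rfl)⟩⟩
  · rintro ⟨h1, h2⟩ ⟨x, hx⟩
    refine apply_eq_of_mem_adjoin ?_ hx
    rintro s (rfl | rfl)
    exacts [h1, h2]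

include hc in
theorem isGalois_adjoin : IsGalois ℚ (IntermediateField.adjoin ℚ ({ζ, β} : Set Qbar)) := by
  suffices h : (IntermediateField.adjoin ℚ ({ζ, β} : Set Qbar)).fixingSubgroup.Normal by
    convert (InfiniteGalois.normal_iff_isGalois _).1 h using 1
    exact Subsingleton.elim _ _
  refine ⟨fun n hn g => ?_⟩
  rw [mem_fixingSubgroup_adjoin_iff hζ hβ0 hβ] at hn ⊢
  obtain ⟨h1, h2⟩ := hc.map_conj (σ := g⁻¹) hn.1
  rw [inv_inv, hn.2, mul_zero, ← mul_assoc] at h2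
  rw [inv_inv, ← mul_assoc] at h1
  exact ⟨h1, h2⟩

include hc in
/-- A Kummer element, from the resolvent. -/
theorem exists_kummerElement [NumberField (cycField ζ)]
    [IsCyclotomicExtension {p} ℚ (cycField ζ)]
    {ζK : cycField ζ} (hζK : IsPrimitiveRoot ζK p)
    (hζval : (ζK : Qbar) = ζ) (hβint : IsIntegral ℤ β) :
    ∃ α : 𝓞 (cycField ζ), IsKummerElement hζK α := by
  let K : IntermediateField ℚ Qbar := cycField ζ
  set L : IntermediateField ℚ Qbar := IntermediateField.adjoin ℚ ({ζ, β} : Set Qbar) with hL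
  have hKL : K ≤ L := IntermediateField.adjoin.mono ℚ _ _ (by simp)
  have hαmem : β ^ p ∈ K := mem_adjoin_of_fixed hζ fun σ hσ => by
    rw [map_pow, hβ σ hσ, mul_pow, ← pow_mul, mul_comm (c σ).val p, pow_mul,
      hζ.pow_eq_one, one_pow, one_mul]
  have hαint : IsIntegral ℤ (⟨β ^ p, hαmem⟩ : K) :=
    (isIntegral_algHom_iff (K.val.restrictScalars ℤ) Subtype.val_injective).1 (hβint.pow p)
  set α : 𝓞 K := ⟨⟨β ^ p, hαmem⟩, hαint⟩ with hα
  have hα0 : α ≠ 0 := fun h => pow_ne_zero p hβ0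
    (congrArg (fun z : 𝓞 K => ((z : K) : Qbar)) h :)
  -- the field `L`
  have : FiniteDimensional ℚ L := IntermediateField.finiteDimensional_adjoin
    fun x _ => Algebra.IsIntegral.isIntegral x
  have : IsGalois ℚ L := isGalois_adjoin hc hζ hβ0 hβ
  have : NumberField L := { }
  let : Algebra K L := (IntermediateField.inclusion hKL).toRingHom.toAlgebra
  have : IsScalarTower ℚ K L := IsScalarTower.of_algebraMap_eq fun x =>
    ((IntermediateField.inclusion hKL).commutes x).symm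
  have : IsGalois K L := IsGalois.tower_top_of_isGalois ℚ K L
  have hval : ∀ x : K, ((algebraMap K L x : L) : Qbar) = (x : Qbar) := fun _ => rfl
  have hβL : β ∈ L := IntermediateField.subset_adjoin ℚ _ (Or.inr rfl)
  set βL : 𝓞 L := ⟨⟨β, hβL⟩,
    (isIntegral_algHom_iff (L.val.restrictScalars ℤ) Subtype.val_injective).1 hβint⟩ with hβL'
  have hαβ : algebraMap (𝓞 K) (𝓞 L) α = βL ^ p :=
    RingOfIntegers.ext (Subtype.ext rfl)
  have hfixK : ∀ (τ : L ≃ₐ[K] L) (σ : GalQ),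
      (∀ y : L, σ (y : Qbar) = ((τ y : L) : Qbar)) → cycChar p σ = 1 := fun τ σ h => by
    refine (cycChar_eq_one_iff p hζ σ).2 ?_
    have := h (algebraMap K L ζK)
    rwa [τ.commutes, hval, hζval] at this
  have hone : ∀ (τ : L ≃ₐ[K] L) (σ : GalQ), (∀ y : L, σ (y : Qbar) = ((τ y : L) : Qbar)) →
      cycChar p σ = 1 → c σ = 0 → τ = 1 := fun τ σ h h1 h2 => AlgEquiv.ext fun y =>
    Subtype.ext ((h y).symm.trans ((mem_fixingSubgroup_adjoin_iff hζ hβ0 hβ σ).2 ⟨h1, h2⟩ y))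
  -- the stabilizers at `p` and the inertia groups are trivial
  have hstab : ∀ Q : Ideal (𝓞 L), Q.IsPrime → (p : 𝓞 L) ∈ Q →
      ∀ τ : L ≃ₐ[K] L, τ • Q = Q → τ = 1 := by
    intro Q hQ hpQ τ hτ
    obtain ⟨A, hA, hAQ⟩ := exists_place_over L hp.out Q hpQ
    obtain ⟨σ, hσ, hσL⟩ := exists_decomposition_lift hp.out hA hAQ (τ.restrictScalars ℚ) hτ
    exact hone τ σ hσL (hfixK τ σ hσL) (hc.decomposition A hA σ hσ (hfixK τ σ hσL))
  have hinert : ∀ Q : Ideal (𝓞 L), Q.IsPrime → ∀ ℓ : ℕ, ℓ.Prime → (ℓ : 𝓞 L) ∈ Q →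
      Q.inertia (L ≃ₐ[K] L) = ⊥ := by
    intro Q hQ ℓ hℓ hℓQ
    by_cases hℓp : ℓ = p
    · exact inertia_eq_bot_of_stabilizer (hstab Q hQ (hℓp ▸ hℓQ))
    · refine (Subgroup.eq_bot_iff_forall _).2 fun τ hτ => ?_
      obtain ⟨A, hA, hAQ⟩ := exists_place_over L hℓ Q hℓQ
      obtain ⟨σ, hσ, hσL⟩ := exists_inertia_lift hℓ hA hAQ
        (show τ.restrictScalars ℚ ∈ Q.inertia (L ≃ₐ[ℚ] L) from hτ)
      obtain ⟨h1, h2⟩ := hc.inertia ℓ hℓ hℓp A hA σ hσ
      exact hone τ σ hσL h1 h2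
  refine ⟨α, ⟨hα0, ?_, ?_, ?_, ?_⟩⟩
  · intro y hy
    obtain ⟨σ, hσ1, hσc⟩ := hc.exists_eq_one
    have hy' : (y : Qbar) ^ p = β ^ p := congrArg (fun z : K => (z : Qbar)) hy
    have hσy : σ (y : Qbar) = (y : Qbar) :=
      apply_eq_of_mem_adjoin (fun s hs => by
        rw [Set.mem_singleton_iff.1 hs]
        exact (cycChar_eq_one_iff p hζ σ).1 hσ1) y.2
    obtain ⟨i, -, hi⟩ := hζ.eq_pow_of_pow_eq_one (ξ := β / (y : Qbar)) (by
      rw [div_pow, hy', div_self (pow_ne_zero _ hβ0)])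
    have hy0 : (y : Qbar) ≠ 0 := fun h => pow_ne_zero p hβ0
      (by rw [← hy', h, zero_pow hp.out.ne_zero])
    have hσβ : σ β = β := by
      rw [← div_mul_cancel₀ β hy0, ← hi, map_mul, map_pow, hσy, (cycChar_eq_one_iff p hζ σ).1 hσ1]
    have := ((apply_eq_self_iff hζ hβ0 hβ σ).1 ⟨(cycChar_eq_one_iff p hζ σ).1 hσ1, hσβ⟩).2
    rw [hσc] at this
    exact one_ne_zero this
  · intro b
    set σ : GalQ := (galAut hζK b).liftNormal Qbar with hσdef
    have hσK : ∀ x : K, σ (x : Qbar) = ((galAut hζK b x : K) : Qbar) := fun x =>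
      AlgEquiv.liftNormal_commutes (galAut hζK b) Qbar x
    have hχ : cycChar p σ = (b : ZMod p) := by
      have h := hσK ζK
      rw [galAut_spec, hζval, IntermediateField.coe_pow, hζval, apply_primitiveRoot p hζ σ] at h
      exact ZMod.val_injective p (hζ.pow_inj (ZMod.val_lt _) (ZMod.val_lt _) h)
    set k : ℕ := ((b ^ 2 : (ZMod p)ˣ) : ZMod p).val with hk
    have hβk : β ^ k ≠ 0 := pow_ne_zero _ hβ0
    have hγ : σ β / β ^ k ∈ K := mem_adjoin_of_fixed hζ fun h hh => by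
      obtain ⟨h1, h2⟩ := hc.map_conj (σ := σ) hh
      have e : h (σ β) = σ ((σ⁻¹ * (h * σ)) β) := by
        rw [← AlgEquiv.mul_apply, ← AlgEquiv.mul_apply, mul_inv_cancel_left]
      rw [map_div₀, map_pow, hβ h hh, e, hβ _ h1, h2, map_mul, map_pow,
        apply_primitiveRoot p hζ σ, hχ, mul_pow, hk, ← pow_val_mul hζ.pow_eq_one,
        ← pow_val_mul hζ.pow_eq_one, Units.val_pow_eq_pow_val,
        show (b : ZMod p) * ((b : ZMod p) * c h) = c h * (b : ZMod p) ^ 2 by ring,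
        mul_div_mul_left _ _ (pow_ne_zero _ (hζ.ne_zero hp.out.ne_zero))]
    refine ⟨⟨σ β / β ^ k, hγ⟩, Subtype.ext ?_⟩
    rw [← hσK, IntermediateField.coe_mul, IntermediateField.coe_pow, IntermediateField.coe_pow]
    show σ (β ^ p) = (β ^ p) ^ k * (σ β / β ^ k) ^ p
    rw [map_pow, div_pow, ← pow_mul, ← pow_mul, mul_comm k p, mul_div_cancel₀]
    exact pow_ne_zero _ hβ0
  · refine exists_span_eq_pow hα0 fun q => ?_
    have := q.2.1
    obtain ⟨⟨Q, hQp, hQo⟩⟩ := Ideal.nonempty_primesOver (P := q.1) (S := 𝓞 L)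
    have := hQo
    have := hQp
    have hQ0 : Q ≠ ⊥ := Ideal.ne_bot_of_liesOver_of_ne_bot q.2.2 Q
    obtain ⟨ℓ, hℓq, -⟩ := q.exists_prime_below
    have hℓQ : ((ℓ : ℕ) : 𝓞 L) ∈ Q := by
      have := (Ideal.mem_of_liesOver Q q.1 _).1 hℓq
      rwa [map_natCast] at this
    have hem := emultiplicity_algebraMap (M := L) q.2.2 (Q := Q) hQ0 hα0
    rw [hinert Q hQp ℓ ℓ.2 hℓQ, Subgroup.card_bot, Nat.cast_one, one_mul, hαβ,
      ← Ideal.span_singleton_pow, emultiplicity_pow (Ideal.prime_of_isPrime hQ0 hQp)] at hem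
    have hβL0 : βL ≠ 0 := fun h => hβ0 (congrArg (fun z : 𝓞 L => ((z : L) : Qbar)) h :)
    obtain ⟨m, hm⟩ := exists_emultiplicity_eq hQ0 hβL0
    exact ⟨m, by rw [← hem, hm]; push_cast; rfl⟩
  · intro N
    set π : 𝓞 K := hζK.toInteger - 1
    have hπ : Prime π := hζK.zeta_sub_one_prime'
    set q : Ideal (𝓞 K) := Ideal.span {π} with hq
    have : q.IsPrime := (Ideal.span_singleton_prime hπ.ne_zero).2 hπ
    have hq0 : q ≠ ⊥ := by simpa [hq] using hπ.ne_zero
    obtain ⟨⟨Q, hQp, hQo⟩⟩ := Ideal.nonempty_primesOver (P := q) (S := 𝓞 L)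
    have := hQo
    have := hQp
    have hQ0 : Q ≠ ⊥ := Ideal.ne_bot_of_liesOver_of_ne_bot hq0 Q
    have hpQ : (p : 𝓞 L) ∈ Q := by
      have := (Ideal.mem_of_liesOver Q q _).1 (Ideal.mem_span_singleton.2
        (hζK.toInteger_isPrimitiveRoot.sub_one_dvd_natCast hp.out.one_lt))
      rwa [map_natCast] at this
    obtain ⟨y, hy⟩ := exists_sub_mem_pow hQ0 (hstab Q hQp hpQ) βL N
    refine ⟨y, ?_⟩
    rw [← Ideal.mem_span_singleton, ← Ideal.span_singleton_pow]
    refine mem_pow_of_algebraMap_mem hq0 hQ0 (hstab Q hQp hpQ) ?_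
    rw [map_sub, map_pow, hαβ]
    exact Ideal.mem_of_dvd _ (sub_dvd_pow_sub_pow _ _ p) hy

end Field

end FLTAgent.ExtVanishing
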