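import Fermat.Agent.ExtVanishing.Kummer
import Fermat.Agent.ExtVanishing.CharDensity
import Fermat.Prelude.Def_ExtCitation_AdmissibleExtension_v2

/-!
# Vanishing of extensions of `ℤ/p` by `μ_p`

`extVanishingCts`: a non-split admissible extension has a Kummer element, hence an `ω²` character
of the class group, which does not exist. Used by S14 and `IsogenyDescent.Chain`.
-/

set_option autoImplicit false

namespace FLTAgent.ExtVanishing

/-- **Every admissible extension of `ℤ/p` by `μ_p` splits.** -/
theorem extVanishingCts {p : ℕ} [Fact p.Prime] (h3 : 3 ≤ p) : ExtCitation.ExtVanishingCts p := by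
  intro V _ _ _ _ C hV
  by_contra hns
  obtain ⟨c, hc⟩ := exists_extCocycle p h3 hV hns
  have : NeZero p := ⟨(Fact.out : p.Prime).ne_zero⟩
  obtain ⟨ζ, hζ⟩ := HasEnoughRootsOfUnity.exists_primitiveRoot (AlgebraicClosure ℚ) p
  obtain ⟨β, hβ0, hβint, hβ⟩ := hc.exists_resolvent hζ
  have : FiniteDimensional ℚ (cycField ζ) :=
    IntermediateField.adjoin.finiteDimensional (Algebra.IsIntegral.isIntegral ζ)
  have : NumberField (cycField ζ) := { }
  have : IsCyclotomicExtension {p} ℚ (cycField ζ) := by
    convert hζ.intermediateField_adjoin_isCyclotomicExtension ℚ <;>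
      rfl
  have hζK : IsPrimitiveRoot
      (⟨ζ, IntermediateField.subset_adjoin ℚ _ rfl⟩ : cycField ζ) p :=
    IsPrimitiveRoot.coe_submonoidClass_iff.1 hζ
  obtain ⟨α, hα⟩ :=
    exists_kummerElement hc hζ hβ0 hβ hζK rfl hβint
  rcases eq_or_lt_of_le h3 with h | h
  · exact false_of_kummerElement_three hζK h.symm hα
  · have h5 : 5 ≤ p := by
      have hp : p.Prime := Fact.out
      rcases Nat.lt_or_ge p 5 with h' | h'
      · interval_cases p
        exact absurd hp (by norm_num)
      · exact h'
    obtain ⟨φ, hφ, heig⟩ :=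
      exists_character_of_kummerElement hζK h5 hα
    exact hφ (eigen_character_eq_zero hζK φ h5 heig)

end FLTAgent.ExtVanishing
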