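import Mathlib.NumberTheory.NumberField.Norm
import Mathlib.NumberTheory.RamificationInertia.Galois
import Mathlib.NumberTheory.RamificationInertia.Ramification
import Mathlib.RingTheory.RamificationInertia.Ramification
import Mathlib.NumberTheory.Cyclotomic.Gal
import Mathlib.NumberTheory.NumberField.Cyclotomic.Basic
import Mathlib.RepresentationTheory.Homological.GroupCohomology.Hilbert90
import Mathlib.RingTheory.RootsOfUnity.CyclotomicUnits

/-!
# The auxiliary field `K(ζ_l)` of Thaine's argument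

For a prime `l` and an `l`-th root of unity `η` generating `M` over `K` we show: primes not over
`l` are unramified; above a prime over `l` of ramification one, `η - 1` is a uniformiser and the
extension is totally ramified. From a `β` with `s β = ξ β`, `ξ` a unit, we read off the
multiplicities of the norm of `β`.
-/

set_option autoImplicit false
set_option maxSynthPendingDepth 3

open NumberField Ideal

namespace FLTAgent.ExtVanishing

variable {K M : Type*} [Field K] [Field M] [NumberField K] [NumberField M] [Algebra K M]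
  [IsGalois K M] {l : ℕ} [hl : Fact l.Prime] [hM : IsCyclotomicExtension {l} K M]
  {η : 𝓞 M} (hη : IsPrimitiveRoot η l)

include hη in
omit hM [IsGalois K M] [NumberField M] hl in
theorem coe_eta_isPrimitiveRoot : IsPrimitiveRoot (η : M) l :=
  hη.map_of_injective RingOfIntegers.coe_injective

include hη hM in
omit [IsGalois K M] [NumberField K] [NumberField M] in
theorem aut_ext_eta {σ τ : M ≃ₐ[K] M} (h : σ • η = τ • η) : σ = τ := by
  have : NeZero l := ⟨hl.out.ne_zero⟩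
  have h' : σ (η : M) = τ (η : M) := congrArg (fun x : 𝓞 M => (x : M)) h
  have : σ.toAlgHom = τ.toAlgHom := by
    apply ((coe_eta_isPrimitiveRoot hη).powerBasis K).algHom_ext
    rw [IsPrimitiveRoot.powerBasis_gen]
    exact h'
  exact AlgEquiv.ext fun x => AlgHom.congr_fun this x

include hη in
omit hM [IsGalois K M] [NumberField K] [NumberField M] in
theorem smul_eta_eq_pow (σ : M ≃ₐ[K] M) : ∃ i, i < l ∧ σ • η = η ^ i := by
  have : NeZero l := ⟨hl.out.ne_zero⟩
  obtain ⟨i, hi, h⟩ := hη.eq_pow_of_pow_eq_one (ξ := σ • η)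
    (by rw [← smul_pow', hη.pow_eq_one, smul_one])
  exact ⟨i, hi, h.symm⟩

include hη hM in
omit [IsGalois K M] [NumberField K] [NumberField M] in
theorem card_aut_le : Nat.card (M ≃ₐ[K] M) ≤ l - 1 := by
  have : NeZero l := ⟨hl.out.ne_zero⟩
  have h := Nat.card_le_card_of_injective _
    ((coe_eta_isPrimitiveRoot hη).autToPow_injective (K := K))
  rwa [Nat.card_eq_fintype_card (α := (ZMod l)ˣ), ZMod.card_units] at h

include hη hM in
omit [IsGalois K M] [NumberField K] [NumberField M] in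
/-- Inertia is trivial away from `l`. -/
theorem inertia_eq_bot {Q : Ideal (𝓞 M)} [Q.IsPrime] (hQ : (l : 𝓞 M) ∉ Q) :
    Q.inertia (M ≃ₐ[K] M) = ⊥ := by
  refine (Subgroup.eq_bot_iff_forall _).2 fun σ hσ => aut_ext_eta hη (τ := 1) ?_
  rw [one_smul]
  obtain ⟨i, hi, h⟩ := smul_eta_eq_pow hη σ
  by_contra hne
  have hd : η - 1 ∣ (l : 𝓞 M) := hη.sub_one_dvd_natCast hl.out.one_lt
  have hmem : η ^ i - η ∈ Q := by rw [← h]; exact hσ η
  rcases Nat.lt_or_ge i 1 with h0 | h1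
  · obtain rfl : i = 0 := by omega
    have hη1 : η - 1 ∈ Q := by
      have := Q.neg_mem hmem
      rwa [pow_zero, neg_sub] at this
    obtain ⟨t, ht⟩ := hd
    exact hQ (ht ▸ Q.mul_mem_right t hη1)
  · have hi1 : i ≠ 1 := fun e => hne (by rw [h, e, pow_one])
    have hcop : Nat.Coprime (i - 1) l :=
      ((hl.out.coprime_iff_not_dvd).2 fun hdvd => by
        have := Nat.le_of_dvd (by omega) hdvd
        omega).symm
    have hassoc : Associated (η - 1) (η ^ (i - 1) - 1) :=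
      hη.associated_sub_one_pow_sub_one_of_coprime hcop
    have hfac : η ^ i - η = η * (η ^ (i - 1) - 1) := by
      rw [mul_sub, mul_one, ← pow_succ', Nat.sub_add_cancel h1]
    rw [hfac] at hmem
    rcases (inferInstance : Q.IsPrime).mem_or_mem hmem with h2 | h2
    · exact Ideal.IsPrime.ne_top inferInstance
        (Q.eq_top_of_isUnit_mem h2 (hη.isUnit hl.out.ne_zero))
    · obtain ⟨t, ht⟩ := hassoc.symm.dvd.trans hd
      exact hQ (ht ▸ Q.mul_mem_right t h2)

omit hl hM in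
theorem ramificationIdx'_eq_card_inertia {q : Ideal (𝓞 K)} [q.IsPrime] (hq : q ≠ ⊥)
    {Q : Ideal (𝓞 M)} [Q.IsPrime] [Q.LiesOver q] :
    q.ramificationIdx' Q = Nat.card (Q.inertia (M ≃ₐ[K] M)) := by
  have : q.IsMaximal := Ideal.IsPrime.isMaximal inferInstance hq
  rw [card_inertia_eq_ramificationIdxIn (G := M ≃ₐ[K] M) q Q,
    ramificationIdxIn_eq_ramificationIdx q Q (M ≃ₐ[K] M),
    ramificationIdx'_eq_ramificationIdx _ _ hq]

omit hl hM in
/-- The multiplicity of `Q` in an element of `K`. -/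
theorem emultiplicity_algebraMap {q : Ideal (𝓞 K)} [q.IsPrime] (hq : q ≠ ⊥)
    {Q : Ideal (𝓞 M)} [Q.IsPrime] [Q.LiesOver q] (hQ : Q ≠ ⊥) {x : 𝓞 K} (hx : x ≠ 0) :
    emultiplicity Q (span {algebraMap (𝓞 K) (𝓞 M) x}) =
      Nat.card (Q.inertia (M ≃ₐ[K] M)) * emultiplicity q (span {x}) := by
  rw [← ramificationIdx'_eq_card_inertia hq,
    ← IsDedekindDomain.emultiplicity_map_eq_ramificationIdx'_mul
    (by simpa using hx) (Ideal.prime_of_isPrime hq inferInstance).irreducible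
    (Ideal.prime_of_isPrime hQ inferInstance).irreducible hQ, Ideal.map_span, Set.image_singleton]

omit hl hM [IsGalois K M] in
/-- A finite multiplicity in Dedekind domains. -/
theorem exists_emultiplicity_eq {R : Type*} [CommRing R] [IsDedekindDomain R] {Q : Ideal R}
    [Q.IsPrime] (hQ : Q ≠ ⊥) {x : R} (hx : x ≠ 0) :
    ∃ m : ℕ, emultiplicity Q (span {x}) = m := by
  have hP := Ideal.prime_of_isPrime hQ inferInstance
  have hx' : span ({x} : Set R) ≠ 0 := by simpa using hx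
  exact ⟨_, (FiniteMultiplicity.of_prime_left hP hx').emultiplicity_eq_multiplicity⟩

section Beta

variable {β : 𝓞 M} (hβ : β ≠ 0) {s : M ≃ₐ[K] M}
  (hs : ∀ x, x ∈ Subgroup.zpowers s) {ξ : (𝓞 M)ˣ} (hsβ : s • β = (ξ : 𝓞 M) * β)

include hs hsβ in
omit hl hM [IsGalois K M] in
theorem associated_smul (τ : M ≃ₐ[K] M) : Associated β (τ • β) := by
  have key : ∀ i : ℕ, Associated β (s ^ i • β) := by
    intro i
    induction i with
    | zero => simp
    | succ i ih =>
      have h1 : Associated (s • β) (s • (s ^ i • β)) :=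
        ih.map (MulSemiringAction.toRingHom (M ≃ₐ[K] M) (𝓞 M) s)
      rw [pow_succ', mul_smul]
      refine Associated.trans ?_ h1
      rw [hsβ]
      exact (associated_unit_mul_left β ξ ξ.isUnit).symm
  obtain ⟨i, rfl⟩ := (mem_powers_iff_mem_zpowers.2 (hs τ) : τ ∈ Submonoid.powers s)
  exact key i

include hs hsβ in
omit hl hM in
theorem span_algebraMap_norm : span {algebraMap (𝓞 K) (𝓞 M) (RingOfIntegers.norm K β)} =
    span {β} ^ Nat.card (M ≃ₐ[K] M) := by
  have h1 : algebraMap (𝓞 K) (𝓞 M) (RingOfIntegers.norm K β) = ∏ τ : M ≃ₐ[K] M, τ • β := by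
    apply RingOfIntegers.coe_injective
    rw [map_prod]
    exact Algebra.norm_eq_prod_automorphisms K (β : M)
  rw [h1, Ideal.span_singleton_pow, Nat.card_eq_fintype_card, ← Finset.card_univ,
    ← Finset.prod_const, Ideal.span_singleton_eq_span_singleton]
  exact (Associated.prod _ _ _ fun τ _ => associated_smul hs hsβ τ).symm

include hs hsβ hβ in
omit hl hM in
theorem card_mul_emultiplicity {q : Ideal (𝓞 K)} [q.IsPrime] (hq : q ≠ ⊥)
    {Q : Ideal (𝓞 M)} [Q.IsPrime] [Q.LiesOver q] (hQ : Q ≠ ⊥) :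
    (Nat.card (M ≃ₐ[K] M) : ℕ∞) * emultiplicity Q (span {β}) =
      Nat.card (Q.inertia (M ≃ₐ[K] M)) * emultiplicity q (span {RingOfIntegers.norm K β}) := by
  have h0 : algebraMap (𝓞 K) (𝓞 M) (RingOfIntegers.norm K β) ≠ 0 := fun h => by
    have h1 := span_algebraMap_norm hs hsβ
    rw [h, Ideal.span_singleton_eq_bot.2 rfl] at h1
    exact pow_ne_zero _ (show span ({β} : Set (𝓞 M)) ≠ 0 by simpa using hβ) h1.symm
  rw [← emultiplicity_algebraMap hq hQ (fun h => h0 (by rw [h, map_zero])),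
    span_algebraMap_norm hs hsβ, emultiplicity_pow (Ideal.prime_of_isPrime hQ inferInstance)]

include hη hM in
/-- Over a prime of ramification one over `l`: `M/K` is totally ramified. -/
theorem totally_ramified {q : Ideal (𝓞 K)} [q.IsPrime] (hq : q ≠ ⊥)
    (hlq : emultiplicity q (span {(l : 𝓞 K)}) = 1) {Q : Ideal (𝓞 M)} [Q.IsPrime]
    [Q.LiesOver q] (hQ : Q ≠ ⊥) :
    Nat.card (M ≃ₐ[K] M) = l - 1 ∧ Nat.card (Q.inertia (M ≃ₐ[K] M)) = l - 1 ∧
      emultiplicity Q (span {η - 1}) = 1 := by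
  have hl0 : (l : 𝓞 K) ≠ 0 := Nat.cast_ne_zero.2 hl.out.ne_zero
  have hη0 : η - 1 ≠ 0 := sub_ne_zero.2 (hη.ne_one hl.out.one_lt)
  have hassoc : Associated ((η - 1) ^ (l - 1)) (l : 𝓞 M) := by
    rw [← Polynomial.eval_one_cyclotomic_prime (R := 𝓞 M) (p := l),
      Polynomial.cyclotomic_eq_prod_X_sub_primitiveRoots hη, Polynomial.eval_prod]
    simp only [Polynomial.eval_sub, Polynomial.eval_X, Polynomial.eval_C]
    rw [← Nat.totient_prime hl.out, ← hη.card_primitiveRoots, ← Finset.prod_const]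
    refine Associated.prod _ _ _ fun μ hμ => ?_
    obtain ⟨i, -, hcop, rfl⟩ := hη.isPrimitiveRoot_iff.1 (isPrimitiveRoot_of_mem_primitiveRoots hμ)
    simpa using (hη.associated_sub_one_pow_sub_one_of_coprime hcop).neg_right
  have heq := emultiplicity_algebraMap (K := K) (M := M) (Q := Q) hq hQ hl0
  rw [map_natCast, ← Ideal.span_singleton_eq_span_singleton.2 hassoc, ← Ideal.span_singleton_pow,
    emultiplicity_pow (Ideal.prime_of_isPrime hQ inferInstance), hlq, mul_one] at heq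
  obtain ⟨v, hv⟩ := exists_emultiplicity_eq hQ hη0
  rw [hv] at heq ⊢
  have heq' : (l - 1) * v = Nat.card (Q.inertia (M ≃ₐ[K] M)) := by exact_mod_cast heq
  have hle1 : Nat.card (Q.inertia (M ≃ₐ[K] M)) ≤ Nat.card (M ≃ₐ[K] M) :=
    Subgroup.card_le_card_group _
  have hle2 := card_aut_le (K := K) hη
  have hpos : 0 < Nat.card (Q.inertia (M ≃ₐ[K] M)) := Nat.card_pos
  have hv1 : v = 1 := by
    rcases Nat.lt_or_ge v 2 with h | h
    · rcases v with _ | v
      · omega
      · omega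
    · have : (l - 1) * 2 ≤ (l - 1) * v := Nat.mul_le_mul_left _ h
      omega
  subst hv1
  refine ⟨?_, ?_, Nat.cast_one⟩ <;> omega

include hη hM hs hsβ hβ in
/-- Multiplicities of the norm away from `l` are divisible by `#G`. -/
theorem dvd_multiplicity_norm {q : Ideal (𝓞 K)} [q.IsPrime] (hq : q ≠ ⊥) (hlq : (l : 𝓞 K) ∉ q)
    {m : ℕ} (hm : emultiplicity q (span {RingOfIntegers.norm K β}) = m) :
    Nat.card (M ≃ₐ[K] M) ∣ m := by
  obtain ⟨⟨Q, hQp, hQq⟩⟩ := (inferInstance : Nonempty (q.primesOver (𝓞 M)))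
  have hQ : Q ≠ ⊥ := Ideal.ne_bot_of_liesOver_of_ne_bot hq Q
  have hlQ : (l : 𝓞 M) ∉ Q := fun h => hlq (by
    rw [Q.over_def q, Ideal.under_def, Ideal.mem_comap, map_natCast]
    exact h)
  have h := card_mul_emultiplicity hβ hs hsβ hq (Q := Q) hQ
  obtain ⟨v, hv⟩ := exists_emultiplicity_eq hQ hβ
  rw [inertia_eq_bot hη hlQ, Subgroup.card_bot, Nat.cast_one, one_mul, hm, hv] at h
  exact ⟨v, by exact_mod_cast h.symm⟩

include hη hM hs hsβ hβ in
/-- At a prime over `l`, `g ^ m ≡ ξ`. -/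
theorem pow_multiplicity_norm_sub {q : Ideal (𝓞 K)} [q.IsPrime] (hq : q ≠ ⊥)
    (hlq : emultiplicity q (span {(l : 𝓞 K)}) = 1) {g : ℕ} (hg : s • η = η ^ g)
    {x : 𝓞 K} (hξ : (ξ : 𝓞 M) - algebraMap (𝓞 K) (𝓞 M) x ∈ span {η - 1})
    {m : ℕ} (hm : emultiplicity q (span {RingOfIntegers.norm K β}) = m) :
    (g : 𝓞 K) ^ m - x ∈ q := by
  obtain ⟨⟨Q, hQp, hQq⟩⟩ := (inferInstance : Nonempty (q.primesOver (𝓞 M)))
  have hQ : Q ≠ ⊥ := Ideal.ne_bot_of_liesOver_of_ne_bot hq Q
  have : Q.IsMaximal := Ideal.IsPrime.isMaximal inferInstance hQ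
  have hP := Ideal.prime_of_isPrime hQ inferInstance
  obtain ⟨hcardG, hcardI, hlam⟩ := totally_ramified (K := K) hη hq hlq (Q := Q) hQ
  have hinertia : Q.inertia (M ≃ₐ[K] M) = ⊤ := by
    rw [← Subgroup.card_eq_iff_eq_top]
    omega
  have hact : ∀ z : 𝓞 M, s • z - z ∈ Q := fun z =>
    (hinertia ▸ Subgroup.mem_top s : s ∈ Q.inertia (M ≃ₐ[K] M)) z
  have hvβ : emultiplicity Q (span {β}) = m := by
    obtain ⟨v, hv⟩ := exists_emultiplicity_eq hQ hβ
    have h := card_mul_emultiplicity hβ hs hsβ hq (Q := Q) hQ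
    rw [hv, hm, hcardG, hcardI] at h
    have h' : (l - 1) * v = (l - 1) * m := by exact_mod_cast h
    rw [hv, Nat.eq_of_mul_eq_mul_left (by have := hl.out.two_le; omega) h']
  obtain ⟨h1, h2⟩ := emultiplicity_eq_coe.1 hvβ
  rw [dvd_span_singleton] at h1 h2
  have hlamQ : η - 1 ∈ Q ∧ η - 1 ∉ Q ^ 2 := by
    obtain ⟨a, b⟩ := emultiplicity_eq_coe.1 (show emultiplicity Q (span {η - 1}) = ((1 : ℕ) : ℕ∞) by
      rw [hlam, Nat.cast_one])
    rw [dvd_span_singleton] at a b
    exact ⟨by simpa using a, b⟩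
  have hlm : (η - 1) ^ m ∈ Q ^ m ∧ (η - 1) ^ m ∉ Q ^ (m + 1) := by
    have hem : emultiplicity Q (span {(η - 1) ^ m}) = m := by
      rw [← Ideal.span_singleton_pow, emultiplicity_pow hP, hlam, mul_one]
    obtain ⟨a, b⟩ := emultiplicity_eq_coe.1 hem
    rw [dvd_span_singleton] at a b
    exact ⟨a, b⟩
  -- `β ≡ w (η - 1) ^ m mod Q ^ (m+1)`
  have hsup : span {(η - 1) ^ m} ⊔ Q ^ (m + 1) = Q ^ m :=
    Ideal.eq_prime_pow_of_succ_lt_of_le hQ
      (right_lt_sup.2 fun hle => hlm.2 (hle (Ideal.mem_span_singleton_self _)))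
      (sup_le ((Ideal.span_singleton_le_iff_mem _).2 hlm.1)
        (Ideal.pow_le_pow_right (Nat.le_succ m)))
  obtain ⟨w, r, hr, hwr⟩ : ∃ w r, r ∈ Q ^ (m + 1) ∧ β = w * (η - 1) ^ m + r := by
    have : β ∈ span {(η - 1) ^ m} ⊔ Q ^ (m + 1) := hsup ▸ h1
    obtain ⟨a, ha, r, hr, hsum⟩ := Submodule.mem_sup.1 this
    obtain ⟨w, rfl⟩ := Ideal.mem_span_singleton'.1 ha
    exact ⟨w, r, hr, hsum.symm⟩
  have hw : w ∉ Q := fun h => h2 (by
    rw [hwr, pow_succ']
    exact Ideal.add_mem _ (Ideal.mul_mem_mul h hlm.1) (by rwa [← pow_succ']))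
  have hgQ : (∑ i ∈ Finset.range g, η ^ i) - (g : 𝓞 M) ∈ Q := by
    rw [show ((g : ℕ) : 𝓞 M) = ∑ i ∈ Finset.range g, (1 : 𝓞 M) by simp, ← Finset.sum_sub_distrib]
    refine Ideal.sum_mem _ fun i _ => ?_
    obtain ⟨t, ht⟩ := sub_one_dvd_pow_sub_one η i
    exact ht ▸ Q.mul_mem_right t hlamQ.1
  have hsr : s • r ∈ Q ^ (m + 1) := by
    have hmap : (Q ^ (m + 1)).map (MulSemiringAction.toRingHom (M ≃ₐ[K] M) (𝓞 M) s) ≤
        Q ^ (m + 1) := by
      rw [Ideal.map_pow]
      refine Ideal.pow_right_mono ?_ _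
      rw [Ideal.map_le_iff_le_comap]
      intro z hz
      rw [Ideal.mem_comap]
      have := Q.add_mem (hact z) hz
      rwa [sub_add_cancel] at this
    exact hmap (Ideal.mem_map_of_mem _ hr)
  set u := ∑ i ∈ Finset.range g, η ^ i with hu
  have hsl : s • ((η - 1) ^ m) = u ^ m * (η - 1) ^ m := by
    rw [smul_pow', smul_sub, smul_one, hg, ← mul_pow, geom_sum_mul]
  have key : (u ^ m * (s • w) - (ξ : 𝓞 M) * w) * (η - 1) ^ m ∈ Q ^ (m + 1) := by
    have e : (u ^ m * (s • w) - (ξ : 𝓞 M) * w) * (η - 1) ^ m = (ξ : 𝓞 M) * r - s • r := by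
      have h3 := congrArg (fun z => s • z) hwr
      simp only [hsβ, smul_add, smul_mul', hsl] at h3
      rw [hwr] at h3
      linear_combination -h3
    rw [e]
    exact Ideal.sub_mem _ (Ideal.mul_mem_left _ _ hr) hsr
  have key' : u ^ m * (s • w) - (ξ : 𝓞 M) * w ∈ Q :=
    (Ideal.IsPrime.mul_mem_pow Q key).resolve_right hlm.2
  have hxQ : algebraMap (𝓞 K) (𝓞 M) ((g : 𝓞 K) ^ m - x) ∈ Q := by
    have hξQ : (ξ : 𝓞 M) - algebraMap (𝓞 K) (𝓞 M) x ∈ Q :=
      ((Ideal.span_singleton_le_iff_mem _).2 hlamQ.1) hξ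
    have hup : u ^ m - (g : 𝓞 M) ^ m ∈ Q := by
      obtain ⟨t, ht⟩ := sub_dvd_pow_sub_pow u (g : 𝓞 M) m
      exact ht ▸ Q.mul_mem_right t hgQ
    have hprod : w * algebraMap (𝓞 K) (𝓞 M) ((g : 𝓞 K) ^ m - x) ∈ Q := by
      have e : w * algebraMap (𝓞 K) (𝓞 M) ((g : 𝓞 K) ^ m - x) =
          (u ^ m * (s • w) - (ξ : 𝓞 M) * w) - (u ^ m * (s • w - w)) - w * (u ^ m - (g : 𝓞 M) ^ m)
            + w * ((ξ : 𝓞 M) - algebraMap (𝓞 K) (𝓞 M) x) := by
        rw [map_sub, map_pow, map_natCast]; ring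
      rw [e]
      exact Q.add_mem (Q.sub_mem (Q.sub_mem key' (Q.mul_mem_left _ (hact w)))
        (Q.mul_mem_left _ hup)) (Q.mul_mem_left _ hξQ)
    exact ((inferInstance : Q.IsPrime).mem_or_mem hprod).resolve_left hw
  rw [Q.over_def q, Ideal.under_def, Ideal.mem_comap]
  exact hxQ

end Beta

end FLTAgent.ExtVanishing
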